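/-
PROGRAMME MW (S17), block HT — helper3.  `PolyLoc3`: LOCAL polynomial estimates at a single place
`v` (the fixed absolute value `absV v` on `Qbar`), for polynomials with coefficients in `Qbar`:
* `coeffC v p`: the local size of the coefficients (`∑ |c|` at `∞`, `sup |c|_p` at `p`);
  it equals `1` for almost all `v` (`finite_coeffC_ne_one`);
* `absV_eval_le`: `|p(x)|_v ≤ coeffC v p * supN v x ^ N`;
* `supN_eval_ge`: the local lower bound from a pointwise certificate.
-/
import Mathlib
import Fermat.Agent.MW.HT.Lin3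

set_option autoImplicit false

namespace Fermat.Agent.MW.HT.PolyLoc3

open Fermat.Agent.MW.HT.Place3 Fermat.Agent.MW.HT.Orbit3 Fermat.Agent.MW.HT.Glob3
  Fermat.Agent.MW.HT.PF3 Fermat.Agent.MW.HT.Ht3 Fermat.Agent.MW.HT.Lin3

open MvPolynomial

variable {ι κ : Type*}

/-- The local size of the coefficients of `p` at `v`. -/
noncomputable def coeffC (v : Place) (p : MvPolynomial ι Qbar) : ℝ :=
  match v with
  | none => ∑ s ∈ p.support, absV none (coeff s p)
  | some q => ⨆ s : p.support, absV (some q) (coeff s.1 p)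

theorem coeffC_none (p : MvPolynomial ι Qbar) :
    coeffC none p = ∑ s ∈ p.support, absV none (coeff s p) := rfl

theorem coeffC_some (q : Nat.Primes) (p : MvPolynomial ι Qbar) :
    coeffC (some q) p = ⨆ s : p.support, absV (some q) (coeff s.1 p) := rfl

theorem coeffC_nonneg (v : Place) (p : MvPolynomial ι Qbar) : 0 ≤ coeffC v p := by
  rcases v with _ | q
  · exact Finset.sum_nonneg fun s _ => (absV none).nonneg _
  · exact Real.iSup_nonneg fun s => (absV (some q)).nonneg _

theorem coeffC_zero (v : Place) : coeffC v (0 : MvPolynomial ι Qbar) = 0 := by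
  rcases v with _ | q
  · simp [coeffC_none]
  · rw [coeffC_some]
    have : IsEmpty ((0 : MvPolynomial ι Qbar).support) := by
      rw [support_zero]
      exact Finset.isEmpty_coe_sort.mpr rfl
    exact Real.iSup_of_isEmpty _

/-- `|p(x)|_v ≤ coeffC v p * supN v x ^ N` for a form `p` of degree `N`. -/
theorem absV_eval_le [Finite ι] (v : Place) {p : MvPolynomial ι Qbar} {N : ℕ}
    (hp : p.IsHomogeneous N) (x : ι → Qbar) :
    absV v (eval x p) ≤ coeffC v p * supN v x ^ N := by
  rcases v with _ | q
  · exact (absV none).eval_mvPolynomial_le hp x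
  · exact (absV_nonarch q).eval_mvPolynomial_le hp x

/-- The coefficient size is `1` at almost all places. -/
theorem finite_coeffC_ne_one {p : MvPolynomial ι Qbar} (hp : p ≠ 0) :
    {v : Place | coeffC v p ≠ 1}.Finite := by
  classical
  have hbad : (insert (none : Place) (⋃ s ∈ p.support,
      {v : Place | ∃ σ : GQ, absV v (σ (coeff s p)) ≠ 1})).Finite := by
    refine Set.Finite.insert _ ?_
    exact Set.Finite.biUnion p.support.finite_toSet fun s hs =>
      finite_absV_ne_one (mem_support_iff.mp hs)
  refine hbad.subset ?_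
  intro v hv
  rcases v with _ | q
  · exact Set.mem_insert _ _
  · refine Set.mem_insert_of_mem _ ?_
    by_contra hnot
    simp only [Set.mem_iUnion, not_exists] at hnot
    apply hv
    have hone : ∀ s ∈ p.support, absV (some q) (coeff s p) = 1 := by
      intro s hs
      by_contra h1
      refine hnot s (Finset.mem_coe.mpr hs) ⟨1, ?_⟩
      simpa using h1
    rw [coeffC_some]
    obtain ⟨s₀, hs₀⟩ := support_nonempty.mpr hp
    have : Nonempty p.support := ⟨⟨s₀, hs₀⟩⟩
    rw [show (fun s : p.support => absV (some q) (coeff s.1 p)) = fun _ => (1 : ℝ) from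
      funext fun s => hone s.1 s.2]
    exact ciSup_const

/-- Local lower bound from a pointwise certificate `∑ j, q_{kj}(x) p_j(x) = x_k ^ (M+N)`. -/
theorem supN_eval_ge [Finite ι] [Fintype κ] (v : Place) {M N : ℕ}
    (q : ι × κ → MvPolynomial ι Qbar) (hq : ∀ a, (q a).IsHomogeneous M)
    (p : κ → MvPolynomial ι Qbar) {x : ι → Qbar} (hx : x ≠ 0)
    (h : ∀ k, ∑ j, eval x (q (k, j)) * eval x (p j) = x k ^ (M + N)) :
    supN v x ^ N ≤ archC (Fintype.card κ) v * (⨆ a, coeffC v (q a))
      * supN v (fun j => eval x (p j)) := by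
  have hne : Nonempty ι := (Function.ne_iff.mp hx).nonempty
  have hpos : 0 < supN v x := supN_pos v hx
  set Cq : ℝ := ⨆ a, coeffC v (q a) with hCq
  have hCq0 : 0 ≤ Cq := Real.iSup_nonneg fun a => coeffC_nonneg v (q a)
  have hpow : x ^ (M + N) = fun k => ∑ᶠ j, (fun a => eval x (q a)) (k, j) * eval x (p j) := by
    funext k
    rw [Pi.pow_apply, finsum_eq_sum_of_fintype]
    exact (h k).symm
  have h1 := supN_linearMap_le v (fun a => eval x (q a)) (fun j => eval x (p j))
  rw [← hpow, supN_pow, Nat.card_eq_fintype_card] at h1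
  have h2 : supN v (fun a => eval x (q a)) ≤ Cq * supN v x ^ M := by
    refine supN_le v _ (mul_nonneg hCq0 (pow_nonneg hpos.le _)) fun a => ?_
    refine (absV_eval_le v (hq a) x).trans ?_
    exact mul_le_mul_of_nonneg_right (Finite.le_ciSup (fun a => coeffC v (q a)) a)
      (pow_nonneg hpos.le _)
  have hc0 : 0 ≤ archC (Fintype.card κ) v := by
    rcases v with _ | r
    · rw [archC_none]
      exact Nat.cast_nonneg _
    · rw [archC_some]
      exact zero_le_one
  have hP0 : 0 ≤ supN v (fun j => eval x (p j)) := supN_nonneg v _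
  have h3 : supN v x ^ (M + N) ≤ supN v x ^ M *
      (archC (Fintype.card κ) v * Cq * supN v (fun j => eval x (p j))) := by
    calc supN v x ^ (M + N)
        ≤ archC (Fintype.card κ) v * supN v (fun a => eval x (q a))
            * supN v (fun j => eval x (p j)) := h1
      _ ≤ archC (Fintype.card κ) v * (Cq * supN v x ^ M)
            * supN v (fun j => eval x (p j)) := by
          exact mul_le_mul_of_nonneg_right (mul_le_mul_of_nonneg_left h2 hc0) hP0
      _ = _ := by ring
  rw [pow_add] at h3
  exact le_of_mul_le_mul_left h3 (pow_pos hpos M)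

/-- The supremum of the coefficient sizes of a finite family, not all zero, is `1` at almost all
places. -/
theorem finite_iSup_coeffC_ne_one [Finite κ] (q : κ → MvPolynomial ι Qbar)
    (hq : ∃ a, q a ≠ 0) : {v : Place | (⨆ a, coeffC v (q a)) ≠ 1}.Finite := by
  classical
  have := Fintype.ofFinite κ
  have hbad : (⋃ a ∈ (Finset.univ.filter fun a => q a ≠ 0 : Finset κ),
      {v : Place | coeffC v (q a) ≠ 1}).Finite :=
    Set.Finite.biUnion (Finset.finite_toSet _) fun a ha =>
      finite_coeffC_ne_one (Finset.mem_filter.mp ha).2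
  refine hbad.subset ?_
  intro v hv
  by_contra hnot
  simp only [Set.mem_iUnion, not_exists] at hnot
  apply hv
  have hone : ∀ a, q a ≠ 0 → coeffC v (q a) = 1 := by
    intro a ha
    by_contra h1
    exact hnot a (Finset.mem_coe.mpr (Finset.mem_filter.mpr ⟨Finset.mem_univ _, ha⟩)) h1
  obtain ⟨a₀, ha₀⟩ := hq
  apply le_antisymm
  · refine Real.iSup_le (fun a => ?_) zero_le_one
    by_cases ha : q a = 0
    · rw [ha, coeffC_zero]
      exact zero_le_one
    · exact (hone a ha).le
  · calc (1 : ℝ) = coeffC v (q a₀) := (hone a₀ ha₀).symm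
      _ ≤ ⨆ a, coeffC v (q a) := Finite.le_ciSup (fun a => coeffC v (q a)) a₀

end Fermat.Agent.MW.HT.PolyLoc3
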