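/-
PROGRAMME MW (S17), block HT — helper3.  `MultiLoc3`: LOCAL bounds at a single place `v` for
MULTI-HOMOGENEOUS polynomials over `Qbar`.  The variables `σ` are split into `r` groups by
`grp : σ → Fin r`; the weight of the variable `i` is `Finsupp.single (grp i) 1`, and
`xg v grp x g` is the sup norm of the `g`-th group of coordinates of `x`.
* `absV_eval_le_multi`: `|p(x)|_v ≤ coeffC v p * ∏ g, xg g ^ N g`;
* `supN_eval_ge_multi`: the lower bound from a pointwise multi-projective certificate.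
-/
import Mathlib
import Fermat.Agent.MW.HT.PolyLoc3

set_option autoImplicit false

namespace Fermat.Agent.MW.HT.MultiLoc3

open Fermat.Agent.MW.HT.Place3 Fermat.Agent.MW.HT.Ht3 Fermat.Agent.MW.HT.Lin3
  Fermat.Agent.MW.HT.PolyLoc3

open MvPolynomial

variable {σ : Type*} {r : ℕ}

/-- The sup norm of the `g`-th group of coordinates. -/
noncomputable def xg (v : Place) (grp : σ → Fin r) (x : σ → Qbar) (g : Fin r) : ℝ :=
  supN v (fun i : {i // grp i = g} => x i)

theorem xg_nonneg (v : Place) (grp : σ → Fin r) (x : σ → Qbar) (g : Fin r) :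
    0 ≤ xg v grp x g := supN_nonneg v _

theorem absV_le_xg [Finite σ] (v : Place) (grp : σ → Fin r) (x : σ → Qbar) (i : σ) :
    absV v (x i) ≤ xg v grp x (grp i) :=
  le_supN v (fun j : {j // grp j = grp i} => x j) ⟨i, rfl⟩

theorem xg_pos [Finite σ] (v : Place) (grp : σ → Fin r) {x : σ → Qbar} {g : Fin r}
    (hx : ∃ i, grp i = g ∧ x i ≠ 0) : 0 < xg v grp x g := by
  obtain ⟨i, rfl, hi⟩ := hx
  exact lt_of_lt_of_le ((absV v).pos hi) (absV_le_xg v grp x i)

/-- In each nonempty group there is a coordinate of maximal absolute value. -/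
theorem exists_eq_xg [Finite σ] (v : Place) (grp : σ → Fin r) (x : σ → Qbar) {g : Fin r}
    (hg : ∃ i, grp i = g) : ∃ i, grp i = g ∧ absV v (x i) = xg v grp x g := by
  obtain ⟨i₀, hi₀⟩ := hg
  have : Nonempty {i // grp i = g} := ⟨⟨i₀, hi₀⟩⟩
  obtain ⟨i, hi⟩ := exists_eq_ciSup_of_finite (f := fun i : {i // grp i = g} => absV v (x i))
  exact ⟨i.1, i.2, hi⟩

/-- The `g`-component of the multi-degree of a monomial. -/
theorem weight_grp_apply (grp : σ → Fin r) (d : σ →₀ ℕ) (g : Fin r) :
    (Finsupp.weight (fun i => (Finsupp.single (grp i) 1 : Fin r →₀ ℕ)) d) g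
      = ∑ i ∈ d.support.filter (fun i => grp i = g), d i := by
  classical
  rw [Finsupp.weight_apply, Finsupp.sum, Finsupp.finsetSum_apply, Finset.sum_filter]
  refine Finset.sum_congr rfl fun i _ => ?_
  rw [Finsupp.smul_apply, Finsupp.single_apply, smul_eq_mul]
  split_ifs <;> simp

/-- The basic monomial estimate. -/
theorem prod_absV_pow_le [Finite σ] (v : Place) (grp : σ → Fin r) (x : σ → Qbar) (d : σ →₀ ℕ)
    {N : Fin r →₀ ℕ}
    (hd : Finsupp.weight (fun i => (Finsupp.single (grp i) 1 : Fin r →₀ ℕ)) d = N) :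
    ∏ i ∈ d.support, absV v (x i) ^ d i ≤ ∏ g, xg v grp x g ^ N g := by
  classical
  calc ∏ i ∈ d.support, absV v (x i) ^ d i
      ≤ ∏ i ∈ d.support, xg v grp x (grp i) ^ d i :=
        Finset.prod_le_prod (fun i _ => pow_nonneg ((absV v).nonneg _) _)
          fun i _ => pow_le_pow_left₀ ((absV v).nonneg _) (absV_le_xg v grp x i) _
    _ = ∏ g, ∏ i ∈ d.support.filter (fun i => grp i = g), xg v grp x (grp i) ^ d i :=
        (Finset.prod_fiberwise d.support grp fun i => xg v grp x (grp i) ^ d i).symm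
    _ = ∏ g, xg v grp x g ^ N g := by
        refine Finset.prod_congr rfl fun g _ => ?_
        rw [← hd, weight_grp_apply, ← Finset.prod_pow_eq_pow_sum]
        refine Finset.prod_congr rfl fun i hi => ?_
        rw [(Finset.mem_filter.mp hi).2]

/-- **(M1)** `|p(x)|_v ≤ coeffC v p * ∏ g, xg g ^ N g` for a multi-homogeneous `p` of
multi-degree `N`. -/
theorem absV_eval_le_multi [Finite σ] (v : Place) (grp : σ → Fin r) {p : MvPolynomial σ Qbar}
    {N : Fin r →₀ ℕ}
    (hp : IsWeightedHomogeneous (fun i => (Finsupp.single (grp i) 1 : Fin r →₀ ℕ)) p N)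
    (x : σ → Qbar) :
    absV v (eval x p) ≤ coeffC v p * ∏ g, xg v grp x g ^ N g := by
  classical
  have hP : 0 ≤ ∏ g, xg v grp x g ^ N g :=
    Finset.prod_nonneg fun g _ => pow_nonneg (xg_nonneg v grp x g) _
  have hterm : ∀ s ∈ p.support,
      absV v (coeff s p * ∏ i ∈ s.support, x i ^ s i)
        ≤ absV v (coeff s p) * ∏ g, xg v grp x g ^ N g := by
    intro s hs
    rw [map_mul, map_prod]
    simp_rw [map_pow]
    exact mul_le_mul_of_nonneg_left
      (prod_absV_pow_le v grp x s (hp (mem_support_iff.mp hs))) ((absV v).nonneg _)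
  rw [eval_eq]
  rcases v with _ | q
  · rw [coeffC_none, Finset.sum_mul]
    exact ((absV none).sum_le _ _).trans (Finset.sum_le_sum hterm)
  · rcases eq_or_ne p 0 with rfl | hp0
    · simp [coeffC_zero]
    obtain ⟨s, hs₁, hs₂⟩ :=
      (absV_nonarch q).finset_image_add_of_nonempty
        (fun d => coeff d p * ∏ i ∈ d.support, x i ^ d i) (support_nonempty.mpr hp0)
    refine hs₂.trans ((hterm s hs₁).trans ?_)
    refine mul_le_mul_of_nonneg_right ?_ hP
    rw [coeffC_some]
    exact Finite.le_ciSup (fun s : p.support => absV (some q) (coeff s.1 p)) ⟨s, hs₁⟩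

/-- **(M2)** Local lower bound from a pointwise multi-projective certificate
`∑ j, q_{kj}(x) p_j(x) = ∏ g, x_{k g} ^ (M g + N g)` (one identity for every choice `k` of one
variable in each group). -/
theorem supN_eval_ge_multi [Finite σ] {J : Type*} [Fintype J] (v : Place) (grp : σ → Fin r)
    {M N : Fin r →₀ ℕ}
    (q : {k : Fin r → σ // ∀ g, grp (k g) = g} × J → MvPolynomial σ Qbar)
    (hq : ∀ a, IsWeightedHomogeneous (fun i => (Finsupp.single (grp i) 1 : Fin r →₀ ℕ)) (q a) M)
    (p : J → MvPolynomial σ Qbar) (x : σ → Qbar)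
    (hx : ∀ g, ∃ i, grp i = g ∧ x i ≠ 0)
    (h : ∀ k : {k : Fin r → σ // ∀ g, grp (k g) = g},
      ∑ j, eval x (q (k, j)) * eval x (p j) = ∏ g, x (k.1 g) ^ (M g + N g)) :
    ∏ g, xg v grp x g ^ N g
      ≤ archC (Fintype.card J) v * (⨆ a, coeffC v (q a)) * supN v (fun j => eval x (p j)) := by
  classical
  have hpos : ∀ g, 0 < xg v grp x g := fun g => xg_pos v grp (hx g)
  -- choose a maximal coordinate in each group
  have hch : ∀ g, ∃ i, grp i = g ∧ absV v (x i) = xg v grp x g := fun g =>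
    exists_eq_xg v grp x (by obtain ⟨i, hi, _⟩ := hx g; exact ⟨i, hi⟩)
  choose k hk hkmax using hch
  set kk : {k : Fin r → σ // ∀ g, grp (k g) = g} := ⟨k, hk⟩ with hkk
  set Cq : ℝ := ⨆ a, coeffC v (q a) with hCq
  have hCq0 : 0 ≤ Cq := Real.iSup_nonneg fun a => coeffC_nonneg v (q a)
  set PM : ℝ := ∏ g, xg v grp x g ^ M g with hPM
  set PN : ℝ := ∏ g, xg v grp x g ^ N g with hPN
  have hPMpos : 0 < PM := Finset.prod_pos fun g _ => pow_pos (hpos g) _
  have hPN0 : 0 ≤ PN := Finset.prod_nonneg fun g _ => pow_nonneg (hpos g).le _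
  have hP0 : 0 ≤ supN v (fun j => eval x (p j)) := supN_nonneg v _
  have hc0 : 0 ≤ archC (Fintype.card J) v := by
    rcases v with _ | t
    · rw [archC_none]
      exact Nat.cast_nonneg _
    · rw [archC_some]
      exact zero_le_one
  -- the certificate at `kk`
  have hcert := h kk
  have hlhs : absV v (∏ g, x (kk.1 g) ^ (M g + N g)) = PM * PN := by
    rw [map_prod, hPM, hPN, ← Finset.prod_mul_distrib]
    refine Finset.prod_congr rfl fun g _ => ?_
    rw [map_pow, pow_add]
    show absV v (x (k g)) ^ M g * absV v (x (k g)) ^ N g = _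
    rw [hkmax g]
  -- linear map bound with `κ = Unit`
  have h1 := supN_linearMap_le v (fun a : Unit × J => eval x (q (kk, a.2)))
    (fun j => eval x (p j))
  have hsum : (fun _ : Unit => ∑ᶠ j, eval x (q (kk, j)) * eval x (p j))
      = fun _ : Unit => ∏ g, x (kk.1 g) ^ (M g + N g) := by
    funext _
    rw [finsum_eq_sum_of_fintype, hcert]
  rw [hsum, Nat.card_eq_fintype_card] at h1
  have h2 : absV v (∏ g, x (kk.1 g) ^ (M g + N g))
      ≤ supN v (fun _ : Unit => ∏ g, x (kk.1 g) ^ (M g + N g)) :=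
    le_supN v (fun _ : Unit => ∏ g, x (kk.1 g) ^ (M g + N g)) ()
  have h3 : supN v (fun a : Unit × J => eval x (q (kk, a.2))) ≤ Cq * PM := by
    refine supN_le v _ (mul_nonneg hCq0 hPMpos.le) fun a => ?_
    refine (absV_eval_le_multi v grp (hq (kk, a.2)) x).trans ?_
    exact mul_le_mul_of_nonneg_right (Finite.le_ciSup (fun a => coeffC v (q a)) (kk, a.2))
      hPMpos.le
  have h4 : PM * PN ≤ PM * (archC (Fintype.card J) v * Cq * supN v (fun j => eval x (p j))) := by
    calc PM * PN = absV v (∏ g, x (kk.1 g) ^ (M g + N g)) := hlhs.symm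
      _ ≤ archC (Fintype.card J) v * supN v (fun a : Unit × J => eval x (q (kk, a.2)))
            * supN v (fun j => eval x (p j)) := h2.trans h1
      _ ≤ archC (Fintype.card J) v * (Cq * PM) * supN v (fun j => eval x (p j)) :=
          mul_le_mul_of_nonneg_right (mul_le_mul_of_nonneg_left h3 hc0) hP0
      _ = _ := by ring
  exact le_of_mul_le_mul_left h4 hPMpos

end Fermat.Agent.MW.HT.MultiLoc3
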