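/-
PROGRAMME MW (S17), block HT — helper3.  `Ht3`: the local sup norm `supN v x`, the ABSOLUTE
LOGARITHMIC PROJECTIVE HEIGHT `ht x` of a tuple of algebraic numbers (sum over the places of `ℚ` of
the Galois averages of `log (supN v ·)`), and its basic properties: `ht_map` (height of an
equivariant image as a global sum over the master configuration), nonnegativity, invariance under
scaling, Galois conjugation and reindexing, restriction to the support, Segre products, powers.
-/
import Mathlib
import Fermat.Agent.MW.HT.PF3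

set_option autoImplicit false

namespace Fermat.Agent.MW.HT.Ht3

open Fermat.Agent.MW.HT.Place3 Fermat.Agent.MW.HT.Orbit3 Fermat.Agent.MW.HT.Glob3
  Fermat.Agent.MW.HT.PF3

variable {ι κ : Type*}

/-- The local sup norm of a tuple at the place `v`. -/
noncomputable def supN (v : Place) (x : ι → Qbar) : ℝ := ⨆ i, absV v (x i)

theorem supN_nonneg (v : Place) (x : ι → Qbar) : 0 ≤ supN v x :=
  Real.iSup_nonneg fun i => (absV v).nonneg (x i)

theorem le_supN [Finite ι] (v : Place) (x : ι → Qbar) (i : ι) : absV v (x i) ≤ supN v x :=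
  Finite.le_ciSup (fun i => absV v (x i)) i

theorem supN_le (v : Place) (x : ι → Qbar) {B : ℝ} (hB : 0 ≤ B)
    (h : ∀ i, absV v (x i) ≤ B) : supN v x ≤ B :=
  Real.iSup_le h hB

theorem supN_pos [Finite ι] (v : Place) {x : ι → Qbar} (hx : x ≠ 0) : 0 < supN v x := by
  obtain ⟨i, hi⟩ := Function.ne_iff.mp hx
  exact lt_of_lt_of_le ((absV v).pos hi) (le_supN v x i)

theorem supN_zero (v : Place) : supN v (0 : ι → Qbar) = 0 := by
  simp [supN]

theorem supN_smul (v : Place) (c : Qbar) (x : ι → Qbar) :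
    supN v (c • x) = absV v c * supN v x := by
  simp only [supN, Pi.smul_apply, smul_eq_mul, map_mul]
  exact (Real.mul_iSup_of_nonneg ((absV v).nonneg c) _).symm

theorem supN_comp_equiv (v : Place) (e : ι ≃ κ) (x : κ → Qbar) :
    supN v (x ∘ e) = supN v x :=
  e.iSup_congr fun _ => rfl

theorem supN_comp_le [Finite κ] (v : Place) (f : ι → κ) (x : κ → Qbar) :
    supN v (x ∘ f) ≤ supN v x :=
  supN_le v _ (supN_nonneg v x) fun i => le_supN v x (f i)

theorem supN_pow (v : Place) [Finite ι] [Nonempty ι] (x : ι → Qbar) (n : ℕ) :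
    supN v (x ^ n) = supN v x ^ n := by
  apply le_antisymm
  · refine supN_le v _ (pow_nonneg (supN_nonneg v x) n) fun i => ?_
    rw [Pi.pow_apply, map_pow]
    exact pow_le_pow_left₀ ((absV v).nonneg _) (le_supN v x i) n
  · obtain ⟨i, hi⟩ := exists_eq_ciSup_of_finite (f := fun i => absV v (x i))
    have : supN v x = absV v (x i) := hi.symm
    rw [this, ← map_pow]
    exact le_supN v (x ^ n) i

/-- Segre: the sup norm of the multiplication table is the product of the sup norms. -/
theorem supN_fun_mul (v : Place) [Finite ι] [Finite κ] (x : ι → Qbar) (y : κ → Qbar) :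
    supN v (fun a : ι × κ => x a.1 * y a.2) = supN v x * supN v y :=
  Real.iSup_fun_mul_eq_iSup_mul_iSup_of_nonneg (absV v) x y

/-- Equivariance of the basic maps. -/
theorem smul_ne_zero_iff [Finite ι] (σ : GQ) {x : ι → Qbar} : σ • x ≠ 0 ↔ x ≠ 0 := by
  constructor
  · rintro h rfl
    exact h (smul_zero σ)
  · intro h h0
    apply h
    have : σ⁻¹ • (σ • x) = 0 := by rw [h0, smul_zero]
    rwa [inv_smul_smul] at this

theorem ne_zero_of_mem_orbitFS [Finite ι] {x y : ι → Qbar} (hy : y ∈ orbitFS x) (hx : x ≠ 0) :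
    y ≠ 0 := by
  obtain ⟨σ, rfl⟩ := mem_orbitFS.mp hy
  exact (smul_ne_zero_iff σ).mpr hx

/-- For a nonzero tuple, all conjugates have sup norm `1` at almost all places. -/
theorem finite_supN_ne_one [Finite ι] {x : ι → Qbar} (hx : x ≠ 0) :
    {v : Place | ∃ y ∈ orbitFS x, supN v y ≠ 1}.Finite := by
  classical
  have := Fintype.ofFinite ι
  have hbad : (⋃ i ∈ (Finset.univ.filter fun i => x i ≠ 0 : Finset ι),
      {v : Place | ∃ σ : GQ, absV v (σ (x i)) ≠ 1}).Finite :=
    Set.Finite.biUnion (Finset.finite_toSet _) fun i hi =>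
      finite_absV_ne_one (Finset.mem_filter.mp hi).2
  refine hbad.subset ?_
  rintro v ⟨y, hy, hne⟩
  obtain ⟨σ, rfl⟩ := mem_orbitFS.mp hy
  by_contra hnot
  simp only [Set.mem_iUnion, not_exists] at hnot
  apply hne
  have hcoord : ∀ i, x i ≠ 0 → absV v (σ (x i)) = 1 := by
    intro i hi
    by_contra h1
    exact hnot i (Finset.mem_coe.mpr (Finset.mem_filter.mpr ⟨Finset.mem_univ _, hi⟩)) ⟨σ, h1⟩
  apply le_antisymm
  · refine supN_le v _ zero_le_one fun i => ?_
    show absV v (σ (x i)) ≤ 1
    by_cases hi : x i = 0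
    · rw [hi, map_zero, map_zero]
      exact zero_le_one
    · exact (hcoord i hi).le
  · obtain ⟨i, hi⟩ := Function.ne_iff.mp hx
    calc (1 : ℝ) = absV v (σ (x i)) := (hcoord i hi).symm
      _ ≤ supN v (σ • x) := le_supN v (σ • x) i

/-- The local heights `log (supN v (φ y))` of an equivariant image form an adelic family. -/
theorem adelic_log_supN_map [Finite ι] [Finite κ] {φ : (ι → Qbar) → (κ → Qbar)}
    (hφ : ∀ (σ : GQ) (y : ι → Qbar), φ (σ • y) = σ • φ y) (w : ι → Qbar) :
    Adelic (fun v y => Real.log (supN v (φ y))) w := by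
  by_cases h0 : φ w = 0
  · refine adelic_of_finset ∅ fun v _ y hy => ?_
    obtain ⟨σ, rfl⟩ := mem_orbitFS.mp hy
    show Real.log (supN v (φ (σ • w))) = 0
    rw [hφ, h0, smul_zero, supN_zero, Real.log_zero]
  · refine (finite_supN_ne_one h0).subset ?_
    rintro v ⟨y, hy, hne⟩
    refine ⟨φ y, map_mem_orbitFS hφ hy, fun h1 => hne ?_⟩
    show Real.log (supN v (φ y)) = 0
    rw [h1, Real.log_one]

theorem adelic_log_supN [Finite ι] (x : ι → Qbar) :
    Adelic (fun v y => Real.log (supN v y)) x :=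
  adelic_log_supN_map (φ := id) (fun _ _ => rfl) x

/-- The absolute logarithmic projective height of a tuple of algebraic numbers (`ht 0 = 0`). -/
noncomputable def ht [Finite ι] (x : ι → Qbar) : ℝ :=
  gsum (fun v y => Real.log (supN v y)) x

/-- The height of an equivariant image, as a global sum over the master configuration. -/
theorem ht_map [Finite ι] [Finite κ] {φ : (ι → Qbar) → (κ → Qbar)}
    (hφ : ∀ (σ : GQ) (y : ι → Qbar), φ (σ • y) = σ • φ y) (w : ι → Qbar) :
    ht (φ w) = gsum (fun v y => Real.log (supN v (φ y))) w :=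
  (gsum_comp hφ (fun v z => Real.log (supN v z)) w).symm

theorem ht_zero [Finite ι] : ht (0 : ι → Qbar) = 0 := by
  rw [ht, ← gsum_zero (0 : ι → Qbar)]
  refine gsum_congr fun v y hy => ?_
  obtain ⟨σ, rfl⟩ := mem_orbitFS.mp hy
  rw [smul_zero, supN_zero, Real.log_zero]

theorem ht_galois [Finite ι] (σ : GQ) (x : ι → Qbar) : ht (σ • x) = ht x :=
  gsum_smul_arg _ σ x

/-- Heights are nonnegative (product formula). -/
theorem ht_nonneg [Finite ι] (x : ι → Qbar) : 0 ≤ ht x := by
  by_cases hx : x = 0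
  · rw [hx, ht_zero]
  obtain ⟨i, hi⟩ := Function.ne_iff.mp hx
  have ha : ∀ (σ : GQ) (y : ι → Qbar), (fun y : ι → Qbar => y i) (σ • y) = σ ((fun y => y i) y) :=
    fun _ _ => rfl
  have hpf := product_formula (a := fun y : ι → Qbar => y i) ha (w := x) hi
  have had := adelic_log_absV (a := fun y : ι → Qbar => y i) ha (w := x) hi
  have hsupp : (Function.support (fun _ : Place => (0 : ℝ))).Finite := by simp
  have h := gsum_le_add_const (c := fun _ => 0) hsupp had (adelic_log_supN x) fun v y hy => by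
    have hy0 : y i ≠ 0 := by
      obtain ⟨σ, rfl⟩ := mem_orbitFS.mp hy
      exact (map_ne_zero _).mpr hi
    rw [add_zero]
    exact Real.log_le_log ((absV v).pos hy0) (le_supN v y i)
  rw [hpf] at h
  simpa [ht] using h

/-- Invariance of the height under scaling (product formula). -/
theorem ht_smul [Finite ι] (x : ι → Qbar) {c : Qbar} (hc : c ≠ 0) : ht (c • x) = ht x := by
  by_cases hx : x = 0
  · rw [hx, smul_zero]
  -- master configuration `w = (c, x)` indexed by `Option ι`
  set w : Option ι → Qbar := fun o => Option.elim o c x with hw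
  set φ : (Option ι → Qbar) → (ι → Qbar) := fun y => y none • fun i => y (some i) with hφdef
  set π : (Option ι → Qbar) → (ι → Qbar) := fun y => fun i => y (some i) with hπdef
  have hφ : ∀ (σ : GQ) (y : Option ι → Qbar), φ (σ • y) = σ • φ y := by
    intro σ y
    funext i
    show σ (y none) * σ (y (some i)) = σ (y none * y (some i))
    rw [map_mul]
  have hπ : ∀ (σ : GQ) (y : Option ι → Qbar), π (σ • y) = σ • π y := fun _ _ => rfl
  have ha : ∀ (σ : GQ) (y : Option ι → Qbar),
      (fun y : Option ι → Qbar => y none) (σ • y) = σ ((fun y => y none) y) := fun _ _ => rfl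
  have h1 : ht (c • x) = gsum (fun v y => Real.log (supN v (φ y))) w := ht_map hφ w
  have h2 : ht x = gsum (fun v y => Real.log (supN v (π y))) w := ht_map hπ w
  have h3 : gsum (fun v y => Real.log (absV v (y none))) w = 0 :=
    product_formula (a := fun y : Option ι → Qbar => y none) ha (w := w) hc
  have had1 : Adelic (fun v y => Real.log (absV v (y none))) w :=
    adelic_log_absV (a := fun y : Option ι → Qbar => y none) ha (w := w) hc
  have had2 : Adelic (fun v y => Real.log (supN v (π y))) w := adelic_log_supN_map hπ w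
  rw [h1, h2, ← zero_add (gsum (fun v y => Real.log (supN v (π y))) w), ← h3,
    ← gsum_add had1 had2]
  refine gsum_congr fun v y hy => ?_
  obtain ⟨σ, rfl⟩ := mem_orbitFS.mp hy
  show Real.log (supN v ((σ • w) none • fun i => (σ • w) (some i)))
    = Real.log (absV v ((σ • w) none)) + Real.log (supN v fun i => (σ • w) (some i))
  have hc' : (σ • w) none ≠ 0 := (map_ne_zero σ).mpr hc
  have hx' : (fun i => (σ • w) (some i)) ≠ 0 := by
    have : (fun i => (σ • w) (some i)) = σ • x := rfl
    rw [this]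
    exact (smul_ne_zero_iff σ).mpr hx
  rw [supN_smul, Real.log_mul ((absV v).ne_zero hc') (supN_pos v hx').ne']

/-- Invariance of the height under reindexing. -/
theorem ht_comp_equiv [Finite ι] [Finite κ] (e : ι ≃ κ) (x : κ → Qbar) :
    ht (x ∘ e) = ht x := by
  have hφ : ∀ (σ : GQ) (y : κ → Qbar), (fun y : κ → Qbar => y ∘ e) (σ • y) = σ • (y ∘ e) :=
    fun _ _ => rfl
  rw [ht_map (φ := fun y : κ → Qbar => y ∘ e) hφ x, ht]
  exact gsum_congr fun v y _ => by rw [supN_comp_equiv]

/-- The height of a subtuple (or any reindexed tuple hitting a nonzero entry) is at most the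
height of the tuple. -/
theorem ht_comp_le [Finite ι] [Finite κ] (f : ι → κ) (x : κ → Qbar) (h0 : x ∘ f ≠ 0) :
    ht (x ∘ f) ≤ ht x := by
  have hφ : ∀ (σ : GQ) (y : κ → Qbar), (fun y : κ → Qbar => y ∘ f) (σ • y) = σ • (y ∘ f) :=
    fun _ _ => rfl
  rw [ht_map (φ := fun y : κ → Qbar => y ∘ f) hφ x]
  have hsupp : (Function.support (fun _ : Place => (0 : ℝ))).Finite := by simp
  have h := gsum_le_add_const (f := fun v y => Real.log (supN v (y ∘ f)))
    (g := fun v y => Real.log (supN v y)) (c := fun _ => 0) hsupp (adelic_log_supN_map hφ x)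
    (adelic_log_supN x) fun v y hy => by
      obtain ⟨σ, rfl⟩ := mem_orbitFS.mp hy
      rw [add_zero]
      have hne : (σ • x) ∘ f ≠ 0 := by
        have : (σ • x) ∘ f = σ • (x ∘ f) := rfl
        rw [this]
        exact (smul_ne_zero_iff σ).mpr h0
      exact Real.log_le_log (supN_pos v hne) (supN_comp_le v f (σ • x))
  simpa [ht] using h

/-- The height only depends on the nonzero entries. -/
theorem ht_restrict_support [Finite ι] (x : ι → Qbar) :
    ht x = ht (fun i : Function.support x => x i) := by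
  have hφ : ∀ (σ : GQ) (y : ι → Qbar),
      (fun (y : ι → Qbar) (i : Function.support x) => y i) (σ • y)
        = σ • (fun (i : Function.support x) => y i) := fun _ _ => rfl
  rw [ht_map (φ := fun (y : ι → Qbar) (i : Function.support x) => y i) hφ x, ht]
  refine gsum_congr fun v y hy => ?_
  obtain ⟨σ, rfl⟩ := mem_orbitFS.mp hy
  congr 1
  apply le_antisymm
  · refine supN_le v _ (supN_nonneg v _) fun i => ?_
    by_cases hi : x i = 0
    · show absV v (σ (x i)) ≤ _
      rw [hi, map_zero, map_zero]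
      exact supN_nonneg v _
    · exact le_supN v (fun i : Function.support x => (σ • x) i) ⟨i, hi⟩
  · exact supN_comp_le v (fun i : Function.support x => (i : ι)) (σ • x)

/-- Segre: the height of the multiplication table is the sum of the heights. -/
theorem ht_fun_mul [Finite ι] [Finite κ] {x : ι → Qbar} {y : κ → Qbar} (hx : x ≠ 0)
    (hy : y ≠ 0) : ht (fun a : ι × κ => x a.1 * y a.2) = ht x + ht y := by
  set w : ι ⊕ κ → Qbar := Sum.elim x y with hw
  set φ : (ι ⊕ κ → Qbar) → (ι × κ → Qbar) := fun z a => z (Sum.inl a.1) * z (Sum.inr a.2)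
  set π₁ : (ι ⊕ κ → Qbar) → (ι → Qbar) := fun z i => z (Sum.inl i)
  set π₂ : (ι ⊕ κ → Qbar) → (κ → Qbar) := fun z j => z (Sum.inr j)
  have hφ : ∀ (σ : GQ) (z : ι ⊕ κ → Qbar), φ (σ • z) = σ • φ z := by
    intro σ z
    funext a
    show σ (z (Sum.inl a.1)) * σ (z (Sum.inr a.2)) = σ (z (Sum.inl a.1) * z (Sum.inr a.2))
    rw [map_mul]
  have hπ₁ : ∀ (σ : GQ) (z : ι ⊕ κ → Qbar), π₁ (σ • z) = σ • π₁ z := fun _ _ => rfl
  have hπ₂ : ∀ (σ : GQ) (z : ι ⊕ κ → Qbar), π₂ (σ • z) = σ • π₂ z := fun _ _ => rfl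
  have h0 : ht (fun a : ι × κ => x a.1 * y a.2) = gsum (fun v z => Real.log (supN v (φ z))) w :=
    ht_map hφ w
  have h1 : ht x = gsum (fun v z => Real.log (supN v (π₁ z))) w := ht_map hπ₁ w
  have h2 : ht y = gsum (fun v z => Real.log (supN v (π₂ z))) w := ht_map hπ₂ w
  rw [h0, h1, h2, ← gsum_add (adelic_log_supN_map hπ₁ w) (adelic_log_supN_map hπ₂ w)]
  refine gsum_congr fun v z hz => ?_
  obtain ⟨σ, rfl⟩ := mem_orbitFS.mp hz
  have hx' : π₁ (σ • w) ≠ 0 := by
    have : π₁ (σ • w) = σ • x := rfl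
    rw [this]
    exact (smul_ne_zero_iff σ).mpr hx
  have hy' : π₂ (σ • w) ≠ 0 := by
    have : π₂ (σ • w) = σ • y := rfl
    rw [this]
    exact (smul_ne_zero_iff σ).mpr hy
  show Real.log (supN v fun a : ι × κ => π₁ (σ • w) a.1 * π₂ (σ • w) a.2) = _
  rw [supN_fun_mul, Real.log_mul (supN_pos v hx').ne' (supN_pos v hy').ne']

/-- The height of the coordinatewise `n`-th power. -/
theorem ht_pow [Finite ι] (x : ι → Qbar) (n : ℕ) : ht (x ^ n) = n * ht x := by
  rcases isEmpty_or_nonempty ι with hι | hι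
  · have h1 : x = 0 := Subsingleton.elim _ _
    have h2 : x ^ n = 0 := Subsingleton.elim _ _
    rw [h2, h1, ht_zero, mul_zero]
  have hφ : ∀ (σ : GQ) (y : ι → Qbar), (fun y : ι → Qbar => y ^ n) (σ • y) = σ • (y ^ n) := by
    intro σ y
    funext i
    show σ (y i) ^ n = σ (y i ^ n)
    rw [map_pow]
  rw [ht_map (φ := fun y : ι → Qbar => y ^ n) hφ x, ht, ← gsum_const_mul]
  exact gsum_congr fun v y _ => by rw [supN_pow, Real.log_pow]

end Fermat.Agent.MW.HT.Ht3
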