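/-
PROGRAMME MW (S17), block HT — helper3.  `Lin3`: the BILINEAR height bound
`ht (A z) ≤ ht A + ht z + log #cols` for a matrix `A` and a vector `z` of algebraic numbers (the
matrix is part of the Galois configuration, so nothing has to be rational), with its local
ingredients.
-/
import Mathlib
import Fermat.Agent.MW.HT.Ht3

set_option autoImplicit false

namespace Fermat.Agent.MW.HT.Lin3

open Fermat.Agent.MW.HT.Place3 Fermat.Agent.MW.HT.Orbit3 Fermat.Agent.MW.HT.Glob3
  Fermat.Agent.MW.HT.PF3 Fermat.Agent.MW.HT.Ht3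

variable {ι κ : Type*}

/-- The archimedean multiplicity constant: `n` at the infinite place, `1` at the finite ones. -/
noncomputable def archC (n : ℕ) : Place → ℝ
  | none => n
  | some _ => 1

theorem archC_none (n : ℕ) : archC n none = n := rfl

theorem archC_some (n : ℕ) (p : Nat.Primes) : archC n (some p) = 1 := rfl

theorem archC_pos {n : ℕ} (hn : 0 < n) (v : Place) : 0 < archC n v := by
  rcases v with _ | p
  · rw [archC_none]
    exact_mod_cast hn
  · exact zero_lt_one

theorem support_log_archC (n : ℕ) : (Function.support fun v => Real.log (archC n v)).Finite := by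
  refine (Set.finite_singleton (none : Place)).subset ?_
  intro v hv
  rcases v with _ | p
  · rfl
  · exact absurd (by simp [archC_some]) hv

theorem finsum_log_archC (n : ℕ) : ∑ᶠ v, Real.log (archC n v) = Real.log n := by
  rw [finsum_eq_single _ (none : Place)]
  · rfl
  · intro v hv
    rcases v with _ | p
    · exact absurd rfl hv
    · simp [archC_some]

/-- Local bound for a linear map at any place. -/
theorem supN_linearMap_le [Finite ι] [Finite κ] (v : Place) (A : κ × ι → Qbar) (z : ι → Qbar) :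
    supN v (fun j => ∑ᶠ i, A (j, i) * z i)
      ≤ archC (Nat.card ι) v * supN v A * supN v z := by
  classical
  have := Fintype.ofFinite ι
  have hsum : (fun j => ∑ᶠ i, A (j, i) * z i) = fun j => ∑ i, A (j, i) * z i := by
    funext j
    exact finsum_eq_sum_of_fintype _
  rw [hsum]
  rcases v with _ | p
  · exact (absV none).iSup_abv_linearMap_apply_le A z
  · rw [archC_some, one_mul]
    exact (absV_nonarch p).iSup_abv_linearMap_apply_le A z

/-- **Bilinear bound**: `ht (A z) ≤ ht A + ht z + log #cols`. -/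
theorem ht_linearMap_le [Finite ι] [Finite κ] (A : κ × ι → Qbar) (z : ι → Qbar) :
    ht (fun j => ∑ᶠ i, A (j, i) * z i) ≤ ht A + ht z + Real.log (Nat.card ι) := by
  classical
  have hlog : 0 ≤ Real.log (Nat.card ι) := Real.log_natCast_nonneg _
  by_cases h0 : (fun j => ∑ᶠ i, A (j, i) * z i) = 0
  · rw [h0, ht_zero]
    have := ht_nonneg A
    have := ht_nonneg z
    linarith
  have hA : A ≠ 0 := by
    rintro rfl
    apply h0
    funext j
    simp
  have hz : z ≠ 0 := by
    rintro rfl
    apply h0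
    funext j
    simp
  have hcard : 0 < Nat.card ι := by
    have : Nonempty ι := (Function.ne_iff.mp hz).nonempty
    exact Nat.card_pos
  set w : (κ × ι) ⊕ ι → Qbar := Sum.elim A z with hw
  set φ : ((κ × ι) ⊕ ι → Qbar) → (κ → Qbar) :=
    fun y j => ∑ᶠ i, y (Sum.inl (j, i)) * y (Sum.inr i) with hφdef
  set π₁ : ((κ × ι) ⊕ ι → Qbar) → (κ × ι → Qbar) := fun y a => y (Sum.inl a)
  set π₂ : ((κ × ι) ⊕ ι → Qbar) → (ι → Qbar) := fun y i => y (Sum.inr i)
  have hφ : ∀ (σ : GQ) (y : (κ × ι) ⊕ ι → Qbar), φ (σ • y) = σ • φ y := by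
    intro σ y
    funext j
    have := Fintype.ofFinite ι
    show ∑ᶠ i, σ (y (Sum.inl (j, i))) * σ (y (Sum.inr i))
      = σ (∑ᶠ i, y (Sum.inl (j, i)) * y (Sum.inr i))
    rw [finsum_eq_sum_of_fintype, finsum_eq_sum_of_fintype, map_sum]
    exact Finset.sum_congr rfl fun i _ => (map_mul σ _ _).symm
  have hπ₁ : ∀ (σ : GQ) (y : (κ × ι) ⊕ ι → Qbar), π₁ (σ • y) = σ • π₁ y := fun _ _ => rfl
  have hπ₂ : ∀ (σ : GQ) (y : (κ × ι) ⊕ ι → Qbar), π₂ (σ • y) = σ • π₂ y := fun _ _ => rfl
  have e0 : ht (fun j => ∑ᶠ i, A (j, i) * z i) = gsum (fun v y => Real.log (supN v (φ y))) w :=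
    ht_map hφ w
  have e1 : ht A = gsum (fun v y => Real.log (supN v (π₁ y))) w := ht_map hπ₁ w
  have e2 : ht z = gsum (fun v y => Real.log (supN v (π₂ y))) w := ht_map hπ₂ w
  have ad1 := adelic_log_supN_map hπ₁ w
  have ad2 := adelic_log_supN_map hπ₂ w
  rw [e0, e1, e2, ← gsum_add ad1 ad2, ← finsum_log_archC (Nat.card ι)]
  refine gsum_le_add_const (support_log_archC _) (adelic_log_supN_map hφ w) (ad1.add ad2) ?_
  intro v y hy
  obtain ⟨σ, rfl⟩ := mem_orbitFS.mp hy
  have hφy : φ (σ • w) ≠ 0 := by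
    rw [hφ]
    exact (smul_ne_zero_iff σ).mpr h0
  have hAy : π₁ (σ • w) ≠ 0 := by
    have : π₁ (σ • w) = σ • A := rfl
    rw [this]
    exact (smul_ne_zero_iff σ).mpr hA
  have hzy : π₂ (σ • w) ≠ 0 := by
    have : π₂ (σ • w) = σ • z := rfl
    rw [this]
    exact (smul_ne_zero_iff σ).mpr hz
  have hloc := supN_linearMap_le v (π₁ (σ • w)) (π₂ (σ • w))
  have hpos1 := supN_pos v hAy
  have hpos2 := supN_pos v hzy
  have hposc := archC_pos hcard v
  calc Real.log (supN v (φ (σ • w)))
      ≤ Real.log (archC (Nat.card ι) v * supN v (π₁ (σ • w)) * supN v (π₂ (σ • w))) :=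
        Real.log_le_log (supN_pos v hφy) hloc
    _ = Real.log (supN v (π₁ (σ • w))) + Real.log (supN v (π₂ (σ • w)))
          + Real.log (archC (Nat.card ι) v) := by
        rw [Real.log_mul (mul_pos hposc hpos1).ne' hpos2.ne', Real.log_mul hposc.ne' hpos1.ne']
        ring

/-- `Fintype` version of the bilinear bound. -/
theorem ht_linearMap_le' [Fintype ι] [Finite κ] (A : κ × ι → Qbar) (z : ι → Qbar) :
    ht (fun j => ∑ i, A (j, i) * z i) ≤ ht A + ht z + Real.log (Fintype.card ι) := by
  have h := ht_linearMap_le A z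
  have hsum : (fun j => ∑ᶠ i, A (j, i) * z i) = fun j => ∑ i, A (j, i) * z i := by
    funext j
    exact finsum_eq_sum_of_fintype _
  rwa [hsum, Nat.card_eq_fintype_card] at h

end Fermat.Agent.MW.HT.Lin3
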