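/-
PROGRAMME MW (S17), block HT — helper3.  `Poly3`: the HEIGHT ENGINE for polynomial maps on
`Qbar`-points, with coefficients in `Qbar`:
* `ht_monoVec_le`: monomials of degree `N` have height `≤ N * ht x`;
* `ht_eval_le`: `ht (p_j(x))_j ≤ C(p) + N * ht x` for forms `p_j` of degree `N`;
* `ht_eval_ge`: the lower bound `N * ht x ≤ ht (p_j(x))_j + C(q)` from a pointwise certificate
  `∑ j, q_{kj}(x) p_j(x) = x_k ^ (M+N)` (same shape as Mathlib's `Height.logHeight_eval_ge'`).
-/
import Mathlib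
import Fermat.Agent.MW.HT.Lin3

set_option autoImplicit false

namespace Fermat.Agent.MW.HT.Poly3

open Fermat.Agent.MW.HT.Place3 Fermat.Agent.MW.HT.Orbit3 Fermat.Agent.MW.HT.Glob3
  Fermat.Agent.MW.HT.PF3 Fermat.Agent.MW.HT.Ht3 Fermat.Agent.MW.HT.Lin3

open MvPolynomial

variable {ι κ : Type*}

/-- The vector of monomials with exponents in `S`, evaluated at `x`. -/
noncomputable def monoVec (S : Finset (ι →₀ ℕ)) (x : ι → Qbar) : S → Qbar :=
  fun s => ∏ i ∈ s.1.support, x i ^ s.1 i

theorem monoVec_smul (S : Finset (ι →₀ ℕ)) (σ : GQ) (x : ι → Qbar) :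
    monoVec S (σ • x) = σ • monoVec S x := by
  funext s
  show ∏ i ∈ s.1.support, σ (x i) ^ s.1 i = σ (∏ i ∈ s.1.support, x i ^ s.1 i)
  rw [map_prod]
  exact Finset.prod_congr rfl fun i _ => (map_pow σ _ _).symm

/-- Local bound for monomials of degree `N`. -/
theorem supN_monoVec_le [Finite ι] (v : Place) (S : Finset (ι →₀ ℕ)) {N : ℕ}
    (hS : ∀ s ∈ S, ∑ i ∈ s.support, s i = N) (x : ι → Qbar) :
    supN v (monoVec S x) ≤ supN v x ^ N := by
  refine supN_le v _ (pow_nonneg (supN_nonneg v x) N) fun s => ?_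
  show absV v (∏ i ∈ s.1.support, x i ^ s.1 i) ≤ _
  rw [map_prod, ← hS s.1 s.2, ← Finset.prod_pow_eq_pow_sum]
  refine Finset.prod_le_prod (fun i _ => (absV v).nonneg _) fun i _ => ?_
  rw [map_pow]
  exact pow_le_pow_left₀ ((absV v).nonneg _) (le_supN v x i) _

/-- Monomials of degree `N` have height at most `N * ht x`. -/
theorem ht_monoVec_le [Finite ι] (S : Finset (ι →₀ ℕ)) {N : ℕ}
    (hS : ∀ s ∈ S, ∑ i ∈ s.support, s i = N) (x : ι → Qbar) :
    ht (monoVec S x) ≤ N * ht x := by
  by_cases h0 : monoVec S x = 0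
  · rw [h0, ht_zero]
    exact mul_nonneg (Nat.cast_nonneg _) (ht_nonneg x)
  have hφ : ∀ (σ : GQ) (y : ι → Qbar), monoVec S (σ • y) = σ • monoVec S y := monoVec_smul S
  rw [ht_map hφ x, ht, ← gsum_const_mul]
  have hsupp : (Function.support (fun _ : Place => (0 : ℝ))).Finite := by simp
  have h := gsum_le_add_const (f := fun v y => Real.log (supN v (monoVec S y)))
    (g := fun v y => (N : ℝ) * Real.log (supN v y)) (c := fun _ => 0) hsupp
    (adelic_log_supN_map hφ x) ((adelic_log_supN x).const_mul N) fun v y hy => by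
      obtain ⟨σ, rfl⟩ := mem_orbitFS.mp hy
      have hne : monoVec S (σ • x) ≠ 0 := by
        rw [hφ]
        exact (smul_ne_zero_iff σ).mpr h0
      rw [add_zero, ← Real.log_pow]
      exact Real.log_le_log (supN_pos v hne) (supN_monoVec_le v S hS (σ • x))
  simpa using h

/-- **Upper bound of the height engine**, coefficients in `Qbar`. -/
theorem ht_eval_le [Finite ι] [Finite κ] {N : ℕ} (p : κ → MvPolynomial ι Qbar)
    (hp : ∀ j, (p j).IsHomogeneous N) :
    ∃ C : ℝ, ∀ x : ι → Qbar, ht (fun j => eval x (p j)) ≤ C + N * ht x := by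
  classical
  have := Fintype.ofFinite κ
  set S : Finset (ι →₀ ℕ) := Finset.univ.biUnion fun j => (p j).support with hSdef
  have hS : ∀ s ∈ S, ∑ i ∈ s.support, s i = N := by
    intro s hs
    obtain ⟨j, -, hj⟩ := Finset.mem_biUnion.mp hs
    exact ((hp j).degree_eq_sum_deg_support hj).symm
  set A : κ × S → Qbar := fun a => coeff a.2.1 (p a.1) with hA
  refine ⟨ht A + Real.log (Fintype.card S), fun x => ?_⟩
  have heval : (fun j => eval x (p j)) = fun j => ∑ s : S, A (j, s) * monoVec S x s := by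
    funext j
    rw [eval_eq]
    have hsub : (p j).support ⊆ S := Finset.subset_biUnion_of_mem (fun j => (p j).support)
      (Finset.mem_univ j)
    rw [Finset.sum_subset hsub (fun d _ hd => by
      rw [notMem_support_iff.mp hd, zero_mul])]
    exact (Finset.sum_coe_sort S
      (fun d => coeff d (p j) * ∏ i ∈ d.support, x i ^ d i)).symm
  rw [heval]
  have h1 := ht_linearMap_le' A (monoVec S x)
  have h2 := ht_monoVec_le S hS x
  linarith

/-- **Lower bound of the height engine** from a pointwise certificate. -/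
theorem ht_eval_ge [Finite ι] [Fintype κ] {M : ℕ} (N : ℕ) (q : ι × κ → MvPolynomial ι Qbar)
    (hq : ∀ a, (q a).IsHomogeneous M) :
    ∃ C : ℝ, ∀ (p : κ → MvPolynomial ι Qbar) (x : ι → Qbar),
      (∀ k, ∑ j, eval x (q (k, j)) * eval x (p j) = x k ^ (M + N)) →
      N * ht x ≤ ht (fun j => eval x (p j)) + C := by
  obtain ⟨C₁, hC₁⟩ := ht_eval_le q hq
  refine ⟨C₁ + Real.log (Fintype.card κ), fun p x h => ?_⟩
  have hpow : x ^ (M + N) = fun k => ∑ j, (fun a => eval x (q a)) (k, j) * eval x (p j) := by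
    funext k
    rw [Pi.pow_apply]
    exact (h k).symm
  have h1 : ht (x ^ (M + N)) = ((M + N : ℕ) : ℝ) * ht x := ht_pow x (M + N)
  have h2 := ht_linearMap_le' (fun a => eval x (q a)) (fun j => eval x (p j))
  rw [← hpow, h1] at h2
  have h3 := hC₁ x
  push_cast at h2
  linarith

end Fermat.Agent.MW.HT.Poly3
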