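/-
PROGRAMME MW (S17), block HT, brick for CHOW+UD (helper5).  `BiGlob5`: the GLOBAL MULTI-HOMOGENEOUS
HEIGHT ENGINE on top of `Ht3`/`Lin3`/`Poly3`/`MultiLoc3`.

The variables `σ` are split into `r` groups by `grp : σ → Fin r` (the variable `i` has weight
`Finsupp.single (grp i) 1`); `grpVec grp x g` is the `g`-th group of coordinates of the point `x`.

General `r`:
* `ht_monoVec_le_multi` : monomials of multi-degree `N` have height `≤ ∑ g, N g * ht (x_g)`;
* `ht_eval_le_multi` : `ht (p_j(x))_j ≤ C(p) + ∑ g, N g * ht (x_g)` for multi-homogeneous `p_j`;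
* `ht_choiceVec` : the multi-Segre vector `k ↦ ∏ g, x (k g) ^ E g` (over the choices `k` of one
  variable in each group) has height `∑ g, E g * ht (x_g)`;
* `ht_eval_ge_multi` : the lower bound `∑ g, N g * ht (x_g) ≤ ht (p_j(x))_j + C(q)` from a
  pointwise multi-projective certificate (the shape produced by `CHOW/Null8.exists_multicert`).

Two groups, points `Sum.elim x₁ x₂` (`grpS = Sum.elim (fun _ => 0) (fun _ => 1)`):
* **(G1)** `ht_eval_le_bi`, **(G2)** `ht_eval_ge_bi`.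

One group (`fun _ => (0 : Fin 1)`):
* **(G3)** `isHomogeneous_of_isWeightedHomogeneous_one`, `ht_eval_le_one`, `ht_eval_ge_one`,
  `choice_one_eq`.
-/
import Mathlib
import Fermat.Agent.MW.HT.Poly3
import Fermat.Agent.MW.HT.MultiLoc3

set_option autoImplicit false

namespace Fermat.Agent.MW.HT.BiGlob5

open Fermat.Agent.MW.HT.Place3 Fermat.Agent.MW.HT.Orbit3 Fermat.Agent.MW.HT.Glob3
  Fermat.Agent.MW.HT.PF3 Fermat.Agent.MW.HT.Ht3 Fermat.Agent.MW.HT.Lin3
  Fermat.Agent.MW.HT.Poly3 Fermat.Agent.MW.HT.MultiLoc3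

open MvPolynomial

variable {σ : Type*} {r : ℕ}

/-! ### Groups of coordinates -/

/-- The `g`-th group of coordinates of the point `x`. -/
def grpVec (grp : σ → Fin r) (x : σ → Qbar) (g : Fin r) : {i // grp i = g} → Qbar :=
  fun i => x i

theorem grpVec_apply (grp : σ → Fin r) (x : σ → Qbar) (g : Fin r) (i : {i // grp i = g}) :
    grpVec grp x g i = x i := rfl

theorem xg_eq_supN_grpVec (v : Place) (grp : σ → Fin r) (x : σ → Qbar) (g : Fin r) :
    xg v grp x g = supN v (grpVec grp x g) := rfl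

theorem grpVec_smul (grp : σ → Fin r) (g : Fin r) (τ : GQ) (x : σ → Qbar) :
    grpVec grp (τ • x) g = τ • grpVec grp x g := rfl

theorem grpVec_ne_zero_iff (grp : σ → Fin r) (x : σ → Qbar) (g : Fin r) :
    grpVec grp x g ≠ 0 ↔ ∃ i, grp i = g ∧ x i ≠ 0 := by
  constructor
  · intro h
    obtain ⟨i, hi⟩ := Function.ne_iff.mp h
    exact ⟨i.1, i.2, hi⟩
  · rintro ⟨i, hi, hxi⟩ h0
    exact hxi (congrFun h0 ⟨i, hi⟩)

/-- The heights of the groups of coordinates, as global sums over the master configuration. -/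
theorem ht_grpVec_eq_gsum [Finite σ] (grp : σ → Fin r) (x : σ → Qbar) (g : Fin r) :
    ht (grpVec grp x g) = gsum (fun v y => Real.log (supN v (grpVec grp y g))) x :=
  ht_map (φ := fun y => grpVec grp y g) (grpVec_smul grp g) x

theorem adelic_grpVec [Finite σ] (grp : σ → Fin r) (x : σ → Qbar) (c : Fin r → ℝ) (g : Fin r) :
    Adelic (fun v y => c g * Real.log (supN v (grpVec grp y g))) x :=
  (adelic_log_supN_map (φ := fun y => grpVec grp y g) (grpVec_smul grp g) x).const_mul _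

/-- `∑ g, c g * ht (x_g)` as one global sum. -/
theorem sum_mul_ht_grpVec [Finite σ] (grp : σ → Fin r) (x : σ → Qbar) (c : Fin r → ℝ) :
    ∑ g, c g * ht (grpVec grp x g)
      = gsum (fun v y => ∑ g, c g * Real.log (supN v (grpVec grp y g))) x := by
  rw [gsum_finset_sum Finset.univ fun g _ => adelic_grpVec grp x c g]
  refine Finset.sum_congr rfl fun g _ => ?_
  rw [gsum_const_mul, ht_grpVec_eq_gsum]

theorem adelic_sum_grpVec [Finite σ] (grp : σ → Fin r) (x : σ → Qbar) (c : Fin r → ℝ) :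
    Adelic (fun v y => ∑ g, c g * Real.log (supN v (grpVec grp y g))) x :=
  adelic_finset_sum Finset.univ fun g _ => adelic_grpVec grp x c g

/-- `log` of a product of powers of the group norms. -/
theorem log_prod_xg_pow (v : Place) (grp : σ → Fin r) (x : σ → Qbar) (E : Fin r → ℕ)
    (h : ∀ g, E g ≠ 0 → grpVec grp x g ≠ 0) [Finite σ] :
    Real.log (∏ g, xg v grp x g ^ E g)
      = ∑ g, (E g : ℝ) * Real.log (supN v (grpVec grp x g)) := by
  have hfac : ∀ g ∈ (Finset.univ : Finset (Fin r)), xg v grp x g ^ E g ≠ 0 := by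
    intro g _
    by_cases hg : E g = 0
    · rw [hg, pow_zero]
      exact one_ne_zero
    · exact pow_ne_zero _ (supN_pos v (h g hg)).ne'
  rw [Real.log_prod hfac]
  refine Finset.sum_congr rfl fun g _ => ?_
  rw [Real.log_pow]
  rfl

/-! ### Upper bounds -/

/-- Local bound for monomials of multi-degree `N`. -/
theorem supN_monoVec_le_multi [Finite σ] (v : Place) (grp : σ → Fin r) (S : Finset (σ →₀ ℕ))
    {N : Fin r →₀ ℕ}
    (hS : ∀ s ∈ S, Finsupp.weight (fun i => (Finsupp.single (grp i) 1 : Fin r →₀ ℕ)) s = N)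
    (x : σ → Qbar) :
    supN v (monoVec S x) ≤ ∏ g, xg v grp x g ^ N g := by
  refine supN_le v _ (Finset.prod_nonneg fun g _ => pow_nonneg (xg_nonneg v grp x g) _) fun s => ?_
  show absV v (∏ i ∈ s.1.support, x i ^ s.1 i) ≤ _
  rw [map_prod]
  simp_rw [map_pow]
  exact prod_absV_pow_le v grp x s.1 (hS s.1 s.2)

/-- If some monomial of multi-degree `N` does not vanish at `x`, then every group `g` with
`N g ≠ 0` has a nonzero coordinate. -/
theorem grpVec_ne_zero_of_monoVec_ne_zero (grp : σ → Fin r) (S : Finset (σ →₀ ℕ))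
    {N : Fin r →₀ ℕ}
    (hS : ∀ s ∈ S, Finsupp.weight (fun i => (Finsupp.single (grp i) 1 : Fin r →₀ ℕ)) s = N)
    {x : σ → Qbar} (h0 : monoVec S x ≠ 0) {g : Fin r} (hg : N g ≠ 0) :
    grpVec grp x g ≠ 0 := by
  classical
  obtain ⟨s, hs⟩ := Function.ne_iff.mp h0
  have hw := hS s.1 s.2
  have hNg : ∑ i ∈ s.1.support.filter (fun i => grp i = g), s.1 i ≠ 0 := by
    rw [← weight_grp_apply, hw]
    exact hg
  obtain ⟨i, hi, hsi⟩ := Finset.exists_ne_zero_of_sum_ne_zero hNg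
  rw [Finset.mem_filter] at hi
  have hxi : x i ≠ 0 := by
    intro h
    apply hs
    show ∏ i ∈ s.1.support, x i ^ s.1 i = 0
    exact Finset.prod_eq_zero hi.1 (by rw [h, zero_pow hsi])
  exact (grpVec_ne_zero_iff grp x g).mpr ⟨i, hi.2, hxi⟩

/-- Monomials of multi-degree `N` have height at most `∑ g, N g * ht (x_g)`. -/
theorem ht_monoVec_le_multi [Finite σ] (grp : σ → Fin r) (S : Finset (σ →₀ ℕ))
    {N : Fin r →₀ ℕ}
    (hS : ∀ s ∈ S, Finsupp.weight (fun i => (Finsupp.single (grp i) 1 : Fin r →₀ ℕ)) s = N)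
    (x : σ → Qbar) :
    ht (monoVec S x) ≤ ∑ g, (N g : ℝ) * ht (grpVec grp x g) := by
  by_cases h0 : monoVec S x = 0
  · rw [h0, ht_zero]
    exact Finset.sum_nonneg fun g _ => mul_nonneg (Nat.cast_nonneg _) (ht_nonneg _)
  have hφ : ∀ (τ : GQ) (y : σ → Qbar), monoVec S (τ • y) = τ • monoVec S y := monoVec_smul S
  rw [ht_map hφ x, sum_mul_ht_grpVec grp x fun g => (N g : ℝ)]
  have hsupp : (Function.support (fun _ : Place => (0 : ℝ))).Finite := by simp
  have h := gsum_le_add_const (f := fun v y => Real.log (supN v (monoVec S y)))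
    (g := fun v y => ∑ g, (N g : ℝ) * Real.log (supN v (grpVec grp y g))) (c := fun _ => 0) hsupp
    (adelic_log_supN_map hφ x) (adelic_sum_grpVec grp x fun g => (N g : ℝ)) fun v y hy => by
      obtain ⟨τ, rfl⟩ := mem_orbitFS.mp hy
      have hne : monoVec S (τ • x) ≠ 0 := by
        rw [hφ]
        exact (smul_ne_zero_iff τ).mpr h0
      rw [add_zero, ← log_prod_xg_pow v grp (τ • x) (fun g => N g)
        (fun g hg => grpVec_ne_zero_of_monoVec_ne_zero grp S hS hne hg)]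
      exact Real.log_le_log (supN_pos v hne) (supN_monoVec_le_multi v grp S hS (τ • x))
  simpa using h

/-- **Upper bound of the multi-homogeneous height engine**, coefficients in `Qbar`. -/
theorem ht_eval_le_multi [Finite σ] {J : Type*} [Finite J] (grp : σ → Fin r) {N : Fin r →₀ ℕ}
    (p : J → MvPolynomial σ Qbar)
    (hp : ∀ j, IsWeightedHomogeneous (fun i => (Finsupp.single (grp i) 1 : Fin r →₀ ℕ)) (p j) N) :
    ∃ C : ℝ, ∀ x : σ → Qbar,
      ht (fun j => eval x (p j)) ≤ C + ∑ g, (N g : ℝ) * ht (grpVec grp x g) := by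
  classical
  have := Fintype.ofFinite J
  set S : Finset (σ →₀ ℕ) := Finset.univ.biUnion fun j => (p j).support with hSdef
  have hS : ∀ s ∈ S,
      Finsupp.weight (fun i => (Finsupp.single (grp i) 1 : Fin r →₀ ℕ)) s = N := by
    intro s hs
    obtain ⟨j, -, hj⟩ := Finset.mem_biUnion.mp hs
    exact hp j (mem_support_iff.mp hj)
  set A : J × S → Qbar := fun a => coeff a.2.1 (p a.1) with hA
  refine ⟨ht A + Real.log (Fintype.card S), fun x => ?_⟩
  have heval : (fun j => eval x (p j)) = fun j => ∑ s : S, A (j, s) * monoVec S x s := by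
    funext j
    rw [eval_eq]
    have hsub : (p j).support ⊆ S := Finset.subset_biUnion_of_mem (fun j => (p j).support)
      (Finset.mem_univ j)
    rw [Finset.sum_subset hsub (fun d _ hd => by
      rw [notMem_support_iff.mp hd, zero_mul])]
    exact (Finset.sum_coe_sort S
      (fun d => coeff d (p j) * ∏ i ∈ d.support, x i ^ d i)).symm
  rw [heval]
  have h1 := ht_linearMap_le' A (monoVec S x)
  have h2 := ht_monoVec_le_multi grp S hS x
  linarith

/-! ### The multi-Segre vector -/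

/-- The vector of the products `∏ g, x (k g) ^ E g` over the choices `k` of one variable in each
group. -/
noncomputable def choiceVec (grp : σ → Fin r) (E : Fin r → ℕ) (x : σ → Qbar) :
    {k : Fin r → σ // ∀ g, grp (k g) = g} → Qbar :=
  fun k => ∏ g, x (k.1 g) ^ E g

theorem choiceVec_smul (grp : σ → Fin r) (E : Fin r → ℕ) (τ : GQ) (x : σ → Qbar) :
    choiceVec grp E (τ • x) = τ • choiceVec grp E x := by
  funext k
  show ∏ g, τ (x (k.1 g)) ^ E g = τ (∏ g, x (k.1 g) ^ E g)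
  rw [map_prod]
  exact Finset.prod_congr rfl fun g _ => (map_pow τ _ _).symm

/-- Local multi-Segre: the sup norm of the choice vector is the product of the powers of the group
norms. -/
theorem supN_choiceVec [Finite σ] (v : Place) (grp : σ → Fin r) (E : Fin r → ℕ) (x : σ → Qbar)
    (hx : ∀ g, ∃ i, grp i = g) :
    supN v (choiceVec grp E x) = ∏ g, xg v grp x g ^ E g := by
  apply le_antisymm
  · refine supN_le v _ (Finset.prod_nonneg fun g _ => pow_nonneg (xg_nonneg v grp x g) _)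
      fun k => ?_
    show absV v (∏ g, x (k.1 g) ^ E g) ≤ _
    rw [map_prod]
    refine Finset.prod_le_prod (fun g _ => (absV v).nonneg _) fun g _ => ?_
    rw [map_pow]
    refine pow_le_pow_left₀ ((absV v).nonneg _) ?_ _
    have h := absV_le_xg v grp x (k.1 g)
    rwa [k.2 g] at h
  · choose k hk hkmax using fun g => exists_eq_xg v grp x (hx g)
    have h : ∏ g, xg v grp x g ^ E g = absV v (choiceVec grp E x ⟨k, hk⟩) := by
      show _ = absV v (∏ g, x (k g) ^ E g)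
      rw [map_prod]
      refine Finset.prod_congr rfl fun g _ => ?_
      rw [map_pow, hkmax g]
    rw [h]
    exact le_supN v (choiceVec grp E x) ⟨k, hk⟩

/-- **Multi-Segre**: the height of the choice vector. -/
theorem ht_choiceVec [Finite σ] (grp : σ → Fin r) (E : Fin r → ℕ) (x : σ → Qbar)
    (hx : ∀ g, grpVec grp x g ≠ 0) :
    ht (choiceVec grp E x) = ∑ g, (E g : ℝ) * ht (grpVec grp x g) := by
  have hφ : ∀ (τ : GQ) (y : σ → Qbar), choiceVec grp E (τ • y) = τ • choiceVec grp E y :=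
    choiceVec_smul grp E
  have hex : ∀ g, ∃ i, grp i = g := fun g => by
    obtain ⟨i, hi, -⟩ := (grpVec_ne_zero_iff grp x g).mp (hx g)
    exact ⟨i, hi⟩
  rw [ht_map hφ x, sum_mul_ht_grpVec grp x fun g => (E g : ℝ)]
  refine gsum_congr fun v y hy => ?_
  obtain ⟨τ, rfl⟩ := mem_orbitFS.mp hy
  have hne : ∀ g, grpVec grp (τ • x) g ≠ 0 := fun g => by
    rw [grpVec_smul]
    exact (smul_ne_zero_iff τ).mpr (hx g)
  rw [supN_choiceVec v grp E (τ • x) hex, log_prod_xg_pow v grp (τ • x) E fun g _ => hne g]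

/-! ### Lower bound -/

/-- **Lower bound of the multi-homogeneous height engine** from a pointwise multi-projective
certificate `∑ j, q_{kj}(x) p_j(x) = ∏ g, x_{k g} ^ (M g + N g)` (one identity for every choice `k`
of one variable in each group). -/
theorem ht_eval_ge_multi [Finite σ] {J : Type*} [Fintype J] (grp : σ → Fin r)
    {M : Fin r →₀ ℕ} (N : Fin r →₀ ℕ)
    (q : {k : Fin r → σ // ∀ g, grp (k g) = g} × J → MvPolynomial σ Qbar)
    (hq : ∀ a,
      IsWeightedHomogeneous (fun i => (Finsupp.single (grp i) 1 : Fin r →₀ ℕ)) (q a) M) :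
    ∃ C : ℝ, ∀ (p : J → MvPolynomial σ Qbar) (x : σ → Qbar),
      (∀ g, ∃ i, grp i = g ∧ x i ≠ 0) →
      (∀ k : {k : Fin r → σ // ∀ g, grp (k g) = g},
        ∑ j, eval x (q (k, j)) * eval x (p j) = ∏ g, x (k.1 g) ^ (M g + N g)) →
      ∑ g, (N g : ℝ) * ht (grpVec grp x g) ≤ ht (fun j => eval x (p j)) + C := by
  obtain ⟨C₁, hC₁⟩ := ht_eval_le_multi grp q hq
  refine ⟨C₁ + Real.log (Fintype.card J), fun p x hx h => ?_⟩
  have hx' : ∀ g, grpVec grp x g ≠ 0 := fun g => (grpVec_ne_zero_iff grp x g).mpr (hx g)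
  have hvec : choiceVec grp (fun g => M g + N g) x
      = fun k => ∑ j, (fun a => eval x (q a)) (k, j) * eval x (p j) := by
    funext k
    exact (h k).symm
  have h1 := ht_choiceVec grp (fun g => M g + N g) x hx'
  have h2 := ht_linearMap_le' (fun a => eval x (q a)) (fun j => eval x (p j))
  rw [← hvec, h1] at h2
  have h3 := hC₁ x
  have h4 : ∑ g, ((M g + N g : ℕ) : ℝ) * ht (grpVec grp x g)
      = ∑ g, (M g : ℝ) * ht (grpVec grp x g) + ∑ g, (N g : ℝ) * ht (grpVec grp x g) := by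
    rw [← Finset.sum_add_distrib]
    refine Finset.sum_congr rfl fun g _ => ?_
    push_cast
    ring
  rw [h4] at h2
  linarith

/-! ### Two groups: points `Sum.elim x₁ x₂` -/

section Bi

variable {ι₁ ι₂ : Type*}

/-- The grouping of `ι₁ ⊕ ι₂` into the two blocks. -/
abbrev grpS : ι₁ ⊕ ι₂ → Fin 2 := Sum.elim (fun _ => 0) (fun _ => 1)

theorem ht_grpVec_inl [Finite ι₁] [Finite ι₂] (x₁ : ι₁ → Qbar) (x₂ : ι₂ → Qbar) :
    ht (grpVec (grpS (ι₁ := ι₁) (ι₂ := ι₂)) (Sum.elim x₁ x₂) 0) = ht x₁ := by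
  have hbij : Function.Bijective
      (fun i : ι₁ => (⟨Sum.inl i, rfl⟩ : {i : ι₁ ⊕ ι₂ // grpS i = 0})) := by
    constructor
    · intro a b hab
      exact Sum.inl_injective (congrArg Subtype.val hab)
    · rintro ⟨i | i, hi⟩
      · exact ⟨i, rfl⟩
      · exact absurd hi (by simp [grpS])
  have h := ht_comp_equiv (Equiv.ofBijective _ hbij)
    (grpVec (grpS (ι₁ := ι₁) (ι₂ := ι₂)) (Sum.elim x₁ x₂) 0)
  rw [← h]
  rfl

theorem ht_grpVec_inr [Finite ι₁] [Finite ι₂] (x₁ : ι₁ → Qbar) (x₂ : ι₂ → Qbar) :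
    ht (grpVec (grpS (ι₁ := ι₁) (ι₂ := ι₂)) (Sum.elim x₁ x₂) 1) = ht x₂ := by
  have hbij : Function.Bijective
      (fun i : ι₂ => (⟨Sum.inr i, rfl⟩ : {i : ι₁ ⊕ ι₂ // grpS i = 1})) := by
    constructor
    · intro a b hab
      exact Sum.inr_injective (congrArg Subtype.val hab)
    · rintro ⟨i | i, hi⟩
      · exact absurd hi (by simp [grpS])
      · exact ⟨i, rfl⟩
  have h := ht_comp_equiv (Equiv.ofBijective _ hbij)
    (grpVec (grpS (ι₁ := ι₁) (ι₂ := ι₂)) (Sum.elim x₁ x₂) 1)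
  rw [← h]
  rfl

theorem sum_mul_ht_bi [Finite ι₁] [Finite ι₂] (N₁ N₂ : ℕ) (x₁ : ι₁ → Qbar) (x₂ : ι₂ → Qbar) :
    ∑ g, (((Finsupp.single 0 N₁ + Finsupp.single 1 N₂ : Fin 2 →₀ ℕ) g : ℕ) : ℝ)
        * ht (grpVec (grpS (ι₁ := ι₁) (ι₂ := ι₂)) (Sum.elim x₁ x₂) g)
      = N₁ * ht x₁ + N₂ * ht x₂ := by
  rw [Fin.sum_univ_two, ht_grpVec_inl, ht_grpVec_inr]
  simp

/-- **(G1)** Upper bound of the bi-homogeneous height engine. -/
theorem ht_eval_le_bi [Finite ι₁] [Finite ι₂] {J : Type*} [Finite J] {N₁ N₂ : ℕ}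
    (p : J → MvPolynomial (ι₁ ⊕ ι₂) Qbar)
    (hp : ∀ j, IsWeightedHomogeneous
      (fun i : ι₁ ⊕ ι₂ => (Finsupp.single (grpS i) 1 : Fin 2 →₀ ℕ)) (p j)
      (Finsupp.single 0 N₁ + Finsupp.single 1 N₂)) :
    ∃ C : ℝ, ∀ (x₁ : ι₁ → Qbar) (x₂ : ι₂ → Qbar),
      ht (fun j => eval (Sum.elim x₁ x₂) (p j)) ≤ C + N₁ * ht x₁ + N₂ * ht x₂ := by
  obtain ⟨C, hC⟩ := ht_eval_le_multi (grpS (ι₁ := ι₁) (ι₂ := ι₂)) p hp
  refine ⟨C, fun x₁ x₂ => ?_⟩
  have h := hC (Sum.elim x₁ x₂)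
  rw [sum_mul_ht_bi] at h
  linarith

/-- **(G2)** Lower bound of the bi-homogeneous height engine from a pointwise bi-projective
certificate. -/
theorem ht_eval_ge_bi [Finite ι₁] [Finite ι₂] {J : Type*} [Fintype J] {M : Fin 2 →₀ ℕ}
    (N₁ N₂ : ℕ)
    (q : {k : Fin 2 → ι₁ ⊕ ι₂ // ∀ g, grpS (k g) = g} × J → MvPolynomial (ι₁ ⊕ ι₂) Qbar)
    (hq : ∀ a, IsWeightedHomogeneous
      (fun i : ι₁ ⊕ ι₂ => (Finsupp.single (grpS i) 1 : Fin 2 →₀ ℕ)) (q a) M) :
    ∃ C : ℝ, ∀ (p : J → MvPolynomial (ι₁ ⊕ ι₂) Qbar) (x₁ : ι₁ → Qbar) (x₂ : ι₂ → Qbar),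
      x₁ ≠ 0 → x₂ ≠ 0 →
      (∀ k : {k : Fin 2 → ι₁ ⊕ ι₂ // ∀ g, grpS (k g) = g},
        ∑ j, eval (Sum.elim x₁ x₂) (q (k, j)) * eval (Sum.elim x₁ x₂) (p j)
          = ∏ g, (Sum.elim x₁ x₂) (k.1 g)
              ^ (M g + (Finsupp.single 0 N₁ + Finsupp.single 1 N₂ : Fin 2 →₀ ℕ) g)) →
      N₁ * ht x₁ + N₂ * ht x₂ ≤ ht (fun j => eval (Sum.elim x₁ x₂) (p j)) + C := by
  obtain ⟨C, hC⟩ := ht_eval_ge_multi (grpS (ι₁ := ι₁) (ι₂ := ι₂))
    (Finsupp.single 0 N₁ + Finsupp.single 1 N₂) q hq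
  refine ⟨C, fun p x₁ x₂ h₁ h₂ h => ?_⟩
  have hx : ∀ g : Fin 2, ∃ i : ι₁ ⊕ ι₂, grpS i = g ∧ (Sum.elim x₁ x₂) i ≠ 0 := by
    intro g
    obtain ⟨i₁, hi₁⟩ := Function.ne_iff.mp h₁
    obtain ⟨i₂, hi₂⟩ := Function.ne_iff.mp h₂
    fin_cases g
    · exact ⟨Sum.inl i₁, rfl, hi₁⟩
    · exact ⟨Sum.inr i₂, rfl, hi₂⟩
  have h' := hC p (Sum.elim x₁ x₂) hx h
  rw [sum_mul_ht_bi] at h'
  exact h'

end Bi

/-! ### One group -/

section One

variable {ι : Type*}

/-- **(G3)** For one group, weighted homogeneity is homogeneity. -/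
theorem isHomogeneous_of_isWeightedHomogeneous_one {p : MvPolynomial ι Qbar} {N : ℕ}
    (hp : IsWeightedHomogeneous
      (fun _ : ι => (Finsupp.single (0 : Fin 1) 1 : Fin 1 →₀ ℕ)) p (Finsupp.single 0 N)) :
    p.IsHomogeneous N := by
  intro d hd
  have h := hp hd
  have h0 := DFunLike.congr_fun h (0 : Fin 1)
  rw [Finsupp.weight_apply, Finsupp.sum, Finsupp.finsetSum_apply, Finsupp.single_eq_same] at h0
  rw [← h0, Finsupp.weight_apply, Finsupp.sum]
  refine Finset.sum_congr rfl fun i _ => ?_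
  rw [Finsupp.smul_apply, Finsupp.single_eq_same]
  rfl

theorem ht_grpVec_one [Finite ι] (x : ι → Qbar) :
    ht (grpVec (fun _ : ι => (0 : Fin 1)) x 0) = ht x := by
  have hbij : Function.Bijective
      (fun i : ι => (⟨i, rfl⟩ : {i : ι // (fun _ : ι => (0 : Fin 1)) i = 0})) :=
    ⟨fun a b hab => congrArg Subtype.val hab, fun i => ⟨i.1, rfl⟩⟩
  have h := ht_comp_equiv (Equiv.ofBijective _ hbij) (grpVec (fun _ : ι => (0 : Fin 1)) x 0)
  rw [← h]
  rfl

/-- **(G3)** Upper bound, one group in the multi-homogeneous vocabulary. -/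
theorem ht_eval_le_one [Finite ι] {J : Type*} [Finite J] {N : ℕ}
    (p : J → MvPolynomial ι Qbar)
    (hp : ∀ j, IsWeightedHomogeneous
      (fun _ : ι => (Finsupp.single (0 : Fin 1) 1 : Fin 1 →₀ ℕ)) (p j) (Finsupp.single 0 N)) :
    ∃ C : ℝ, ∀ x : ι → Qbar, ht (fun j => eval x (p j)) ≤ C + N * ht x :=
  ht_eval_le p fun j => isHomogeneous_of_isWeightedHomogeneous_one (hp j)

/-- **(G3)** Lower bound for one group, certificate in the shape of `Null8.exists_multicert`. -/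
theorem ht_eval_ge_one [Finite ι] {J : Type*} [Fintype J] {M : Fin 1 →₀ ℕ} (N : ℕ)
    (q : {k : Fin 1 → ι // ∀ g, (fun _ : ι => (0 : Fin 1)) (k g) = g} × J → MvPolynomial ι Qbar)
    (hq : ∀ a, IsWeightedHomogeneous
      (fun _ : ι => (Finsupp.single (0 : Fin 1) 1 : Fin 1 →₀ ℕ)) (q a) M) :
    ∃ C : ℝ, ∀ (p : J → MvPolynomial ι Qbar) (x : ι → Qbar), x ≠ 0 →
      (∀ k : {k : Fin 1 → ι // ∀ g, (fun _ : ι => (0 : Fin 1)) (k g) = g},
        ∑ j, eval x (q (k, j)) * eval x (p j)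
          = ∏ g, x (k.1 g) ^ (M g + (Finsupp.single (0 : Fin 1) N : Fin 1 →₀ ℕ) g)) →
      N * ht x ≤ ht (fun j => eval x (p j)) + C := by
  obtain ⟨C, hC⟩ := ht_eval_ge_multi (fun _ : ι => (0 : Fin 1)) (Finsupp.single 0 N) q hq
  refine ⟨C, fun p x h₀ h => ?_⟩
  have hx : ∀ g : Fin 1, ∃ i : ι, (fun _ : ι => (0 : Fin 1)) i = g ∧ x i ≠ 0 := by
    intro g
    obtain ⟨i, hi⟩ := Function.ne_iff.mp h₀
    exact ⟨i, (Subsingleton.elim _ _), hi⟩
  have h' := hC p x hx h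
  rw [Fin.sum_univ_one, ht_grpVec_one, Finsupp.single_eq_same] at h'
  exact h'

end One

end Fermat.Agent.MW.HT.BiGlob5
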