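/-
PROGRAMME MW (S17), block HT — helper3.  `Place3`: the places of `ℚ` and ONE fixed absolute value
`absV v` on `Qbar = AlgebraicClosure ℚ` above each of them (`v = none`: via an embedding `Qbar → ℂ`;
`v = some p`: via an embedding `Qbar → PadicAlgCl p`, Mathlib's spectral norm).  Values on `ℚ`,
the ultrametric inequality, and `|a|_p ≤ 1` for algebraic integers.
-/
import Mathlib

set_option autoImplicit false

namespace Fermat.Agent.MW.HT.Place3

/-- The field of algebraic numbers. -/
abbrev Qbar : Type := AlgebraicClosure ℚ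

/-- The absolute Galois group of `ℚ`. -/
abbrev GQ : Type := Qbar ≃ₐ[ℚ] Qbar

/-- The places of `ℚ`: `none` is the archimedean place, `some p` the `p`-adic one. -/
abbrev Place : Type := Option Nat.Primes

theorem isAlgebraicQbar : Algebra.IsAlgebraic ℚ Qbar := AlgebraicClosure.isAlgebraic ℚ

theorem isAlgClosureQbar : IsAlgClosure ℚ Qbar :=
  ⟨inferInstance, isAlgebraicQbar⟩

theorem normalQbar : Normal ℚ Qbar :=
  haveI := isAlgClosureQbar
  IsAlgClosure.normal ℚ Qbar

theorem isGaloisQbar : IsGalois ℚ Qbar :=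
  haveI := isAlgClosureQbar
  IsAlgClosure.isGalois ℚ Qbar

theorem primeFact (p : Nat.Primes) : Fact (p : ℕ).Prime := ⟨p.2⟩

/-- The fixed embedding of `Qbar` into the algebraic closure of `ℚ_p`. -/
noncomputable def embP (p : ℕ) [Fact p.Prime] : Qbar →ₐ[ℚ] PadicAlgCl p :=
  haveI := isAlgebraicQbar
  IsAlgClosed.lift

/-- The fixed embedding of `Qbar` into `ℂ`. -/
noncomputable def embC : Qbar →ₐ[ℚ] ℂ :=
  haveI := isAlgebraicQbar
  IsAlgClosed.lift

/-- The `p`-adic absolute value on `Qbar` (through `embP`). -/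
noncomputable def absP (p : ℕ) [Fact p.Prime] : AbsoluteValue Qbar ℝ :=
  (NormedField.toAbsoluteValue (PadicAlgCl p)).comp (embP p).injective

/-- The archimedean absolute value on `Qbar` (through `embC`). -/
noncomputable def absC : AbsoluteValue Qbar ℝ :=
  (NormedField.toAbsoluteValue ℂ).comp embC.injective

/-- The fixed absolute value on `Qbar` above the place `v` of `ℚ`. -/
noncomputable def absV : Place → AbsoluteValue Qbar ℝ
  | none => absC
  | some p => haveI := primeFact p; absP (p : ℕ)

theorem absV_none : absV none = absC := rfl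

theorem absV_some (p : Nat.Primes) :
    absV (some p) = (haveI := primeFact p; absP (p : ℕ)) := rfl

theorem absP_apply (p : ℕ) [Fact p.Prime] (x : Qbar) : absP p x = ‖embP p x‖ := rfl

theorem absC_apply (x : Qbar) : absC x = ‖embC x‖ := rfl

theorem absP_nonarch (p : ℕ) [Fact p.Prime] : IsNonarchimedean (absP p) := by
  intro x y
  show ‖embP p (x + y)‖ ≤ max ‖embP p x‖ ‖embP p y‖
  rw [map_add]
  exact PadicAlgCl.isNonarchimedean p _ _

/-- The finite places are nonarchimedean. -/
theorem absV_nonarch (p : Nat.Primes) : IsNonarchimedean (absV (some p)) :=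
  haveI := primeFact p
  absP_nonarch (p : ℕ)

theorem absP_rat (p : ℕ) [Fact p.Prime] (r : ℚ) :
    absP p (algebraMap ℚ Qbar r) = padicNorm p r := by
  show ‖embP p (algebraMap ℚ Qbar r)‖ = _
  rw [AlgHom.commutes]
  have h : algebraMap ℚ (PadicAlgCl p) r = ((r : ℚ_[p]) : PadicAlgCl p) := by
    show _ = algebraMap ℚ_[p] (PadicAlgCl p) (r : ℚ_[p])
    simp
  rw [h, PadicAlgCl.norm_extends]
  exact Padic.eq_padicNorm r

/-- On `ℚ` the `p`-adic place is the `p`-adic norm. -/
theorem absV_some_rat (p : Nat.Primes) (r : ℚ) :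
    absV (some p) (algebraMap ℚ Qbar r) = padicNorm p r :=
  haveI := primeFact p
  absP_rat (p : ℕ) r

/-- On `ℚ` the archimedean place is the usual absolute value. -/
theorem absV_none_rat (r : ℚ) : absV none (algebraMap ℚ Qbar r) = |(r : ℝ)| := by
  show ‖embC (algebraMap ℚ Qbar r)‖ = _
  rw [AlgHom.commutes]
  simp

theorem absV_some_intCast_le (p : Nat.Primes) (n : ℤ) : absV (some p) (n : Qbar) ≤ 1 :=
  IsNonarchimedean.apply_intCast_le_one (absV_nonarch p)

theorem absV_some_natCast_le (p : Nat.Primes) (n : ℕ) : absV (some p) (n : Qbar) ≤ 1 :=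
  IsNonarchimedean.apply_natCast_le_one (absV_nonarch p)

/-- An algebraic integer has `p`-adic absolute value at most one (for any `ℤ`-algebra structure on
`Qbar`: they all agree). -/
theorem absV_le_one_of_isIntegral (p : Nat.Primes) [Algebra ℤ Qbar] {a : Qbar}
    (ha : IsIntegral ℤ a) : absV (some p) a ≤ 1 := by
  by_contra hlt
  rw [not_le] at hlt
  obtain ⟨f, hf, hfa⟩ := ha
  set v := absV (some p) with hvdef
  have hv : IsNonarchimedean v := absV_nonarch p
  set d := f.natDegree with hd
  have h1 : a ^ d = - ∑ i ∈ Finset.range d, (algebraMap ℤ Qbar (f.coeff i)) * a ^ i := by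
    have h := hfa
    rw [Polynomial.eval₂_eq_sum_range, Finset.sum_range_succ, ← hd, hd, hf.coeff_natDegree,
      map_one, one_mul] at h
    linear_combination h
  rcases Nat.eq_zero_or_pos d with h0 | hpos
  · rw [h0] at h1
    simp at h1
  · have hne : (Finset.range d).Nonempty := ⟨0, Finset.mem_range.mpr hpos⟩
    have h2 : v (a ^ d) ≤ v a ^ (d - 1) := by
      rw [h1, map_neg_eq_map]
      refine (hv.apply_sum_le_sup hne).trans ?_
      refine Finset.sup'_le hne _ fun i hi => ?_
      rw [map_mul, map_pow]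
      have hc : v (algebraMap ℤ Qbar (f.coeff i)) ≤ 1 := by
        rw [eq_intCast (algebraMap ℤ Qbar) (f.coeff i)]
        exact absV_some_intCast_le p _
      have hi' : i ≤ d - 1 := Nat.le_sub_one_of_lt (Finset.mem_range.mp hi)
      calc v (algebraMap ℤ Qbar (f.coeff i)) * v a ^ i ≤ 1 * v a ^ (d - 1) := by
            apply mul_le_mul hc (pow_le_pow_right₀ hlt.le hi') (pow_nonneg (v.nonneg a) _) zero_le_one
        _ = v a ^ (d - 1) := one_mul _
    rw [map_pow] at h2
    have h3 : v a ^ (d - 1) < v a ^ d := pow_lt_pow_right₀ hlt (Nat.sub_one_lt hpos.ne')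
    exact absurd h2 (not_le.mpr h3)

end Fermat.Agent.MW.HT.Place3
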