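/-
PROGRAMME MW (S17), block HT — helper3.  `UGauss3`: UNIVARIATE Gauss lemma at the places of `ℚ`
for polynomials over `Qbar`.  `polyN v p` is the sup of `|coeff|_v`.
* finite places: `polyN_mul_some` (multiplicative; Mathlib's `Polynomial.gaussNorm_mul`);
* infinite place: `polyN_prod_none_ge` (Gelfond-type inequality via Mathlib's Mahler measure):
  `∏ polyN none (p a) ≤ 2 ^ D * √(D + 1) * polyN none (∏ p a)`, `D = ∑ natDegree`.
-/
import Mathlib
import Fermat.Agent.MW.HT.Place3

set_option autoImplicit false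

namespace Fermat.Agent.MW.HT.UGauss3

open Fermat.Agent.MW.HT.Place3

open Polynomial

/-- The local sup norm of the coefficients of a univariate polynomial over `Qbar`. -/
noncomputable def polyN (v : Place) (p : Qbar[X]) : ℝ := p.gaussNorm (absV v) 1

theorem le_polyN (v : Place) (p : Qbar[X]) (i : ℕ) : absV v (p.coeff i) ≤ polyN v p := by
  have h := Polynomial.le_gaussNorm (absV v) p (zero_le_one (α := ℝ)) i
  rw [one_pow, mul_one] at h
  exact h

theorem polyN_nonneg (v : Place) (p : Qbar[X]) : 0 ≤ polyN v p :=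
  Polynomial.gaussNorm_nonneg (absV v) p zero_le_one

theorem polyN_le (v : Place) (p : Qbar[X]) {B : ℝ} (hB : 0 ≤ B)
    (h : ∀ i, absV v (p.coeff i) ≤ B) : polyN v p ≤ B := by
  unfold polyN Polynomial.gaussNorm
  split_ifs with hs
  · refine Finset.sup'_le hs _ fun i _ => ?_
    simpa using h i
  · exact hB

/-- Finite places: the Gauss norm is multiplicative. -/
theorem polyN_mul_some (q : Nat.Primes) (p r : Qbar[X]) :
    polyN (some q) (p * r) = polyN (some q) p * polyN (some q) r :=
  Polynomial.gaussNorm_mul (absV_nonarch q) one_pos p r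

theorem polyN_one_some (q : Nat.Primes) : polyN (some q) (1 : Qbar[X]) = 1 := by
  have h : (1 : Qbar[X]) = C 1 := by simp
  rw [polyN, h, Polynomial.gaussNorm_C]
  simp

theorem polyN_prod_some {α : Type*} (q : Nat.Primes) (s : Finset α) (p : α → Qbar[X]) :
    polyN (some q) (∏ a ∈ s, p a) = ∏ a ∈ s, polyN (some q) (p a) := by
  classical
  induction s using Finset.induction_on with
  | empty => simpa using polyN_one_some q
  | insert a s ha ih => rw [Finset.prod_insert ha, Finset.prod_insert ha, polyN_mul_some, ih]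

/-- The infinite place: `polyN none` is Mathlib's `supNorm` of the image in `ℂ[X]`. -/
theorem polyN_none_eq (p : Qbar[X]) :
    polyN none p = (p.map (embC : Qbar →+* ℂ)).supNorm := by
  apply le_antisymm
  · refine polyN_le none p (Polynomial.supNorm_nonneg _) fun i => ?_
    have h := Polynomial.le_supNorm (p.map (embC : Qbar →+* ℂ)) i
    rw [Polynomial.coeff_map] at h
    exact h
  · obtain ⟨i, hi⟩ := Polynomial.exists_eq_supNorm (p.map (embC : Qbar →+* ℂ))
    rw [hi, Polynomial.coeff_map]
    exact le_polyN none p i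

theorem natDegree_map_embC (p : Qbar[X]) :
    (p.map (embC : Qbar →+* ℂ)).natDegree = p.natDegree :=
  Polynomial.natDegree_map_eq_of_injective (embC : Qbar →+* ℂ).injective p

theorem mahlerMeasure_finset_prod {α : Type*} (s : Finset α) (P : α → ℂ[X]) :
    (∏ a ∈ s, P a).mahlerMeasure = ∏ a ∈ s, (P a).mahlerMeasure := by
  classical
  induction s using Finset.induction_on with
  | empty => simp
  | insert a s ha ih =>
    rw [Finset.prod_insert ha, Finset.prod_insert ha, Polynomial.mahlerMeasure_mul, ih]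

/-- Gelfond-type inequality at the infinite place. -/
theorem polyN_prod_none_ge {α : Type*} (s : Finset α) (p : α → Qbar[X]) :
    ∏ a ∈ s, polyN none (p a)
      ≤ 2 ^ (∑ a ∈ s, (p a).natDegree) * √((∑ a ∈ s, (p a).natDegree : ℕ) + 1)
        * polyN none (∏ a ∈ s, p a) := by
  classical
  set P : α → ℂ[X] := fun a => (p a).map (embC : Qbar →+* ℂ) with hP
  have hmapprod : (∏ a ∈ s, p a).map (embC : Qbar →+* ℂ) = ∏ a ∈ s, P a :=
    Polynomial.map_prod _ _ _
  have h1 : ∀ a ∈ s, polyN none (p a) ≤ 2 ^ (p a).natDegree * (P a).mahlerMeasure := by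
    intro a _
    rw [polyN_none_eq]
    refine (Polynomial.supNorm_le_choose_natDegree_div_two_mul_mahlerMeasure (P a)).trans ?_
    refine mul_le_mul_of_nonneg_right ?_ (Polynomial.mahlerMeasure_nonneg _)
    rw [hP, natDegree_map_embC]
    exact_mod_cast Nat.choose_le_two_pow _ _
  have h2 : ∏ a ∈ s, polyN none (p a)
      ≤ ∏ a ∈ s, (2 ^ (p a).natDegree * (P a).mahlerMeasure) :=
    Finset.prod_le_prod (fun a _ => polyN_nonneg none (p a)) h1
  rw [Finset.prod_mul_distrib, Finset.prod_pow_eq_pow_sum, ← mahlerMeasure_finset_prod] at h2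
  have h3 : (∏ a ∈ s, P a).mahlerMeasure
      ≤ √((∑ a ∈ s, (p a).natDegree : ℕ) + 1) * polyN none (∏ a ∈ s, p a) := by
    rw [polyN_none_eq, hmapprod]
    refine (Polynomial.mahlerMeasure_le_sqrt_natDegree_add_one_mul_supNorm _).trans ?_
    refine mul_le_mul_of_nonneg_right ?_ (Polynomial.supNorm_nonneg _)
    apply Real.sqrt_le_sqrt
    have hdeg : (∏ a ∈ s, P a).natDegree ≤ ∑ a ∈ s, (p a).natDegree := by
      refine (Polynomial.natDegree_prod_le s P).trans ?_
      exact Finset.sum_le_sum fun a _ => (natDegree_map_embC (p a)).le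
    have : ((∏ a ∈ s, P a).natDegree : ℝ) ≤ ((∑ a ∈ s, (p a).natDegree : ℕ) : ℝ) := by
      exact_mod_cast hdeg
    linarith
  calc ∏ a ∈ s, polyN none (p a)
      ≤ 2 ^ (∑ a ∈ s, (p a).natDegree) * (∏ a ∈ s, P a).mahlerMeasure := h2
    _ ≤ 2 ^ (∑ a ∈ s, (p a).natDegree) *
          (√((∑ a ∈ s, (p a).natDegree : ℕ) + 1) * polyN none (∏ a ∈ s, p a)) :=
        mul_le_mul_of_nonneg_left h3 (by positivity)
    _ = _ := by ring

/-- The norm of a monic linear polynomial. -/
theorem polyN_X_sub_C (v : Place) (b : Qbar) : polyN v (X - C b) = max (absV v b) 1 := by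
  have hc0 : (X - C b : Qbar[X]).coeff 0 = -b := by simp
  have hc1 : (X - C b : Qbar[X]).coeff 1 = 1 := by simp
  apply le_antisymm
  · refine polyN_le v _ (le_max_of_le_right zero_le_one) fun i => ?_
    rcases i with _ | _ | i
    · rw [hc0, map_neg_eq_map]
      exact le_max_left _ _
    · rw [hc1, map_one]
      exact le_max_right _ _
    · have : (X - C b : Qbar[X]).coeff (i + 2) = 0 := by
        rw [Polynomial.coeff_sub, Polynomial.coeff_X, Polynomial.coeff_C]
        simp
      rw [this, map_zero]
      exact le_max_of_le_right zero_le_one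
  · refine max_le ?_ ?_
    · have h := le_polyN v (X - C b) 0
      rwa [hc0, map_neg_eq_map] at h
    · have h := le_polyN v (X - C b) 1
      rwa [hc1, map_one] at h

/-- A monic polynomial has norm at least one. -/
theorem one_le_polyN_of_monic (v : Place) {p : Qbar[X]} (hp : p.Monic) : 1 ≤ polyN v p := by
  have h := le_polyN v p p.natDegree
  rwa [hp.coeff_natDegree, map_one] at h

/-- The infinite place, trivial direction for monic linear factors. -/
theorem polyN_prod_X_sub_C_none_le {α : Type*} (s : Finset α) (b : α → Qbar) :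
    polyN none (∏ a ∈ s, (X - C (b a)))
      ≤ 2 ^ s.card * ∏ a ∈ s, max (absV none (b a)) 1 := by
  classical
  set P : ℂ[X] := ∏ a ∈ s, (X - C ((embC : Qbar →+* ℂ) (b a))) with hP
  have hmap : (∏ a ∈ s, (X - C (b a))).map (embC : Qbar →+* ℂ) = P := by
    rw [Polynomial.map_prod]
    exact Finset.prod_congr rfl fun a _ => by simp
  have hdeg : P.natDegree = s.card := by
    rw [hP, Polynomial.natDegree_prod_of_monic _ _ fun a _ => Polynomial.monic_X_sub_C _]
    simp
  have hM : P.mahlerMeasure = ∏ a ∈ s, max (absV none (b a)) 1 := by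
    rw [hP, mahlerMeasure_finset_prod]
    refine Finset.prod_congr rfl fun a _ => ?_
    rw [Polynomial.mahlerMeasure_X_sub_C, max_comm]
    rfl
  rw [polyN_none_eq, hmap]
  obtain ⟨i, hi⟩ := Polynomial.exists_eq_supNorm P
  rw [hi, ← hM]
  refine (Polynomial.norm_coeff_le_choose_mul_mahlerMeasure i P).trans ?_
  refine mul_le_mul_of_nonneg_right ?_ (Polynomial.mahlerMeasure_nonneg _)
  rw [hdeg]
  exact_mod_cast Nat.choose_le_two_pow _ _

end Fermat.Agent.MW.HT.UGauss3
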