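/-
PROGRAMME MW (S17), block HT — helper3.  `Kron3`: KRONECKER SUBSTITUTION `X_i ↦ t ^ (D ^ i)` from
`MvPolynomial (Fin n) Qbar` to `Qbar[X]`.  If all exponents occurring in `F` are `< D`, the
nonzero coefficients of `kron D F` are exactly those of `F`, hence the local coefficient norms agree:
`polyN v (kron D F) = gaussN v F`.
-/
import Mathlib
import Fermat.Agent.MW.HT.UGauss3

set_option autoImplicit false

namespace Fermat.Agent.MW.HT.Kron3

open Fermat.Agent.MW.HT.Place3 Fermat.Agent.MW.HT.UGauss3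

/-- The local sup norm of the coefficients of a multivariate polynomial over `Qbar`. -/
noncomputable def gaussN {ι : Type*} (v : Place) (F : MvPolynomial ι Qbar) : ℝ :=
  ⨆ s : F.support, absV v (MvPolynomial.coeff s.1 F)

theorem gaussN_nonneg {ι : Type*} (v : Place) (F : MvPolynomial ι Qbar) : 0 ≤ gaussN v F :=
  Real.iSup_nonneg fun _ => (absV v).nonneg _

theorem le_gaussN {ι : Type*} (v : Place) (F : MvPolynomial ι Qbar) (s : ι →₀ ℕ) :
    absV v (MvPolynomial.coeff s F) ≤ gaussN v F := by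
  by_cases hs : s ∈ F.support
  · exact Finite.le_ciSup (fun s : F.support => absV v (MvPolynomial.coeff s.1 F)) ⟨s, hs⟩
  · rw [MvPolynomial.notMem_support_iff.mp hs, map_zero]
    exact gaussN_nonneg v F

theorem gaussN_le {ι : Type*} (v : Place) (F : MvPolynomial ι Qbar) {B : ℝ} (hB : 0 ≤ B)
    (h : ∀ s, absV v (MvPolynomial.coeff s F) ≤ B) : gaussN v F ≤ B :=
  Real.iSup_le (fun s => h s.1) hB

/-- The Kronecker exponent `∑ i, f i * D ^ i`. -/
def kexpF (D : ℕ) {n : ℕ} (f : Fin n → ℕ) : ℕ := ∑ i : Fin n, f i * D ^ (i : ℕ)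

theorem kexpF_succ (D : ℕ) {n : ℕ} (f : Fin (n + 1) → ℕ) :
    kexpF D f = f 0 + D * kexpF D (fun i : Fin n => f i.succ) := by
  rw [kexpF, Fin.sum_univ_succ, kexpF, Finset.mul_sum]
  simp only [Fin.val_zero, pow_zero, mul_one, Fin.val_succ]
  congr 1
  refine Finset.sum_congr rfl fun i _ => ?_
  ring

/-- Base-`D` digits are unique. -/
theorem kexpF_inj (D : ℕ) : ∀ {n : ℕ} (f g : Fin n → ℕ), (∀ i, f i < D) → (∀ i, g i < D) →
    kexpF D f = kexpF D g → f = g := by
  intro n
  induction n with
  | zero =>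
    intro f g _ _ _
    funext i
    exact i.elim0
  | succ n ih =>
    intro f g hf hg h
    rw [kexpF_succ, kexpF_succ] at h
    have hD : 0 < D := lt_of_le_of_lt (Nat.zero_le _) (hf 0)
    have h0 : f 0 = g 0 := by
      have h1 := congrArg (· % D) h
      simp only [Nat.add_mul_mod_self_left] at h1
      rwa [Nat.mod_eq_of_lt (hf 0), Nat.mod_eq_of_lt (hg 0)] at h1
    have h2 : kexpF D (fun i : Fin n => f i.succ) = kexpF D (fun i : Fin n => g i.succ) := by
      rw [h0] at h
      exact Nat.eq_of_mul_eq_mul_left hD (Nat.add_left_cancel h)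
    have h3 := ih (fun i => f i.succ) (fun i => g i.succ) (fun i => hf _) (fun i => hg _) h2
    funext i
    refine Fin.cases h0 (fun j => ?_) i
    exact congrFun h3 j

/-- The Kronecker substitution. -/
noncomputable def kron (D : ℕ) {n : ℕ} : MvPolynomial (Fin n) Qbar →ₐ[Qbar] Polynomial Qbar :=
  MvPolynomial.aeval fun i : Fin n => (Polynomial.X : Polynomial Qbar) ^ (D ^ (i : ℕ))

theorem kron_monomial (D : ℕ) {n : ℕ} (s : Fin n →₀ ℕ) (a : Qbar) :
    kron D (MvPolynomial.monomial s a) = Polynomial.monomial (kexpF D s) a := by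
  rw [kron, MvPolynomial.aeval_monomial, Finsupp.prod_fintype _ _ (fun i => by simp)]
  simp only [← pow_mul]
  rw [Finset.prod_pow_eq_pow_sum, ← Polynomial.C_mul_X_pow_eq_monomial]
  congr 2
  rw [kexpF]
  exact Finset.sum_congr rfl fun i _ => by ring

theorem kron_eq_sum (D : ℕ) {n : ℕ} (F : MvPolynomial (Fin n) Qbar) :
    kron D F = ∑ s ∈ F.support, Polynomial.monomial (kexpF D s) (MvPolynomial.coeff s F) := by
  conv_lhs => rw [F.as_sum]
  rw [map_sum]
  exact Finset.sum_congr rfl fun s _ => kron_monomial D s _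

theorem coeff_kron (D : ℕ) {n : ℕ} (F : MvPolynomial (Fin n) Qbar) (m : ℕ) :
    (kron D F).coeff m
      = ∑ s ∈ F.support, if kexpF D s = m then MvPolynomial.coeff s F else 0 := by
  rw [kron_eq_sum, Polynomial.finsetSum_coeff]
  exact Finset.sum_congr rfl fun s _ => Polynomial.coeff_monomial

/-- Under the exponent bound, the coefficient of `kron D F` at `kexpF D s` is that of `F` at `s`. -/
theorem coeff_kron_kexp (D : ℕ) {n : ℕ} (F : MvPolynomial (Fin n) Qbar)
    (hF : ∀ s ∈ F.support, ∀ i, s i < D) {s : Fin n →₀ ℕ} (hs : s ∈ F.support) :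
    (kron D F).coeff (kexpF D s) = MvPolynomial.coeff s F := by
  classical
  rw [coeff_kron, Finset.sum_eq_single s]
  · rw [if_pos rfl]
  · intro t ht hts
    rw [if_neg]
    intro h
    apply hts
    exact DFunLike.coe_injective (kexpF_inj D _ _ (hF t ht) (hF s hs) h)
  · intro h
    exact absurd hs h

/-- Every coefficient of `kron D F` is zero or a coefficient of `F`. -/
theorem coeff_kron_cases (D : ℕ) {n : ℕ} (F : MvPolynomial (Fin n) Qbar)
    (hF : ∀ s ∈ F.support, ∀ i, s i < D) (m : ℕ) :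
    (kron D F).coeff m = 0 ∨ ∃ s ∈ F.support, (kron D F).coeff m = MvPolynomial.coeff s F := by
  classical
  by_cases h : ∃ s ∈ F.support, kexpF D s = m
  · obtain ⟨s, hs, rfl⟩ := h
    exact Or.inr ⟨s, hs, coeff_kron_kexp D F hF hs⟩
  · left
    rw [coeff_kron]
    refine Finset.sum_eq_zero fun s hs => ?_
    rw [if_neg]
    intro hm
    exact h ⟨s, hs, hm⟩

/-- **Kronecker correspondence** of the local coefficient norms. -/
theorem polyN_kron (v : Place) (D : ℕ) {n : ℕ} (F : MvPolynomial (Fin n) Qbar)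
    (hF : ∀ s ∈ F.support, ∀ i, s i < D) : polyN v (kron D F) = gaussN v F := by
  apply le_antisymm
  · refine polyN_le v _ (gaussN_nonneg v F) fun m => ?_
    rcases coeff_kron_cases D F hF m with h | ⟨s, _, h⟩
    · rw [h, map_zero]
      exact gaussN_nonneg v F
    · rw [h]
      exact le_gaussN v F s
  · refine gaussN_le v F (polyN_nonneg v _) fun s => ?_
    by_cases hs : s ∈ F.support
    · rw [← coeff_kron_kexp D F hF hs]
      exact le_polyN v _ _
    · rw [MvPolynomial.notMem_support_iff.mp hs, map_zero]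
      exact polyN_nonneg v _

end Fermat.Agent.MW.HT.Kron3
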