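/-
PROGRAMME MW (S17), block HT — helper3.  `MvGauss3`: the MULTIVARIATE Gauss lemma at the places of
`ℚ` for polynomials in `MvPolynomial (Fin n) Qbar`, by Kronecker substitution (`Kron3`) from the
univariate statements (`UGauss3`).  `gaussN v F` is the sup of `|coeff|_v`.
* finite places: `gaussN_mul_some`, `gaussN_prod_some` (multiplicative);
* infinite place: `gaussN_prod_none_ge` (Gelfond-type inequality, constant depending only on the
  number of factors and the partial degrees);
* all places, trivial direction: `gaussN_mul_le`.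
-/
import Mathlib
import Fermat.Agent.MW.HT.Kron3
import Fermat.Agent.MW.HT.Lin3

set_option autoImplicit false

namespace Fermat.Agent.MW.HT.MvGauss3

open Fermat.Agent.MW.HT.Place3 Fermat.Agent.MW.HT.Ht3 Fermat.Agent.MW.HT.Lin3
  Fermat.Agent.MW.HT.UGauss3 Fermat.Agent.MW.HT.Kron3

open MvPolynomial

variable {n : ℕ}

/-- The coefficient vector of a multivariate polynomial, indexed by its support. -/
noncomputable def coeffVec {ι : Type*} (F : MvPolynomial ι Qbar) : F.support → Qbar :=
  fun s => coeff s.1 F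

theorem gaussN_eq_supN {ι : Type*} (v : Place) (F : MvPolynomial ι Qbar) :
    gaussN v F = supN v (coeffVec F) := rfl

theorem coeffVec_ne_zero {ι : Type*} {F : MvPolynomial ι Qbar} (hF : F ≠ 0) : coeffVec F ≠ 0 := by
  obtain ⟨s, hs⟩ := support_nonempty.mpr hF
  intro h
  have := congrFun h ⟨s, hs⟩
  exact (mem_support_iff.mp hs) this

/-- `gaussN` as a sup over any finite set of exponents containing the support. -/
theorem gaussN_eq_iSup_of_subset {ι : Type*} (v : Place) (F : MvPolynomial ι Qbar)
    (T : Finset (ι →₀ ℕ)) (hT : F.support ⊆ T) :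
    gaussN v F = ⨆ s : T, absV v (coeff s.1 F) := by
  apply le_antisymm
  · refine gaussN_le v F (Real.iSup_nonneg fun _ => (absV v).nonneg _) fun s => ?_
    by_cases hs : s ∈ F.support
    · exact Finite.le_ciSup (fun s : T => absV v (coeff s.1 F)) ⟨s, hT hs⟩
    · rw [notMem_support_iff.mp hs, map_zero]
      exact Real.iSup_nonneg fun _ => (absV v).nonneg _
  · exact Real.iSup_le (fun s => le_gaussN v F s.1) (gaussN_nonneg v F)

theorem gaussN_zero {ι : Type*} (v : Place) : gaussN v (0 : MvPolynomial ι Qbar) = 0 := by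
  apply le_antisymm _ (gaussN_nonneg v _)
  refine gaussN_le v _ le_rfl fun s => ?_
  rw [coeff_zero, map_zero]

theorem gaussN_pos {ι : Type*} (v : Place) {F : MvPolynomial ι Qbar} (hF : F ≠ 0) :
    0 < gaussN v F := by
  obtain ⟨s, hs⟩ := support_nonempty.mpr hF
  exact lt_of_lt_of_le ((absV v).pos (mem_support_iff.mp hs)) (le_gaussN v F s)

theorem gaussN_one {ι : Type*} (v : Place) : gaussN v (1 : MvPolynomial ι Qbar) = 1 := by
  classical
  apply le_antisymm
  · refine gaussN_le v _ zero_le_one fun s => ?_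
    rw [coeff_one]
    split_ifs
    · rw [map_one]
    · rw [map_zero]
      exact zero_le_one
  · have h := le_gaussN v (1 : MvPolynomial ι Qbar) 0
    rwa [coeff_zero_one, map_one] at h

/-- Exponents are bounded by the partial degrees. -/
theorem exp_lt_of_degreeOf_lt {F : MvPolynomial (Fin n) Qbar} {D : ℕ}
    (h : ∀ i, degreeOf i F < D) : ∀ s ∈ F.support, ∀ i, s i < D :=
  fun _ hs i => lt_of_le_of_lt (monomial_le_degreeOf i hs) (h i)

theorem kexpF_succ_le (D : ℕ) : ∀ {n : ℕ} (f : Fin n → ℕ), (∀ i, f i < D) →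
    kexpF D f + 1 ≤ D ^ n := by
  intro n
  induction n with
  | zero =>
    intro f _
    simp [kexpF]
  | succ n ih =>
    intro f hf
    rw [kexpF_succ]
    have h1 := ih (fun i : Fin n => f i.succ) fun i => hf _
    have h0 : f 0 + 1 ≤ D := hf 0
    calc f 0 + D * kexpF D (fun i : Fin n => f i.succ) + 1
        = (f 0 + 1) + D * kexpF D (fun i : Fin n => f i.succ) := by ring
      _ ≤ D + D * kexpF D (fun i : Fin n => f i.succ) := Nat.add_le_add_right h0 _
      _ = D * (kexpF D (fun i : Fin n => f i.succ) + 1) := by ring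
      _ ≤ D * D ^ n := Nat.mul_le_mul_left D h1
      _ = D ^ (n + 1) := by ring

theorem natDegree_kron_le (D : ℕ) (F : MvPolynomial (Fin n) Qbar)
    (hF : ∀ s ∈ F.support, ∀ i, s i < D) : (kron D F).natDegree ≤ D ^ n := by
  rw [kron_eq_sum]
  refine Polynomial.natDegree_sum_le_of_forall_le _ _ fun s hs => ?_
  refine (Polynomial.natDegree_monomial_le _).trans ?_
  exact (Nat.le_succ _).trans (kexpF_succ_le D s (hF s hs))

/-- **Gauss lemma** at the finite places, multivariate. -/
theorem gaussN_mul_some (q : Nat.Primes) (F G : MvPolynomial (Fin n) Qbar) :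
    gaussN (some q) (F * G) = gaussN (some q) F * gaussN (some q) G := by
  set D : ℕ := F.totalDegree + G.totalDegree + 1 with hD
  have hF : ∀ i, degreeOf i F < D := fun i =>
    lt_of_le_of_lt (degreeOf_le_totalDegree F i) (by omega)
  have hG : ∀ i, degreeOf i G < D := fun i =>
    lt_of_le_of_lt (degreeOf_le_totalDegree G i) (by omega)
  have hFG : ∀ i, degreeOf i (F * G) < D := fun i => by
    have h1 := degreeOf_mul_le i F G
    have h2 := degreeOf_le_totalDegree F i
    have h3 := degreeOf_le_totalDegree G i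
    omega
  rw [← polyN_kron (some q) D F (exp_lt_of_degreeOf_lt hF),
    ← polyN_kron (some q) D G (exp_lt_of_degreeOf_lt hG),
    ← polyN_kron (some q) D (F * G) (exp_lt_of_degreeOf_lt hFG), map_mul, polyN_mul_some]

theorem gaussN_prod_some {α : Type*} (q : Nat.Primes) (s : Finset α)
    (F : α → MvPolynomial (Fin n) Qbar) :
    gaussN (some q) (∏ a ∈ s, F a) = ∏ a ∈ s, gaussN (some q) (F a) := by
  classical
  induction s using Finset.induction_on with
  | empty => simpa using gaussN_one (some q)
  | insert a s ha ih => rw [Finset.prod_insert ha, Finset.prod_insert ha, gaussN_mul_some, ih]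

/-- The Gelfond constant. -/
noncomputable def gelfondC (k D n : ℕ) : ℝ := 2 ^ (k * D ^ n) * √((k * D ^ n : ℕ) + 1)

theorem one_le_gelfondC (k D n : ℕ) : 1 ≤ gelfondC k D n := by
  unfold gelfondC
  have h1 : (1 : ℝ) ≤ 2 ^ (k * D ^ n) := one_le_pow₀ one_le_two
  have h2 : (1 : ℝ) ≤ √((k * D ^ n : ℕ) + 1) := by
    rw [Real.one_le_sqrt]
    have : (0 : ℝ) ≤ ((k * D ^ n : ℕ) : ℝ) := Nat.cast_nonneg _
    linarith
  calc (1 : ℝ) = 1 * 1 := (one_mul 1).symm
    _ ≤ _ := mul_le_mul h1 h2 zero_le_one (by positivity)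

/-- **Gelfond-type inequality** at the infinite place, multivariate. -/
theorem gaussN_prod_none_ge {α : Type*} (s : Finset α) (F : α → MvPolynomial (Fin n) Qbar)
    (D : ℕ) (hD : ∀ i, ∑ a ∈ s, degreeOf i (F a) < D) :
    ∏ a ∈ s, gaussN none (F a) ≤ gelfondC s.card D n * gaussN none (∏ a ∈ s, F a) := by
  classical
  have hFa : ∀ a ∈ s, ∀ t ∈ (F a).support, ∀ i, t i < D := by
    intro a ha
    refine exp_lt_of_degreeOf_lt fun i => lt_of_le_of_lt ?_ (hD i)
    exact Finset.single_le_sum (f := fun a => degreeOf i (F a)) (fun _ _ => Nat.zero_le _) ha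
  have hprod : ∀ t ∈ (∏ a ∈ s, F a).support, ∀ i, t i < D :=
    exp_lt_of_degreeOf_lt fun i => lt_of_le_of_lt (degreeOf_prod_le i s F) (hD i)
  have h1 : ∏ a ∈ s, gaussN none (F a) = ∏ a ∈ s, polyN none (kron D (F a)) :=
    Finset.prod_congr rfl fun a ha => (polyN_kron none D (F a) (hFa a ha)).symm
  rw [h1, ← polyN_kron none D _ hprod, map_prod]
  refine (polyN_prod_none_ge s fun a => kron D (F a)).trans ?_
  refine mul_le_mul_of_nonneg_right ?_ (polyN_nonneg none _)
  have hdeg : ∑ a ∈ s, (kron D (F a)).natDegree ≤ s.card * D ^ n := by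
    calc ∑ a ∈ s, (kron D (F a)).natDegree ≤ ∑ a ∈ s, D ^ n :=
          Finset.sum_le_sum fun a ha => natDegree_kron_le D (F a) (hFa a ha)
      _ = s.card * D ^ n := by rw [Finset.sum_const, smul_eq_mul]
  unfold gelfondC
  refine mul_le_mul ?_ ?_ (Real.sqrt_nonneg _) (by positivity)
  · exact pow_le_pow_right₀ one_le_two hdeg
  · apply Real.sqrt_le_sqrt
    have : ((∑ a ∈ s, (kron D (F a)).natDegree : ℕ) : ℝ) ≤ ((s.card * D ^ n : ℕ) : ℝ) := by
      exact_mod_cast hdeg
    linarith

theorem archC_mono {m k : ℕ} (h : m ≤ k) (v : Place) : archC m v ≤ archC k v := by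
  rcases v with _ | p
  · rw [archC_none, archC_none]
    exact_mod_cast h
  · exact le_rfl

theorem archC_nonneg (m : ℕ) (v : Place) : 0 ≤ archC m v := by
  rcases v with _ | p
  · rw [archC_none]
    exact Nat.cast_nonneg _
  · rw [archC_some]
    exact zero_le_one

theorem archC_mul (m k : ℕ) (v : Place) : archC (m * k) v = archC m v * archC k v := by
  rcases v with _ | p
  · rw [archC_none, archC_none, archC_none, Nat.cast_mul]
  · rw [archC_some, archC_some, archC_some, one_mul]

/-- The coefficients of a product, expanded along the support of the first factor. -/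
theorem coeff_mul_eq_sum_support {ι : Type*} (F G : MvPolynomial ι Qbar) (s : ι →₀ ℕ) :
    coeff s (F * G)
      = ∑ t : F.support, (if t.1 ≤ s then coeff (s - t.1) G else 0) * coeff t.1 F := by
  classical
  conv_lhs => rw [F.as_sum, Finset.sum_mul, coeff_sum]
  rw [← Finset.sum_coe_sort F.support]
  refine Finset.sum_congr rfl fun t _ => ?_
  rw [coeff_monomial_mul']
  split_ifs
  · ring
  · ring

/-- Trivial direction of the Gauss lemma at any place. -/
theorem gaussN_mul_le {ι : Type*} (v : Place) (F G : MvPolynomial ι Qbar) {N : ℕ}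
    (hN : F.support.card ≤ N) :
    gaussN v (F * G) ≤ archC N v * gaussN v F * gaussN v G := by
  classical
  have hnn : 0 ≤ archC N v * gaussN v F * gaussN v G :=
    mul_nonneg (mul_nonneg (archC_nonneg N v) (gaussN_nonneg v F)) (gaussN_nonneg v G)
  refine gaussN_le v _ hnn fun s => ?_
  set A : Unit × F.support → Qbar := fun a => if a.2.1 ≤ s then coeff (s - a.2.1) G else 0 with hA
  have h1 := supN_linearMap_le v A (coeffVec F)
  have hsum : (fun _ : Unit => ∑ᶠ t : F.support, A ((), t) * coeffVec F t)
      = fun _ : Unit => coeff s (F * G) := by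
    funext _
    rw [finsum_eq_sum_of_fintype, coeff_mul_eq_sum_support]
    rfl
  rw [hsum] at h1
  have h2 : absV v (coeff s (F * G)) ≤ supN v (fun _ : Unit => coeff s (F * G)) :=
    le_supN v (fun _ : Unit => coeff s (F * G)) ()
  have hA' : supN v A ≤ gaussN v G := by
    refine supN_le v A (gaussN_nonneg v G) fun a => ?_
    rw [hA]
    dsimp only
    split_ifs
    · exact le_gaussN v G _
    · rw [map_zero]
      exact gaussN_nonneg v G
  have hcard : Nat.card F.support = F.support.card := by
    rw [Nat.card_eq_fintype_card, Fintype.card_coe]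
  rw [hcard] at h1
  calc absV v (coeff s (F * G))
      ≤ archC F.support.card v * supN v A * supN v (coeffVec F) := h2.trans h1
    _ ≤ archC N v * gaussN v G * gaussN v F := by
        refine mul_le_mul_of_nonneg_right ?_ (gaussN_nonneg v F)
        exact mul_le_mul (archC_mono hN v) hA' (supN_nonneg v A) (archC_nonneg N v)
    _ = _ := by ring

end Fermat.Agent.MW.HT.MvGauss3
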