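/-
PROGRAMME MW (S17), block HT — helper3.  `Gauss3`: the GAUSS LEMMA FOR PRODUCTS OF LINEAR FORMS.
`linF w = ∑ i, w i • X i`, `prodLin w = ∏ j, linF (w j)`.
* local: `gaussN_prodLin_some` (equality at finite places), `gaussN_prodLin_none_ge` (Gelfond),
  `gaussN_prodLin_le` (trivial direction, all places);
* global: `ht_gauss`: `|ht (coefficients of ∏ j, linF (w j)) - ∑ j, ht (w j)| ≤ C(d, n)`.
-/
import Mathlib
import Fermat.Agent.MW.HT.MvGauss3

set_option autoImplicit false

namespace Fermat.Agent.MW.HT.Gauss3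

open Fermat.Agent.MW.HT.Place3 Fermat.Agent.MW.HT.Orbit3 Fermat.Agent.MW.HT.Glob3
  Fermat.Agent.MW.HT.PF3 Fermat.Agent.MW.HT.Ht3 Fermat.Agent.MW.HT.Lin3
  Fermat.Agent.MW.HT.UGauss3 Fermat.Agent.MW.HT.Kron3 Fermat.Agent.MW.HT.MvGauss3

open MvPolynomial

variable {n d : ℕ}

/-- The linear form with coefficient vector `w`. -/
noncomputable def linF (w : Fin n → Qbar) : MvPolynomial (Fin n) Qbar :=
  ∑ i, monomial (Finsupp.single i 1) (w i)

theorem linF_eq (w : Fin n → Qbar) : linF w = ∑ i, C (w i) * X i :=
  Finset.sum_congr rfl fun _ _ => (C_mul_X_eq_monomial).symm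

theorem coeff_linF (w : Fin n → Qbar) (s : Fin n →₀ ℕ) :
    coeff s (linF w) = ∑ i, if Finsupp.single i 1 = s then w i else 0 := by
  classical
  rw [linF, coeff_sum]
  exact Finset.sum_congr rfl fun i _ => coeff_monomial _ _ _

theorem coeff_linF_single (w : Fin n → Qbar) (i : Fin n) :
    coeff (Finsupp.single i 1) (linF w) = w i := by
  classical
  rw [coeff_linF, Finset.sum_eq_single i]
  · rw [if_pos rfl]
  · intro j _ hji
    rw [if_neg]
    intro h
    exact hji (Finsupp.single_left_injective one_ne_zero h)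
  · intro h
    exact absurd (Finset.mem_univ i) h

theorem coeff_linF_cases (w : Fin n → Qbar) (s : Fin n →₀ ℕ) :
    coeff s (linF w) = 0 ∨ ∃ i, s = Finsupp.single i 1 ∧ coeff s (linF w) = w i := by
  classical
  by_cases h : ∃ i, Finsupp.single i 1 = s
  · obtain ⟨i, rfl⟩ := h
    exact Or.inr ⟨i, rfl, coeff_linF_single w i⟩
  · left
    rw [coeff_linF]
    refine Finset.sum_eq_zero fun i _ => ?_
    rw [if_neg]
    intro hi
    exact h ⟨i, hi⟩

theorem gaussN_linF (v : Place) (w : Fin n → Qbar) : gaussN v (linF w) = supN v w := by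
  apply le_antisymm
  · refine gaussN_le v _ (supN_nonneg v w) fun s => ?_
    rcases coeff_linF_cases w s with h | ⟨i, _, h⟩
    · rw [h, map_zero]
      exact supN_nonneg v w
    · rw [h]
      exact le_supN v w i
  · refine supN_le v w (gaussN_nonneg v _) fun i => ?_
    rw [← coeff_linF_single w i]
    exact le_gaussN v _ _

theorem linF_ne_zero {w : Fin n → Qbar} (hw : w ≠ 0) : linF w ≠ 0 := by
  obtain ⟨i, hi⟩ := Function.ne_iff.mp hw
  intro h
  apply hi
  rw [← coeff_linF_single w i, h, coeff_zero]
  rfl

theorem support_linF_subset (w : Fin n → Qbar) :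
    (linF w).support ⊆ Finset.univ.image fun i : Fin n => Finsupp.single i 1 := by
  classical
  intro s hs
  rcases coeff_linF_cases w s with h | ⟨i, hi, _⟩
  · exact absurd h (mem_support_iff.mp hs)
  · exact Finset.mem_image.mpr ⟨i, Finset.mem_univ i, hi.symm⟩

theorem card_support_linF_le (w : Fin n → Qbar) : (linF w).support.card ≤ n := by
  classical
  refine (Finset.card_le_card (support_linF_subset w)).trans ?_
  refine Finset.card_image_le.trans ?_
  rw [Finset.card_univ, Fintype.card_fin]

theorem degreeOf_linF_le (w : Fin n → Qbar) (i : Fin n) : degreeOf i (linF w) ≤ 1 := by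
  classical
  rw [degreeOf_le_iff]
  intro s hs
  rcases coeff_linF_cases w s with h | ⟨k, hk, _⟩
  · exact absurd h (mem_support_iff.mp hs)
  · rw [hk, Finsupp.single_apply]
    split_ifs <;> omega

theorem map_linF (f : Qbar →+* Qbar) (w : Fin n → Qbar) :
    map f (linF w) = linF fun i => f (w i) := by
  rw [linF, map_sum, linF]
  exact Finset.sum_congr rfl fun i _ => map_monomial _ _ _

/-- The product of the linear forms with coefficient vectors `w j`. -/
noncomputable def prodLin (w : Fin d → Fin n → Qbar) : MvPolynomial (Fin n) Qbar :=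
  ∏ j, linF (w j)

theorem prodLin_eq (w : Fin d → Fin n → Qbar) : prodLin w = ∏ j, ∑ i, C (w j i) * X i :=
  Finset.prod_congr rfl fun j _ => linF_eq (w j)

theorem prodLin_ne_zero {w : Fin d → Fin n → Qbar} (hw : ∀ j, w j ≠ 0) : prodLin w ≠ 0 :=
  Finset.prod_ne_zero_iff.mpr fun j _ => linF_ne_zero (hw j)

theorem map_prodLin (f : Qbar →+* Qbar) (w : Fin d → Fin n → Qbar) :
    map f (prodLin w) = prodLin fun j i => f (w j i) := by
  rw [prodLin, map_prod, prodLin]
  exact Finset.prod_congr rfl fun j _ => map_linF f (w j)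

/-- Finite places: the Gauss norm of a product of linear forms is the product of the norms. -/
theorem gaussN_prodLin_some (q : Nat.Primes) (w : Fin d → Fin n → Qbar) :
    gaussN (some q) (prodLin w) = ∏ j, supN (some q) (w j) := by
  rw [prodLin, gaussN_prod_some]
  exact Finset.prod_congr rfl fun j _ => gaussN_linF (some q) (w j)

/-- Infinite place: Gelfond's inequality for a product of linear forms. -/
theorem gaussN_prodLin_none_ge (w : Fin d → Fin n → Qbar) :
    ∏ j, supN none (w j) ≤ gelfondC d (d + 1) n * gaussN none (prodLin w) := by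
  have h := gaussN_prod_none_ge (Finset.univ : Finset (Fin d)) (fun j => linF (w j)) (d + 1)
    (fun i => by
      refine Nat.lt_succ_of_le ?_
      calc ∑ j : Fin d, degreeOf i (linF (w j)) ≤ ∑ _j : Fin d, 1 :=
            Finset.sum_le_sum fun j _ => degreeOf_linF_le (w j) i
        _ = d := by simp)
  rw [Finset.card_univ, Fintype.card_fin] at h
  rw [prodLin]
  refine le_trans (le_of_eq ?_) h
  exact Finset.prod_congr rfl fun j _ => (gaussN_linF none (w j)).symm

/-- All places, trivial direction. -/
theorem gaussN_prodLin_le (v : Place) : ∀ {d : ℕ} (w : Fin d → Fin n → Qbar),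
    gaussN v (prodLin w) ≤ archC (n ^ d) v * ∏ j, supN v (w j) := by
  intro d
  induction d with
  | zero =>
    intro w
    simp only [prodLin, Finset.univ_eq_empty, Finset.prod_empty, pow_zero, mul_one]
    rw [gaussN_one]
    rcases v with _ | p
    · rw [archC_none, Nat.cast_one]
    · rw [archC_some]
  | succ d ih =>
    intro w
    have h1 : prodLin w = linF (w 0) * prodLin fun j : Fin d => w j.succ := by
      rw [prodLin, Fin.prod_univ_succ, prodLin]
    rw [h1, Fin.prod_univ_succ, pow_succ, mul_comm (n ^ d) n, archC_mul]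
    have h2 := gaussN_mul_le v (linF (w 0)) (prodLin fun j : Fin d => w j.succ)
      (card_support_linF_le (w 0))
    rw [gaussN_linF] at h2
    refine h2.trans ?_
    have h3 := ih fun j : Fin d => w j.succ
    calc archC n v * supN v (w 0) * gaussN v (prodLin fun j : Fin d => w j.succ)
        ≤ archC n v * supN v (w 0) * (archC (n ^ d) v * ∏ j : Fin d, supN v (w j.succ)) :=
          mul_le_mul_of_nonneg_left h3 (mul_nonneg (archC_nonneg n v) (supN_nonneg v _))
      _ = _ := by ring

/-- The local constant of the Gauss lemma for products of `d` linear forms in `n` variables. -/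
noncomputable def gaussC (d n : ℕ) : Place → ℝ
  | none => Real.log ((n ^ d : ℕ) : ℝ) + Real.log (gelfondC d (d + 1) n)
  | some _ => 0

theorem support_gaussC (d n : ℕ) : (Function.support (gaussC d n)).Finite := by
  refine (Set.finite_singleton (none : Place)).subset ?_
  intro v hv
  rcases v with _ | p
  · rfl
  · exact absurd rfl hv

/-- The local two-sided Gauss lemma in logarithmic form. -/
theorem abs_log_gaussN_prodLin_sub_le (v : Place) {w : Fin d → Fin n → Qbar}
    (hw : ∀ j, w j ≠ 0) :
    |Real.log (gaussN v (prodLin w)) - ∑ j, Real.log (supN v (w j))| ≤ gaussC d n v := by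
  have hG : 0 < gaussN v (prodLin w) := gaussN_pos v (prodLin_ne_zero hw)
  have hP : 0 < ∏ j, supN v (w j) := Finset.prod_pos fun j _ => supN_pos v (hw j)
  have hlogP : Real.log (∏ j, supN v (w j)) = ∑ j, Real.log (supN v (w j)) :=
    Real.log_prod fun j _ => (supN_pos v (hw j)).ne'
  have hnd : 1 ≤ n ^ d := by
    rcases Nat.eq_zero_or_pos d with hd | hd
    · rw [hd, pow_zero]
    · have : Nonempty (Fin n) := (Function.ne_iff.mp (hw ⟨0, hd⟩)).nonempty
      exact Nat.one_le_pow _ _ (Fin.pos_iff_nonempty.mpr this)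
  rw [← hlogP]
  rcases v with _ | q
  · have h1 := gaussN_prodLin_le none w
    have h2 := gaussN_prodLin_none_ge w
    rw [archC_none] at h1
    have hnd' : (1 : ℝ) ≤ ((n ^ d : ℕ) : ℝ) := by exact_mod_cast hnd
    have hC := one_le_gelfondC d (d + 1) n
    have hl1 : 0 ≤ Real.log ((n ^ d : ℕ) : ℝ) := Real.log_nonneg hnd'
    have hl2 : 0 ≤ Real.log (gelfondC d (d + 1) n) := Real.log_nonneg hC
    have e1 : Real.log (gaussN none (prodLin w))
        ≤ Real.log ((n ^ d : ℕ) : ℝ) + Real.log (∏ j, supN none (w j)) := by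
      rw [← Real.log_mul (by positivity) hP.ne']
      exact Real.log_le_log hG h1
    have e2 : Real.log (∏ j, supN none (w j))
        ≤ Real.log (gelfondC d (d + 1) n) + Real.log (gaussN none (prodLin w)) := by
      rw [← Real.log_mul (by positivity) hG.ne']
      exact Real.log_le_log hP h2
    show _ ≤ Real.log ((n ^ d : ℕ) : ℝ) + Real.log (gelfondC d (d + 1) n)
    rw [abs_le]
    constructor <;> linarith
  · rw [gaussN_prodLin_some]
    show _ ≤ (0 : ℝ)
    rw [sub_self, abs_zero]

/-- **Gauss lemma for heights**: the height of the coefficient vector of a product of linear forms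
is the sum of the heights of the forms, up to a constant depending only on `d` and `n`. -/
theorem ht_gauss_prodLin (d n : ℕ) : ∃ C : ℝ, ∀ w : Fin d → Fin n → Qbar, (∀ j, w j ≠ 0) →
    |ht (coeffVec (prodLin w)) - ∑ j, ht (w j)| ≤ C := by
  classical
  refine ⟨∑ᶠ v, gaussC d n v, fun w hw => ?_⟩
  -- master configuration
  set W : Fin d × Fin n → Qbar := fun a => w a.1 a.2 with hW
  set row : (Fin d × Fin n → Qbar) → Fin d → Fin n → Qbar := fun y j i => y (j, i) with hrow
  set S := (prodLin w).support with hS
  set φ : (Fin d × Fin n → Qbar) → (S → Qbar) := fun y s => coeff s.1 (prodLin (row y)) with hφd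
  have hrowσ : ∀ (σ : GQ) (y : Fin d × Fin n → Qbar),
      prodLin (row (σ • y)) = map (σ : Qbar →+* Qbar) (prodLin (row y)) := by
    intro σ y
    rw [map_prodLin]
    rfl
  have hφ : ∀ (σ : GQ) (y : Fin d × Fin n → Qbar), φ (σ • y) = σ • φ y := by
    intro σ y
    funext s
    show coeff s.1 (prodLin (row (σ • y))) = σ (coeff s.1 (prodLin (row y)))
    rw [hrowσ, coeff_map]
    rfl
  have hπ : ∀ (j : Fin d) (σ : GQ) (y : Fin d × Fin n → Qbar),
      (fun y : Fin d × Fin n → Qbar => row y j) (σ • y) = σ • row y j := fun _ _ _ => rfl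
  have e0 : ht (coeffVec (prodLin w)) = gsum (fun v y => Real.log (supN v (φ y))) W :=
    ht_map hφ W
  have ej : ∀ j, ht (w j) = gsum (fun v y => Real.log (supN v (row y j))) W :=
    fun j => ht_map (φ := fun y : Fin d × Fin n → Qbar => row y j) (hπ j) W
  have adj : ∀ j ∈ (Finset.univ : Finset (Fin d)),
      Adelic (fun v y => Real.log (supN v (row y j))) W :=
    fun j _ => adelic_log_supN_map (φ := fun y : Fin d × Fin n → Qbar => row y j) (hπ j) W
  have esum : ∑ j, ht (w j) = gsum (fun v y => ∑ j, Real.log (supN v (row y j))) W := by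
    rw [gsum_finset_sum Finset.univ adj]
    exact Finset.sum_congr rfl fun j _ => ej j
  rw [e0, esum]
  refine abs_gsum_sub_le (support_gaussC d n) (adelic_log_supN_map hφ W)
    (adelic_finset_sum Finset.univ adj) ?_
  intro v y hy
  obtain ⟨σ, rfl⟩ := mem_orbitFS.mp hy
  have hrows : ∀ j, row (σ • W) j ≠ 0 := by
    intro j
    have : row (σ • W) j = σ • w j := rfl
    rw [this]
    exact (smul_ne_zero_iff σ).mpr (hw j)
  have hsupp : (prodLin (row (σ • W))).support ⊆ S := by
    rw [hrowσ]
    exact (support_map_subset _ _)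
  have hsupN : supN v (φ (σ • W)) = gaussN v (prodLin (row (σ • W))) :=
    (gaussN_eq_iSup_of_subset v _ S hsupp).symm
  rw [hsupN]
  exact abs_log_gaussN_prodLin_sub_le v hrows

/-- The same statement in the `C (w j i) * X i` notation. -/
theorem ht_gauss (d n : ℕ) : ∃ B : ℝ, ∀ w : Fin d → Fin n → Qbar, (∀ j, w j ≠ 0) →
    |ht (coeffVec (∏ j, ∑ i, C (w j i) * X i)) - ∑ j, ht (w j)| ≤ B := by
  obtain ⟨B, hB⟩ := ht_gauss_prodLin d n
  refine ⟨B, fun w hw => ?_⟩
  rw [← prodLin_eq]
  exact hB w hw

/-- The height of the coefficient vector does not depend on the (injective, support-covering)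
indexing of the coefficients. -/
theorem ht_coeff_reindex {ι κ : Type*} [Finite κ] (F : MvPolynomial ι Qbar) (e : κ → (ι →₀ ℕ))
    (he : Function.Injective e) (hsupp : ∀ s ∈ F.support, ∃ k, e k = s) :
    ht (fun k => coeff (e k) F) = ht (coeffVec F) := by
  classical
  set x : κ → Qbar := fun k => coeff (e k) F with hx
  have hmem : ∀ k : Function.support x, e k.1 ∈ F.support := fun k => mem_support_iff.mpr k.2
  set E : Function.support x → F.support := fun k => ⟨e k.1, hmem k⟩ with hE
  have hEbij : Function.Bijective E := by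
    constructor
    · intro k k' h
      exact Subtype.ext (he (congrArg Subtype.val h))
    · intro s
      obtain ⟨k, hk⟩ := hsupp s.1 s.2
      refine ⟨⟨k, ?_⟩, Subtype.ext hk⟩
      show coeff (e k) F ≠ 0
      rw [hk]
      exact mem_support_iff.mp s.2
  rw [ht_restrict_support x, ← ht_comp_equiv (Equiv.ofBijective E hEbij) (coeffVec F)]
  rfl

end Fermat.Agent.MW.HT.Gauss3
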