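/-
PROGRAMME MW (S17), block HT — helper3.  `GaussG3`: the Gauss lemma of `MvGauss3` / `Gauss3` for an
ARBITRARY FINITE INDEX TYPE `ι` of variables (transport along `ι ≃ Fin (card ι)`), and for
products of linear forms `linG w = ∑ i, w i • X i` indexed by any `Fintype`:
* `gaussN_rename_equiv`, `gaussN_mul_someG`, `gaussN_prod_someG`, `gaussN_prod_none_geG`;
* `gaussN_C_mul`, `gaussN_linG`, `gaussN_prodLinG_some`, `gaussN_prodLinG_none_ge`,
  `gaussN_prodLinG_le`, `abs_log_gaussN_prodLinG_sub_le`.
-/
import Mathlib
import Fermat.Agent.MW.HT.MvGauss3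

set_option autoImplicit false

namespace Fermat.Agent.MW.HT.GaussG3

open Fermat.Agent.MW.HT.Place3 Fermat.Agent.MW.HT.Ht3 Fermat.Agent.MW.HT.Lin3
  Fermat.Agent.MW.HT.UGauss3 Fermat.Agent.MW.HT.Kron3 Fermat.Agent.MW.HT.MvGauss3

open MvPolynomial

variable {ι κ : Type*}

theorem coeff_rename_equiv (e : ι ≃ κ) (F : MvPolynomial ι Qbar) (s : κ →₀ ℕ) :
    coeff s (rename e F) = coeff (s.mapDomain e.symm) F := by
  have hs : s = (s.mapDomain e.symm).mapDomain e := by
    rw [← Finsupp.mapDomain_comp]
    simp
  conv_lhs => rw [hs]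
  exact coeff_rename_mapDomain e e.injective F _

/-- The Gauss norm is invariant under renaming the variables by an equivalence. -/
theorem gaussN_rename_equiv (v : Place) (e : ι ≃ κ) (F : MvPolynomial ι Qbar) :
    gaussN v (rename e F) = gaussN v F := by
  apply le_antisymm
  · refine gaussN_le v _ (gaussN_nonneg v F) fun s => ?_
    rw [coeff_rename_equiv]
    exact le_gaussN v F _
  · refine gaussN_le v _ (gaussN_nonneg v _) fun t => ?_
    rw [← coeff_rename_mapDomain e e.injective F t]
    exact le_gaussN v _ _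

/-- **Gauss lemma** at the finite places, any finite set of variables. -/
theorem gaussN_mul_someG [Finite ι] (q : Nat.Primes) (F G : MvPolynomial ι Qbar) :
    gaussN (some q) (F * G) = gaussN (some q) F * gaussN (some q) G := by
  set e := Finite.equivFin ι
  rw [← gaussN_rename_equiv (some q) e (F * G), map_mul, gaussN_mul_some,
    gaussN_rename_equiv, gaussN_rename_equiv]

theorem gaussN_prod_someG [Finite ι] {α : Type*} (q : Nat.Primes) (s : Finset α)
    (F : α → MvPolynomial ι Qbar) :
    gaussN (some q) (∏ a ∈ s, F a) = ∏ a ∈ s, gaussN (some q) (F a) := by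
  classical
  induction s using Finset.induction_on with
  | empty => simpa using gaussN_one (some q)
  | insert a s ha ih => rw [Finset.prod_insert ha, Finset.prod_insert ha, gaussN_mul_someG, ih]

theorem gaussN_pow_someG [Finite ι] (q : Nat.Primes) (F : MvPolynomial ι Qbar) (m : ℕ) :
    gaussN (some q) (F ^ m) = gaussN (some q) F ^ m := by
  induction m with
  | zero => simpa using gaussN_one (some q)
  | succ m ih => rw [pow_succ, pow_succ, gaussN_mul_someG, ih]

/-- **Gelfond-type inequality** at the infinite place, any finite set of variables. -/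
theorem gaussN_prod_none_geG [Finite ι] {α : Type*} (s : Finset α) (F : α → MvPolynomial ι Qbar)
    (D : ℕ) (hD : ∀ i, ∑ a ∈ s, degreeOf i (F a) < D) :
    ∏ a ∈ s, gaussN none (F a)
      ≤ gelfondC s.card D (Nat.card ι) * gaussN none (∏ a ∈ s, F a) := by
  set e := Finite.equivFin ι
  have h := gaussN_prod_none_ge s (fun a => rename e (F a)) D (fun k => by
    have hk : k = e (e.symm k) := (e.apply_symm_apply k).symm
    rw [hk]
    simp only [degreeOf_rename_of_injective e.injective]
    exact hD _)
  rw [← map_prod, gaussN_rename_equiv] at h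
  refine le_trans (le_of_eq ?_) h
  exact Finset.prod_congr rfl fun a _ => (gaussN_rename_equiv none e (F a)).symm

/-- Scaling. -/
theorem gaussN_C_mul (v : Place) (a : Qbar) (F : MvPolynomial ι Qbar) :
    gaussN v (C a * F) = absV v a * gaussN v F := by
  apply le_antisymm
  · refine gaussN_le v _ (mul_nonneg ((absV v).nonneg a) (gaussN_nonneg v F)) fun s => ?_
    rw [coeff_C_mul, map_mul]
    exact mul_le_mul_of_nonneg_left (le_gaussN v F s) ((absV v).nonneg a)
  · by_cases ha : a = 0
    · rw [ha, map_zero, zero_mul]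
      exact gaussN_nonneg v _
    have hpos : 0 < absV v a := (absV v).pos ha
    rw [← le_div_iff₀' hpos]
    refine gaussN_le v F (div_nonneg (gaussN_nonneg v _) hpos.le) fun s => ?_
    rw [le_div_iff₀' hpos, ← map_mul, ← coeff_C_mul]
    exact le_gaussN v _ s

section Linear

variable [Fintype ι]

/-- The linear form with coefficient vector `w`. -/
noncomputable def linG (w : ι → Qbar) : MvPolynomial ι Qbar :=
  ∑ i, monomial (Finsupp.single i 1) (w i)

theorem linG_eq (w : ι → Qbar) : linG w = ∑ i, C (w i) * X i :=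
  Finset.sum_congr rfl fun _ _ => (C_mul_X_eq_monomial).symm

theorem eval_linG (w x : ι → Qbar) : eval x (linG w) = ∑ i, w i * x i := by
  rw [linG_eq, map_sum]
  exact Finset.sum_congr rfl fun i _ => by rw [map_mul, eval_C, eval_X]

theorem coeff_linG [DecidableEq ι] (w : ι → Qbar) (s : ι →₀ ℕ) :
    coeff s (linG w) = ∑ i, if Finsupp.single i 1 = s then w i else 0 := by
  rw [linG, coeff_sum]
  exact Finset.sum_congr rfl fun i _ => coeff_monomial _ _ _

theorem coeff_linG_single (w : ι → Qbar) (i : ι) :
    coeff (Finsupp.single i 1) (linG w) = w i := by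
  classical
  rw [coeff_linG, Finset.sum_eq_single i]
  · rw [if_pos rfl]
  · intro j _ hji
    rw [if_neg]
    intro h
    exact hji (Finsupp.single_left_injective one_ne_zero h)
  · intro h
    exact absurd (Finset.mem_univ i) h

theorem coeff_linG_cases (w : ι → Qbar) (s : ι →₀ ℕ) :
    coeff s (linG w) = 0 ∨ ∃ i, s = Finsupp.single i 1 ∧ coeff s (linG w) = w i := by
  classical
  by_cases h : ∃ i, Finsupp.single i 1 = s
  · obtain ⟨i, rfl⟩ := h
    exact Or.inr ⟨i, rfl, coeff_linG_single w i⟩
  · left
    rw [coeff_linG]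
    refine Finset.sum_eq_zero fun i _ => ?_
    rw [if_neg]
    intro hi
    exact h ⟨i, hi⟩

theorem gaussN_linG (v : Place) (w : ι → Qbar) : gaussN v (linG w) = supN v w := by
  apply le_antisymm
  · refine gaussN_le v _ (supN_nonneg v w) fun s => ?_
    rcases coeff_linG_cases w s with h | ⟨i, _, h⟩
    · rw [h, map_zero]
      exact supN_nonneg v w
    · rw [h]
      exact le_supN v w i
  · refine supN_le v w (gaussN_nonneg v _) fun i => ?_
    rw [← coeff_linG_single w i]
    exact le_gaussN v _ _

theorem linG_ne_zero {w : ι → Qbar} (hw : w ≠ 0) : linG w ≠ 0 := by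
  obtain ⟨i, hi⟩ := Function.ne_iff.mp hw
  intro h
  apply hi
  rw [← coeff_linG_single w i, h, coeff_zero]
  rfl

theorem support_linG_subset [DecidableEq ι] (w : ι → Qbar) :
    (linG w).support ⊆ Finset.univ.image fun i : ι => Finsupp.single i 1 := by
  intro s hs
  rcases coeff_linG_cases w s with h | ⟨i, hi, _⟩
  · exact absurd h (mem_support_iff.mp hs)
  · exact Finset.mem_image.mpr ⟨i, Finset.mem_univ i, hi.symm⟩

theorem card_support_linG_le (w : ι → Qbar) : (linG w).support.card ≤ Fintype.card ι := by
  classical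
  refine (Finset.card_le_card (support_linG_subset w)).trans ?_
  refine Finset.card_image_le.trans ?_
  rw [Finset.card_univ]

theorem degreeOf_linG_le (w : ι → Qbar) (i : ι) : degreeOf i (linG w) ≤ 1 := by
  classical
  rw [degreeOf_le_iff]
  intro s hs
  rcases coeff_linG_cases w s with h | ⟨k, hk, _⟩
  · exact absurd h (mem_support_iff.mp hs)
  · rw [hk, Finsupp.single_apply]
    split_ifs <;> omega

theorem map_linG (f : Qbar →+* Qbar) (w : ι → Qbar) :
    map f (linG w) = linG fun i => f (w i) := by
  rw [linG, map_sum, linG]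
  exact Finset.sum_congr rfl fun i _ => map_monomial _ _ _

variable {α : Type*}

/-- Finite places: the Gauss norm of a product of linear forms is the product of the norms. -/
theorem gaussN_prodLinG_some (q : Nat.Primes) (s : Finset α) (w : α → ι → Qbar) :
    gaussN (some q) (∏ a ∈ s, linG (w a)) = ∏ a ∈ s, supN (some q) (w a) := by
  rw [gaussN_prod_someG]
  exact Finset.prod_congr rfl fun a _ => gaussN_linG (some q) (w a)

/-- Infinite place: Gelfond's inequality for a product of linear forms. -/
theorem gaussN_prodLinG_none_ge (s : Finset α) (w : α → ι → Qbar) :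
    ∏ a ∈ s, supN none (w a)
      ≤ gelfondC s.card (s.card + 1) (Fintype.card ι) * gaussN none (∏ a ∈ s, linG (w a)) := by
  have h := gaussN_prod_none_geG s (fun a => linG (w a)) (s.card + 1)
    (fun i => by
      refine Nat.lt_succ_of_le ?_
      calc ∑ a ∈ s, degreeOf i (linG (w a)) ≤ ∑ _a ∈ s, 1 :=
            Finset.sum_le_sum fun a _ => degreeOf_linG_le (w a) i
        _ = s.card := by simp)
  rw [Nat.card_eq_fintype_card] at h
  refine le_trans (le_of_eq ?_) h
  exact Finset.prod_congr rfl fun a _ => (gaussN_linG none (w a)).symm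

/-- All places, trivial direction. -/
theorem gaussN_prodLinG_le (v : Place) (s : Finset α) (w : α → ι → Qbar) :
    gaussN v (∏ a ∈ s, linG (w a))
      ≤ archC (Fintype.card ι ^ s.card) v * ∏ a ∈ s, supN v (w a) := by
  classical
  induction s using Finset.induction_on with
  | empty =>
    simp only [Finset.prod_empty, Finset.card_empty, pow_zero, mul_one]
    rw [gaussN_one]
    rcases v with _ | p
    · rw [archC_none, Nat.cast_one]
    · rw [archC_some]
  | insert a s ha ih =>
    rw [Finset.prod_insert ha, Finset.prod_insert ha, Finset.card_insert_of_notMem ha, pow_succ,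
      mul_comm (Fintype.card ι ^ s.card) (Fintype.card ι), archC_mul]
    have h2 := gaussN_mul_le v (linG (w a)) (∏ b ∈ s, linG (w b)) (card_support_linG_le (w a))
    rw [gaussN_linG] at h2
    refine h2.trans ?_
    calc archC (Fintype.card ι) v * supN v (w a) * gaussN v (∏ b ∈ s, linG (w b))
        ≤ archC (Fintype.card ι) v * supN v (w a)
            * (archC (Fintype.card ι ^ s.card) v * ∏ b ∈ s, supN v (w b)) :=
          mul_le_mul_of_nonneg_left ih
            (mul_nonneg (archC_nonneg _ v) (supN_nonneg v _))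
      _ = _ := by ring

/-- The local constant of the Gauss lemma for products of `d` linear forms in `n` variables. -/
noncomputable def gaussCG (d n : ℕ) : Place → ℝ
  | none => Real.log ((n ^ d : ℕ) : ℝ) + Real.log (gelfondC d (d + 1) n)
  | some _ => 0

theorem support_gaussCG (d n : ℕ) : (Function.support (gaussCG d n)).Finite := by
  refine (Set.finite_singleton (none : Place)).subset ?_
  intro v hv
  rcases v with _ | p
  · rfl
  · exact absurd rfl hv

theorem gaussCG_nonneg (d n : ℕ) (v : Place) : 0 ≤ gaussCG d n v := by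
  rcases v with _ | p
  · show 0 ≤ Real.log ((n ^ d : ℕ) : ℝ) + Real.log (gelfondC d (d + 1) n)
    have h1 : 0 ≤ Real.log ((n ^ d : ℕ) : ℝ) := Real.log_natCast_nonneg _
    have h2 : 0 ≤ Real.log (gelfondC d (d + 1) n) := Real.log_nonneg (one_le_gelfondC _ _ _)
    linarith
  · exact le_rfl

/-- The local two-sided Gauss lemma in logarithmic form. -/
theorem abs_log_gaussN_prodLinG_sub_le (v : Place) (s : Finset α) {w : α → ι → Qbar}
    (hw : ∀ a ∈ s, w a ≠ 0) :
    |Real.log (gaussN v (∏ a ∈ s, linG (w a))) - ∑ a ∈ s, Real.log (supN v (w a))|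
      ≤ gaussCG s.card (Fintype.card ι) v := by
  have hne : (∏ a ∈ s, linG (w a)) ≠ 0 :=
    Finset.prod_ne_zero_iff.mpr fun a ha => linG_ne_zero (hw a ha)
  have hG : 0 < gaussN v (∏ a ∈ s, linG (w a)) := gaussN_pos v hne
  have hP : 0 < ∏ a ∈ s, supN v (w a) := Finset.prod_pos fun a ha => supN_pos v (hw a ha)
  have hlogP : Real.log (∏ a ∈ s, supN v (w a)) = ∑ a ∈ s, Real.log (supN v (w a)) :=
    Real.log_prod fun a ha => (supN_pos v (hw a ha)).ne'
  have hnd : 1 ≤ Fintype.card ι ^ s.card := by
    rcases s.eq_empty_or_nonempty with hs | ⟨a, ha⟩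
    · rw [hs, Finset.card_empty, pow_zero]
    · have : Nonempty ι := (Function.ne_iff.mp (hw a ha)).nonempty
      exact Nat.one_le_pow _ _ Fintype.card_pos
  rw [← hlogP]
  rcases v with _ | q
  · have h1 := gaussN_prodLinG_le none s w
    have h2 := gaussN_prodLinG_none_ge s w
    rw [archC_none] at h1
    have hnd' : (1 : ℝ) ≤ ((Fintype.card ι ^ s.card : ℕ) : ℝ) := by exact_mod_cast hnd
    have hC := one_le_gelfondC s.card (s.card + 1) (Fintype.card ι)
    have e1 : Real.log (gaussN none (∏ a ∈ s, linG (w a)))
        ≤ Real.log ((Fintype.card ι ^ s.card : ℕ) : ℝ) + Real.log (∏ a ∈ s, supN none (w a)) := by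
      rw [← Real.log_mul (by positivity) hP.ne']
      exact Real.log_le_log hG h1
    have e2 : Real.log (∏ a ∈ s, supN none (w a))
        ≤ Real.log (gelfondC s.card (s.card + 1) (Fintype.card ι))
          + Real.log (gaussN none (∏ a ∈ s, linG (w a))) := by
      rw [← Real.log_mul (by positivity) hG.ne']
      exact Real.log_le_log hP h2
    have hl1 : 0 ≤ Real.log ((Fintype.card ι ^ s.card : ℕ) : ℝ) := Real.log_nonneg hnd'
    have hl2 : 0 ≤ Real.log (gelfondC s.card (s.card + 1) (Fintype.card ι)) := Real.log_nonneg hC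
    show _ ≤ Real.log ((Fintype.card ι ^ s.card : ℕ) : ℝ)
      + Real.log (gelfondC s.card (s.card + 1) (Fintype.card ι))
    rw [abs_le]
    constructor <;> linarith
  · rw [gaussN_prodLinG_some]
    show _ ≤ (0 : ℝ)
    rw [sub_self, abs_zero]

end Linear

end Fermat.Agent.MW.HT.GaussG3
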