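/-
PROGRAMME MW (S17), block HT — helper3.  `GlobUD3`: the ABSTRACT GLOBAL STEP (GL) of the uniform
decomposition: from a two-sided LOCAL estimate of a nonzero algebraic number `a` (a leading
coefficient) by sup norms of coordinate vectors and of their `2 × 2` minors, valid at every place
for every Galois conjugate of the configuration, to the GLOBAL height identity up to `∑ log Cud`
(product formula for `a`).  Pure height calculus; no curve.
-/
import Mathlib
import Fermat.Agent.MW.HT.Lin3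

set_option autoImplicit false

namespace Fermat.Agent.MW.HT.GlobUD3

open Fermat.Agent.MW.HT.Place3 Fermat.Agent.MW.HT.Orbit3 Fermat.Agent.MW.HT.Glob3
  Fermat.Agent.MW.HT.PF3 Fermat.Agent.MW.HT.Ht3

variable {κ : Type*}

/-- The vector of `2 × 2` minors of two vectors (indexed by all pairs). -/
noncomputable def wedge2 (x y : κ → Qbar) : κ × κ → Qbar :=
  fun p => x p.1 * y p.2 - x p.2 * y p.1

theorem wedge2_smul (σ : GQ) (x y : κ → Qbar) : wedge2 (σ • x) (σ • y) = σ • wedge2 x y := by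
  funext p
  simp only [wedge2, smul_apply, map_sub, map_mul]

theorem wedge2_comm (x y : κ → Qbar) : wedge2 y x = (-1 : Qbar) • wedge2 x y := by
  funext p
  simp only [wedge2, Pi.smul_apply, smul_eq_mul]
  ring

theorem supN_wedge2_comm (v : Place) (x y : κ → Qbar) :
    supN v (wedge2 y x) = supN v (wedge2 x y) := by
  rw [wedge2_comm, supN_smul, map_neg_eq_map, map_one, one_mul]

theorem ht_wedge2_comm [Finite κ] (x y : κ → Qbar) : ht (wedge2 y x) = ht (wedge2 x y) := by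
  rw [wedge2_comm, ht_smul _ (by norm_num : (-1 : Qbar) ≠ 0)]

/-- The local model quantity: `‖c‖ ‖Y‖ ∏_j (κ if j ∈ T, χ_j otherwise)`. -/
noncomputable def Bloc {d : ℕ} (v : Place) (T : Finset (Fin d)) (c Y Y' : κ → Qbar)
    (P : Fin d → κ → Qbar) : ℝ :=
  supN v c * supN v Y * ∏ j, (if j ∈ T then supN v (wedge2 Y Y') / supN v Y ^ 2
    else supN v (wedge2 (P j) Y) / (supN v (P j) * supN v Y))

/-- **(GL)** local two-sided estimates at all places for all Galois conjugates of the configuration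
`(a; c, Y, Y', P)` imply the global height identity up to `∑ log Cud`. -/
theorem global_of_local [Finite κ] {d : ℕ} (T : Finset (Fin d)) (Cud : Place → ℝ)
    (hCud1 : ∀ v, 1 ≤ Cud v) (hCudfin : {v | Cud v ≠ 1}.Finite)
    {a : Qbar} {c Y Y' : κ → Qbar} {P : Fin d → κ → Qbar}
    (ha : a ≠ 0) (hc : c ≠ 0) (hY : Y ≠ 0) (hP : ∀ j, P j ≠ 0)
    (hwT : ∀ j ∈ T, wedge2 Y Y' ≠ 0) (hwN : ∀ j, j ∉ T → wedge2 (P j) Y ≠ 0)
    (hloc : ∀ (v : Place) (σ : GQ),
      (Cud v)⁻¹ * Bloc v T (σ • c) (σ • Y) (σ • Y') (fun j => σ • P j) ≤ absV v (σ a) ∧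
      absV v (σ a) ≤ Cud v * Bloc v T (σ • c) (σ • Y) (σ • Y') (fun j => σ • P j)) :
    |(ht c + ht Y) - ∑ j, (if j ∈ T then 2 * ht Y - ht (wedge2 Y Y')
        else ht (P j) + ht Y - ht (wedge2 (P j) Y))| ≤ ∑ᶠ v, Real.log (Cud v) := by
  classical
  -- master configuration
  set W : Unit ⊕ κ ⊕ κ ⊕ κ ⊕ (Fin d × κ) → Qbar :=
    Sum.elim (fun _ => a) (Sum.elim c (Sum.elim Y (Sum.elim Y' (fun p => P p.1 p.2)))) with hW
  set πa : (Unit ⊕ κ ⊕ κ ⊕ κ ⊕ (Fin d × κ) → Qbar) → Qbar := fun y => y (Sum.inl ()) with hπa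
  set πc : (Unit ⊕ κ ⊕ κ ⊕ κ ⊕ (Fin d × κ) → Qbar) → (κ → Qbar) :=
    fun y i => y (Sum.inr (Sum.inl i)) with hπc
  set πY : (Unit ⊕ κ ⊕ κ ⊕ κ ⊕ (Fin d × κ) → Qbar) → (κ → Qbar) :=
    fun y i => y (Sum.inr (Sum.inr (Sum.inl i))) with hπY
  set πY' : (Unit ⊕ κ ⊕ κ ⊕ κ ⊕ (Fin d × κ) → Qbar) → (κ → Qbar) :=
    fun y i => y (Sum.inr (Sum.inr (Sum.inr (Sum.inl i)))) with hπY'
  set πP : Fin d → (Unit ⊕ κ ⊕ κ ⊕ κ ⊕ (Fin d × κ) → Qbar) → (κ → Qbar) :=
    fun j y i => y (Sum.inr (Sum.inr (Sum.inr (Sum.inr (j, i))))) with hπP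
  set φT : (Unit ⊕ κ ⊕ κ ⊕ κ ⊕ (Fin d × κ) → Qbar) → (κ × κ → Qbar) :=
    fun y => wedge2 (πY y) (πY' y) with hφT
  set φN : Fin d → (Unit ⊕ κ ⊕ κ ⊕ κ ⊕ (Fin d × κ) → Qbar) → (κ × κ → Qbar) :=
    fun j y => wedge2 (πP j y) (πY y) with hφN
  -- equivariance
  have eqa : ∀ (σ : GQ) (y : Unit ⊕ κ ⊕ κ ⊕ κ ⊕ (Fin d × κ) → Qbar), πa (σ • y) = σ (πa y) :=
    fun _ _ => rfl
  have eqc : ∀ (σ : GQ) (y : Unit ⊕ κ ⊕ κ ⊕ κ ⊕ (Fin d × κ) → Qbar), πc (σ • y) = σ • πc y :=
    fun _ _ => rfl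
  have eqY : ∀ (σ : GQ) (y : Unit ⊕ κ ⊕ κ ⊕ κ ⊕ (Fin d × κ) → Qbar), πY (σ • y) = σ • πY y :=
    fun _ _ => rfl
  have eqP : ∀ (j : Fin d) (σ : GQ) (y : Unit ⊕ κ ⊕ κ ⊕ κ ⊕ (Fin d × κ) → Qbar),
      πP j (σ • y) = σ • πP j y := fun _ _ _ => rfl
  have eqT : ∀ (σ : GQ) (y : Unit ⊕ κ ⊕ κ ⊕ κ ⊕ (Fin d × κ) → Qbar), φT (σ • y) = σ • φT y :=
    fun σ y => wedge2_smul σ (πY y) (πY' y)
  have eqN : ∀ (j : Fin d) (σ : GQ) (y : Unit ⊕ κ ⊕ κ ⊕ κ ⊕ (Fin d × κ) → Qbar),
      φN j (σ • y) = σ • φN j y := fun j σ y => wedge2_smul σ (πP j y) (πY y)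
  -- values at `W`
  have vc : πc W = c := rfl
  have vY : πY W = Y := rfl
  have vP : ∀ j, πP j W = P j := fun _ => rfl
  have vT : φT W = wedge2 Y Y' := rfl
  have vN : ∀ j, φN j W = wedge2 (P j) Y := fun _ => rfl
  -- adelic properties
  have ada := adelic_log_absV (a := πa) eqa (w := W) ha
  have adc := adelic_log_supN_map eqc W
  have adY := adelic_log_supN_map eqY W
  have adP := fun j => adelic_log_supN_map (eqP j) W
  have adT := adelic_log_supN_map eqT W
  have adN := fun j => adelic_log_supN_map (eqN j) W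
  -- heights as global sums
  have hc' : gsum (fun v y => Real.log (supN v (πc y))) W = ht c := (ht_map eqc W).symm
  have hY' : gsum (fun v y => Real.log (supN v (πY y))) W = ht Y := (ht_map eqY W).symm
  have hP' : ∀ j, gsum (fun v y => Real.log (supN v (πP j y))) W = ht (P j) :=
    fun j => (ht_map (eqP j) W).symm
  have hT' : gsum (fun v y => Real.log (supN v (φT y))) W = ht (wedge2 Y Y') :=
    (ht_map eqT W).symm
  have hN' : ∀ j, gsum (fun v y => Real.log (supN v (φN j y))) W = ht (wedge2 (P j) Y) :=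
    fun j => (ht_map (eqN j) W).symm
  have hpf : gsum (fun v y => Real.log (absV v (πa y))) W = 0 := product_formula eqa ha
  -- the local model in logarithmic form
  set g : Fin d → Place → (Unit ⊕ κ ⊕ κ ⊕ κ ⊕ (Fin d × κ) → Qbar) → ℝ := fun j v y =>
    if j ∈ T then Real.log (supN v (φT y)) - 2 * Real.log (supN v (πY y))
    else Real.log (supN v (φN j y)) - Real.log (supN v (πP j y)) - Real.log (supN v (πY y))
    with hg
  have adg : ∀ j ∈ (Finset.univ : Finset (Fin d)), Adelic (g j) W := by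
    intro j _
    by_cases hj : j ∈ T
    · simp only [hg, if_pos hj]
      exact adT.sub (adY.const_mul 2)
    · simp only [hg, if_neg hj]
      exact ((adN j).sub (adP j)).sub adY
  have gsg : ∀ j, gsum (g j) W = -(if j ∈ T then 2 * ht Y - ht (wedge2 Y Y')
      else ht (P j) + ht Y - ht (wedge2 (P j) Y)) := by
    intro j
    by_cases hj : j ∈ T
    · simp only [hg, if_pos hj]
      rw [gsum_sub adT (adY.const_mul 2), gsum_const_mul, hT', hY']
      ring
    · simp only [hg, if_neg hj]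
      rw [gsum_sub ((adN j).sub (adP j)) adY, gsum_sub (adN j) (adP j), hN', hP', hY']
      ring
  set L : Place → (Unit ⊕ κ ⊕ κ ⊕ κ ⊕ (Fin d × κ) → Qbar) → ℝ := fun v y =>
    (Real.log (supN v (πc y)) + Real.log (supN v (πY y))) + ∑ j, g j v y with hL
  have adL : Adelic L W := (adc.add adY).add (adelic_finset_sum Finset.univ adg)
  have gsL : gsum L W = (ht c + ht Y) - ∑ j, (if j ∈ T then 2 * ht Y - ht (wedge2 Y Y')
      else ht (P j) + ht Y - ht (wedge2 (P j) Y)) := by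
    rw [hL, gsum_add (adc.add adY) (adelic_finset_sum Finset.univ adg), gsum_add adc adY,
      gsum_finset_sum Finset.univ adg, hc', hY', Finset.sum_congr rfl fun j _ => gsg j,
      Finset.sum_neg_distrib]
    ring
  -- support of the constants
  have hsupp : (Function.support fun v => Real.log (Cud v)).Finite := by
    refine hCudfin.subset ?_
    intro v hv h1
    apply hv
    show Real.log (Cud v) = 0
    rw [h1, Real.log_one]
  -- local ⇒ global
  have hglob := abs_gsum_sub_le hsupp ada adL (fun v y hy => ?_)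
  · rw [hpf, gsL, zero_sub, abs_neg] at hglob
    exact hglob
  -- the local estimate on the orbit
  obtain ⟨σ, rfl⟩ := mem_orbitFS.mp hy
  have hCpos : 0 < Cud v := lt_of_lt_of_le zero_lt_one (hCud1 v)
  have pc : 0 < supN v (σ • c) := supN_pos v ((smul_ne_zero_iff σ).mpr hc)
  have pY : 0 < supN v (σ • Y) := supN_pos v ((smul_ne_zero_iff σ).mpr hY)
  have pP : ∀ j, 0 < supN v (σ • P j) := fun j => supN_pos v ((smul_ne_zero_iff σ).mpr (hP j))
  have pT : ∀ j ∈ T, 0 < supN v (wedge2 (σ • Y) (σ • Y')) := by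
    intro j hj
    rw [wedge2_smul]
    exact supN_pos v ((smul_ne_zero_iff σ).mpr (hwT j hj))
  have pN : ∀ j, j ∉ T → 0 < supN v (wedge2 (σ • P j) (σ • Y)) := by
    intro j hj
    rw [wedge2_smul]
    exact supN_pos v ((smul_ne_zero_iff σ).mpr (hwN j hj))
  have pterm : ∀ j, 0 < (if j ∈ T then supN v (wedge2 (σ • Y) (σ • Y')) / supN v (σ • Y) ^ 2
      else supN v (wedge2 (σ • P j) (σ • Y)) / (supN v (σ • P j) * supN v (σ • Y))) := by
    intro j
    by_cases hj : j ∈ T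
    · rw [if_pos hj]
      exact div_pos (pT j hj) (pow_pos pY 2)
    · rw [if_neg hj]
      exact div_pos (pN j hj) (mul_pos (pP j) pY)
  have hB : Real.log (Bloc v T (σ • c) (σ • Y) (σ • Y') (fun j => σ • P j)) = L v (σ • W) := by
    rw [Bloc, Real.log_mul (mul_pos pc pY).ne' (Finset.prod_pos fun j _ => pterm j).ne',
      Real.log_mul pc.ne' pY.ne', Real.log_prod fun j _ => (pterm j).ne']
    show _ = (Real.log (supN v (σ • c)) + Real.log (supN v (σ • Y))) + ∑ j, g j v (σ • W)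
    congr 1
    refine Finset.sum_congr rfl fun j _ => ?_
    by_cases hj : j ∈ T
    · simp only [hg, if_pos hj]
      rw [Real.log_div (pT j hj).ne' (pow_pos pY 2).ne', Real.log_pow]
      rfl
    · simp only [hg, if_neg hj]
      rw [Real.log_div (pN j hj).ne' (mul_pos (pP j) pY).ne', Real.log_mul (pP j).ne' pY.ne']
      show _ = Real.log (supN v (wedge2 (σ • P j) (σ • Y))) - Real.log (supN v (σ • P j))
        - Real.log (supN v (σ • Y))
      ring
  have hBpos : 0 < Bloc v T (σ • c) (σ • Y) (σ • Y') (fun j => σ • P j) :=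
    mul_pos (mul_pos pc pY) (Finset.prod_pos fun j _ => pterm j)
  obtain ⟨hlo, hhi⟩ := hloc v σ
  have hapos : 0 < absV v (σ a) := (absV v).pos ((map_ne_zero σ).mpr ha)
  have h1 : Real.log (absV v (σ a))
      ≤ Real.log (Cud v) + Real.log (Bloc v T (σ • c) (σ • Y) (σ • Y') (fun j => σ • P j)) := by
    rw [← Real.log_mul hCpos.ne' hBpos.ne']
    exact Real.log_le_log hapos hhi
  have h2 : -Real.log (Cud v) + Real.log (Bloc v T (σ • c) (σ • Y) (σ • Y') (fun j => σ • P j))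
      ≤ Real.log (absV v (σ a)) := by
    rw [← Real.log_inv, ← Real.log_mul (inv_ne_zero hCpos.ne') hBpos.ne']
    exact Real.log_le_log (mul_pos (inv_pos.mpr hCpos) hBpos) hlo
  show |Real.log (absV v (σ a)) - L v (σ • W)| ≤ Real.log (Cud v)
  rw [← hB, abs_le]
  constructor <;> linarith

end Fermat.Agent.MW.HT.GlobUD3
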