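/-
PROGRAMME MW (S17), block HT — helper3.  `RatHt3`: heights of rational points.  For a Galois-fixed
tuple the height is the plain sum of the local terms (`ht_of_fixed`); `ht ![r, 1] = log max |num| den`
for `r : ℚ` (`ht_rat`); NORTHCOTT over `ℚ`: `{r : ℚ | ht ![r, 1] ≤ B}` is finite.
-/
import Mathlib
import Fermat.Agent.MW.HT.Ht3

set_option autoImplicit false

namespace Fermat.Agent.MW.HT.RatHt3

open Fermat.Agent.MW.HT.Place3 Fermat.Agent.MW.HT.Orbit3 Fermat.Agent.MW.HT.Glob3
  Fermat.Agent.MW.HT.PF3 Fermat.Agent.MW.HT.Ht3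

variable {ι : Type*}

/-- For a Galois-fixed tuple the height is the sum of the local terms. -/
theorem ht_of_fixed [Finite ι] {x : ι → Qbar} (hx : ∀ σ : GQ, σ • x = x) :
    ht x = ∑ᶠ v : Place, Real.log (supN v x) := by
  rw [ht, gsum]
  exact finsum_congr fun v => gavg_of_fixed _ hx

theorem fixed_of_rat [Finite ι] (r : ι → ℚ) (σ : GQ) :
    σ • (fun i => algebraMap ℚ Qbar (r i)) = fun i => algebraMap ℚ Qbar (r i) := by
  funext i
  show σ (algebraMap ℚ Qbar (r i)) = _
  exact σ.commutes (r i)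

/-- Two coprime integers: the `p`-adic sup norm is one. -/
theorem supN_coprime_some (p : Nat.Primes) {a : ℤ} {b : ℕ} (hab : Nat.Coprime a.natAbs b) :
    supN (some p) ![(a : Qbar), (b : Qbar)] = 1 := by
  have hp := primeFact p
  have ha : absV (some p) (a : Qbar) ≤ 1 := absV_some_intCast_le p a
  have hb : absV (some p) (b : Qbar) ≤ 1 := absV_some_natCast_le p b
  apply le_antisymm
  · refine supN_le _ _ zero_le_one fun i => ?_
    fin_cases i
    · exact ha
    · exact hb
  · by_cases hpa : ((p : ℕ) : ℤ) ∣ a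
    · -- then p ∤ b
      have hpb : ¬ (p : ℕ) ∣ b := by
        intro h
        have h1 : (p : ℕ) ∣ a.natAbs := Int.natCast_dvd.mp hpa
        have := Nat.dvd_gcd h1 h
        rw [hab] at this
        exact p.2.one_lt.ne' (Nat.dvd_one.mp this)
      have h1 : absV (some p) (b : Qbar) = 1 := by
        have e : (b : Qbar) = algebraMap ℚ Qbar (b : ℚ) := by simp
        rw [e, absV_some_rat, (padicNorm.nat_eq_one_iff (p := (p : ℕ)) b).mpr hpb]
        simp
      calc (1 : ℝ) = absV (some p) (![(a : Qbar), (b : Qbar)] 1) := by simpa using h1.symm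
        _ ≤ _ := le_supN _ _ 1
    · have h1 : absV (some p) (a : Qbar) = 1 := by
        have e : (a : Qbar) = algebraMap ℚ Qbar (a : ℚ) := by simp
        rw [e, absV_some_rat, (padicNorm.int_eq_one_iff (p := (p : ℕ)) a).mpr hpa]
        simp
      calc (1 : ℝ) = absV (some p) (![(a : Qbar), (b : Qbar)] 0) := by simpa using h1.symm
        _ ≤ _ := le_supN _ _ 0

theorem supN_pair_none (a : ℤ) (b : ℕ) :
    supN none ![(a : Qbar), (b : Qbar)] = max |(a : ℝ)| (b : ℝ) := by
  have ha : absV none (a : Qbar) = |(a : ℝ)| := by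
    have e : (a : Qbar) = algebraMap ℚ Qbar (a : ℚ) := by simp
    rw [e, absV_none_rat]
    simp
  have hb : absV none (b : Qbar) = (b : ℝ) := by
    have e : (b : Qbar) = algebraMap ℚ Qbar (b : ℚ) := by simp
    rw [e, absV_none_rat]
    simp
  apply le_antisymm
  · refine supN_le _ _ (le_max_of_le_left (abs_nonneg _)) fun i => ?_
    fin_cases i
    · simp [ha]
    · simp [hb]
  · refine max_le ?_ ?_
    · calc |(a : ℝ)| = absV none (![(a : Qbar), (b : Qbar)] 0) := by simpa using ha.symm
        _ ≤ _ := le_supN _ _ 0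
    · calc (b : ℝ) = absV none (![(a : Qbar), (b : Qbar)] 1) := by simpa using hb.symm
        _ ≤ _ := le_supN _ _ 1

/-- The height of a rational number. -/
theorem ht_rat (r : ℚ) :
    ht ![algebraMap ℚ Qbar r, 1] = Real.log (max |(r.num : ℝ)| (r.den : ℝ)) := by
  have hden : (r.den : Qbar) ≠ 0 := by exact_mod_cast r.den_nz
  have hscale : (r.den : Qbar) • ![algebraMap ℚ Qbar r, 1] = ![(r.num : Qbar), (r.den : Qbar)] := by
    funext i
    fin_cases i
    · show (r.den : Qbar) * algebraMap ℚ Qbar r = (r.num : Qbar)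
      have h := Rat.mul_den_eq_num r
      have h2 : algebraMap ℚ Qbar (r * (r.den : ℚ)) = algebraMap ℚ Qbar (r.num : ℚ) := by rw [h]
      rw [map_mul] at h2
      simp only [map_natCast, map_intCast] at h2
      rw [mul_comm]
      exact h2
    · show (r.den : Qbar) * 1 = (r.den : Qbar)
      rw [mul_one]
  rw [← ht_smul _ hden, hscale]
  have hfix : ∀ σ : GQ, σ • ![(r.num : Qbar), (r.den : Qbar)] = ![(r.num : Qbar), (r.den : Qbar)] := by
    intro σ
    funext i
    fin_cases i
    · show σ (r.num : Qbar) = (r.num : Qbar)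
      exact map_intCast σ _
    · show σ (r.den : Qbar) = (r.den : Qbar)
      exact map_natCast σ _
  rw [ht_of_fixed hfix, finsum_eq_single _ (none : Place), supN_pair_none]
  intro v hv
  rcases v with _ | p
  · exact absurd rfl hv
  · rw [supN_coprime_some p r.reduced, Real.log_one]

/-- **Northcott over `ℚ`**. -/
theorem northcott_rat (B : ℝ) : {r : ℚ | ht ![algebraMap ℚ Qbar r, 1] ≤ B}.Finite := by
  set M : ℕ := ⌈Real.exp B⌉₊ with hM
  have hfin : ((Finset.Icc (-(M : ℤ)) M ×ˢ Finset.Icc 0 M : Finset (ℤ × ℕ)) : Set (ℤ × ℕ)).Finite :=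
    Finset.finite_toSet _
  refine Set.Finite.of_injOn (f := fun r : ℚ => (r.num, r.den)) ?_ ?_ hfin
  · intro r hr
    have hr' : ht ![algebraMap ℚ Qbar r, 1] ≤ B := hr
    rw [ht_rat] at hr'
    have hpos : (0 : ℝ) < max |(r.num : ℝ)| (r.den : ℝ) :=
      lt_max_of_lt_right (by exact_mod_cast r.den_pos)
    have hle : max |(r.num : ℝ)| (r.den : ℝ) ≤ Real.exp B := by
      rw [← Real.exp_log hpos]
      exact Real.exp_le_exp.mpr hr'
    have hle' : max |(r.num : ℝ)| (r.den : ℝ) ≤ (M : ℝ) := hle.trans (Nat.le_ceil _)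
    have h1 : |(r.num : ℝ)| ≤ (M : ℝ) := (le_max_left _ _).trans hle'
    have h2 : (r.den : ℝ) ≤ (M : ℝ) := (le_max_right _ _).trans hle'
    have h1' : |r.num| ≤ (M : ℤ) := by exact_mod_cast h1
    have h2' : r.den ≤ M := by exact_mod_cast h2
    simp only [Finset.coe_product, Finset.coe_Icc, Set.mem_prod, Set.mem_Icc]
    exact ⟨abs_le.mp h1', Nat.zero_le _, h2'⟩
  · intro r _ s _ h
    simp only [Prod.mk.injEq] at h
    exact Rat.ext h.1 h.2

end Fermat.Agent.MW.HT.RatHt3
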