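/-
PROGRAMME MW (S17), block HT — helper3.  `North3`: NORTHCOTT for algebraic numbers of bounded degree
and bounded height, and for normalised tuples:
* `northcott d B : {a : Qbar | (orbitFS ![a, 1]).card ≤ d ∧ ht ![a, 1] ≤ B}.Finite`;
* `northcott_tuple d B i₀ : {x : ι → Qbar | x i₀ = 1 ∧ (orbitFS x).card ≤ d ∧ ht x ≤ B}.Finite`.
Proof: the polynomial `∏ (X - conjugate)` has rational coefficients whose heights are bounded
(Gauss lemma at the finite places, Mahler measure at the infinite one) + Northcott over `ℚ`.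
-/
import Mathlib
import Fermat.Agent.MW.HT.Lin3
import Fermat.Agent.MW.HT.UGauss3
import Fermat.Agent.MW.HT.RatHt3

set_option autoImplicit false

namespace Fermat.Agent.MW.HT.North3

open Fermat.Agent.MW.HT.Place3 Fermat.Agent.MW.HT.Orbit3 Fermat.Agent.MW.HT.Glob3
  Fermat.Agent.MW.HT.PF3 Fermat.Agent.MW.HT.Ht3 Fermat.Agent.MW.HT.Lin3
  Fermat.Agent.MW.HT.UGauss3 Fermat.Agent.MW.HT.RatHt3

open Polynomial

/-- The polynomial whose roots are the conjugates of `a`. -/
noncomputable def conjPoly (a : Qbar) : Qbar[X] :=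
  ∏ y ∈ orbitFS ![a, 1], (X - C (y 0))

theorem conjPoly_monic (a : Qbar) : (conjPoly a).Monic :=
  Polynomial.monic_prod_of_monic _ _ fun _ _ => Polynomial.monic_X_sub_C _

theorem conjPoly_natDegree (a : Qbar) : (conjPoly a).natDegree = (orbitFS ![a, 1]).card := by
  rw [conjPoly, Polynomial.natDegree_prod_of_monic _ _ fun _ _ => Polynomial.monic_X_sub_C _]
  simp

theorem conjPoly_root (a : Qbar) : (conjPoly a).IsRoot a := by
  rw [conjPoly, Polynomial.IsRoot.def, Polynomial.eval_prod]
  refine Finset.prod_eq_zero (self_mem_orbitFS ![a, 1]) ?_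
  simp

theorem orbit_snd (a : Qbar) {y : Fin 2 → Qbar} (hy : y ∈ orbitFS ![a, 1]) : y 1 = 1 := by
  obtain ⟨σ, rfl⟩ := mem_orbitFS.mp hy
  show σ (![a, 1] 1) = 1
  simp

theorem supN_orbit (v : Place) (a : Qbar) {y : Fin 2 → Qbar} (hy : y ∈ orbitFS ![a, 1]) :
    supN v y = polyN v (X - C (y 0)) := by
  rw [polyN_X_sub_C]
  have h1 := orbit_snd a hy
  apply le_antisymm
  · refine supN_le v y (le_max_of_le_right zero_le_one) fun i => ?_
    fin_cases i
    · exact le_max_left _ _
    · show absV v (y 1) ≤ _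
      rw [h1, map_one]
      exact le_max_right _ _
  · refine max_le (le_supN v y 0) ?_
    have := le_supN v y 1
    rwa [h1, map_one] at this

/-- The conjugate polynomial is Galois-invariant. -/
theorem conjPoly_map (a : Qbar) (σ : GQ) :
    (conjPoly a).map (σ : Qbar →+* Qbar) = conjPoly a := by
  rw [conjPoly, Polynomial.map_prod]
  refine Finset.prod_nbij' (fun y => σ • y) (fun y => σ⁻¹ • y) ?_ ?_ ?_ ?_ ?_
  · intro y hy
    obtain ⟨τ, rfl⟩ := mem_orbitFS.mp hy
    exact mem_orbitFS.mpr ⟨σ * τ, by rw [mul_smul]⟩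
  · intro y hy
    obtain ⟨τ, rfl⟩ := mem_orbitFS.mp hy
    exact mem_orbitFS.mpr ⟨σ⁻¹ * τ, by rw [mul_smul]⟩
  · intro y _
    simp
  · intro y _
    simp
  · intro y _
    simp only [Polynomial.map_sub, Polynomial.map_X, Polynomial.map_C]
    rfl

/-- The coefficients of the conjugate polynomial are rational. -/
theorem conjPoly_coeff_rat (a : Qbar) (k : ℕ) :
    ∃ r : ℚ, algebraMap ℚ Qbar r = (conjPoly a).coeff k := by
  have := isGaloisQbar
  have hfix : ∀ σ : GQ, σ ((conjPoly a).coeff k) = (conjPoly a).coeff k := by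
    intro σ
    have h := congrArg (fun p => p.coeff k) (conjPoly_map a σ)
    simpa [Polynomial.coeff_map] using h
  exact (InfiniteGalois.mem_range_algebraMap_iff_fixed (k := ℚ) _).mpr hfix

/-- Local bound for the conjugate polynomial at every place. -/
theorem log_polyN_conjPoly_le (v : Place) (a : Qbar) :
    Real.log (polyN v (conjPoly a))
      ≤ ∑ y ∈ orbitFS ![a, 1], Real.log (supN v y)
        + Real.log (archC (2 ^ (orbitFS ![a, 1]).card) v) := by
  have hpos : ∀ y ∈ orbitFS ![a, 1], 0 < supN v y := fun y hy =>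
    supN_pos v (ne_zero_of_mem_orbitFS hy (by
      intro h
      have := congrFun h 1
      simp at this))
  have hprodpos : 0 < ∏ y ∈ orbitFS ![a, 1], supN v y := Finset.prod_pos hpos
  have h1 : 1 ≤ polyN v (conjPoly a) := one_le_polyN_of_monic v (conjPoly_monic a)
  rw [← Real.log_prod fun y hy => (hpos y hy).ne']
  rcases v with _ | q
  · rw [archC_none, ← Real.log_mul hprodpos.ne' (by positivity)]
    refine Real.log_le_log (lt_of_lt_of_le zero_lt_one h1) ?_
    have h2 := polyN_prod_X_sub_C_none_le (orbitFS ![a, 1]) (fun y => y 0)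
    rw [mul_comm]
    push_cast
    refine h2.trans (le_of_eq ?_)
    congr 1
    refine Finset.prod_congr rfl fun y hy => ?_
    rw [supN_orbit none a hy, polyN_X_sub_C]
  · rw [archC_some, Real.log_one, add_zero]
    refine le_of_eq ?_
    congr 1
    rw [conjPoly, polyN_prod_some]
    exact Finset.prod_congr rfl fun y hy => (supN_orbit (some q) a hy).symm

/-- The rational coefficients of the conjugate polynomial have bounded height. -/
theorem ht_conjPoly_coeff_le (a : Qbar) (k : ℕ) {r : ℚ}
    (hr : algebraMap ℚ Qbar r = (conjPoly a).coeff k) :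
    ht ![algebraMap ℚ Qbar r, 1]
      ≤ (orbitFS ![a, 1]).card * (Real.log 2 + ht ![a, 1]) := by
  classical
  set O := orbitFS ![a, 1] with hO
  set m := O.card with hm
  have hmpos : (0 : ℝ) < m := by exact_mod_cast orbitFS_card_pos ![a, 1]
  have hfix : ∀ σ : GQ, σ • ![algebraMap ℚ Qbar r, (1 : Qbar)] = ![algebraMap ℚ Qbar r, 1] := by
    intro σ
    funext i
    fin_cases i
    · show σ (algebraMap ℚ Qbar r) = _
      exact σ.commutes r
    · show σ (1 : Qbar) = 1
      exact map_one σ
  -- the three finitely supported families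
  set A : Place → ℝ := fun v => Real.log (supN v ![algebraMap ℚ Qbar r, 1]) with hA
  set Bf : Place → ℝ := fun v => ∑ y ∈ O, Real.log (supN v y) with hB
  set Cf : Place → ℝ := fun v => Real.log (archC (2 ^ m) v) with hC
  have hne : (![algebraMap ℚ Qbar r, 1] : Fin 2 → Qbar) ≠ 0 := by
    intro h
    have := congrFun h 1
    simp at this
  have hAfin : (Function.support A).Finite := by
    refine (finite_supN_ne_one hne).subset ?_
    intro v hv
    refine ⟨_, self_mem_orbitFS _, fun h => hv ?_⟩
    show Real.log (supN v ![algebraMap ℚ Qbar r, 1]) = 0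
    rw [h, Real.log_one]
  have hBfin : (Function.support Bf).Finite := by
    refine (adelic_log_supN ![a, 1]).subset ?_
    intro v hv
    by_contra hnot
    apply hv
    refine Finset.sum_eq_zero fun y hy => ?_
    by_contra hne'
    exact hnot ⟨y, hy, hne'⟩
  have hCfin : (Function.support Cf).Finite := support_log_archC _
  have hle : ∀ v, A v ≤ Bf v + Cf v := by
    intro v
    refine le_trans ?_ (log_polyN_conjPoly_le v a)
    refine Real.log_le_log (supN_pos v hne) ?_
    refine supN_le v _ (polyN_nonneg v _) fun i => ?_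
    fin_cases i
    · show absV v (algebraMap ℚ Qbar r) ≤ _
      rw [hr]
      exact le_polyN v _ k
    · show absV v (1 : Qbar) ≤ _
      rw [map_one]
      exact one_le_polyN_of_monic v (conjPoly_monic a)
  have hsum : ∑ᶠ v, A v ≤ ∑ᶠ v, (Bf v + Cf v) :=
    finsum_le_finsum' hAfin (hBfin.union hCfin |>.subset (Function.support_add _ _)) hle
  rw [finsum_add_distrib hBfin hCfin] at hsum
  have e1 : ∑ᶠ v, A v = ht ![algebraMap ℚ Qbar r, 1] := (ht_of_fixed hfix).symm
  have e2 : ∑ᶠ v, Bf v = m * ht ![a, 1] := by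
    rw [ht, gsum, mul_finsum]
    refine finsum_congr fun v => ?_
    rw [gavg, ← hO, ← hm]
    show ∑ y ∈ O, Real.log (supN v y) = m * ((∑ y ∈ O, Real.log (supN v y)) / m)
    field_simp
  have e3 : ∑ᶠ v, Cf v = m * Real.log 2 := by
    rw [hC, finsum_log_archC]
    push_cast
    rw [Real.log_pow]
  rw [e1, e2, e3] at hsum
  linarith

/-- **Northcott** for algebraic numbers of bounded degree and height. -/
theorem northcott (d : ℕ) (B : ℝ) :
    {a : Qbar | (orbitFS ![a, 1]).card ≤ d ∧ ht ![a, 1] ≤ B}.Finite := by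
  classical
  set B' : ℝ := d * (Real.log 2 + max B 0) with hB'
  set R : Finset ℚ := (northcott_rat B').toFinset with hR
  -- candidate polynomials
  set G : (Fin (d + 1) → ℚ) → Qbar[X] :=
    fun c => ∑ k : Fin (d + 1), Polynomial.monomial (k : ℕ) (algebraMap ℚ Qbar (c k)) with hG
  have hfin : (⋃ c ∈ (Fintype.piFinset fun _ : Fin (d + 1) => R),
      {z : Qbar | G c ≠ 0 ∧ (G c).IsRoot z}).Finite := by
    refine Set.Finite.biUnion (Finset.finite_toSet _) fun c _ => ?_
    by_cases h0 : G c = 0
    · simp [h0]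
    · refine ((G c).roots.toFinset.finite_toSet).subset ?_
      rintro z ⟨_, hz⟩
      simpa [Polynomial.mem_roots h0] using hz
  refine hfin.subset ?_
  rintro a ⟨hcard, hht⟩
  have hlog2 : 0 < Real.log 2 := Real.log_pos one_lt_two
  choose r hr using conjPoly_coeff_rat a
  have hrR : ∀ k, r k ∈ R := by
    intro k
    rw [hR, Set.Finite.mem_toFinset]
    refine (ht_conjPoly_coeff_le a k (hr k)).trans ?_
    rw [hB']
    have h1 : ((orbitFS ![a, 1]).card : ℝ) ≤ d := by exact_mod_cast hcard
    have h2 : Real.log 2 + ht ![a, 1] ≤ Real.log 2 + max B 0 :=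
      add_le_add_right (hht.trans (le_max_left _ _)) _
    have h3 : 0 ≤ Real.log 2 + max B 0 := by positivity
    calc ((orbitFS ![a, 1]).card : ℝ) * (Real.log 2 + ht ![a, 1])
        ≤ (orbitFS ![a, 1]).card * (Real.log 2 + max B 0) :=
          mul_le_mul_of_nonneg_left h2 (Nat.cast_nonneg _)
      _ ≤ d * (Real.log 2 + max B 0) := mul_le_mul_of_nonneg_right h1 h3
  set c : Fin (d + 1) → ℚ := fun k => r k with hc
  have hGc : G c = conjPoly a := by
    have hdeg : (conjPoly a).natDegree < d + 1 := by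
      rw [conjPoly_natDegree]
      exact Nat.lt_succ_of_le hcard
    rw [Polynomial.as_sum_range' (conjPoly a) (d + 1) hdeg, Finset.sum_range]
    exact Finset.sum_congr rfl fun k _ => by rw [hr]
  simp only [Set.mem_iUnion]
  refine ⟨c, ?_, ?_, ?_⟩
  · rw [Fintype.mem_piFinset]
    exact fun k => hrR k
  · rw [hGc]
    exact (conjPoly_monic a).ne_zero
  · rw [hGc]
    exact conjPoly_root a

/-- The orbit of an equivariant image is not bigger. -/
theorem card_orbitFS_map_le {ι κ : Type*} [Finite ι] [Finite κ]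
    {π : (ι → Qbar) → (κ → Qbar)} (hπ : ∀ (σ : GQ) (y : ι → Qbar), π (σ • y) = σ • π y)
    (x : ι → Qbar) : (orbitFS (π x)).card ≤ (orbitFS x).card := by
  classical
  refine Finset.card_le_card_of_surjOn π ?_
  intro z hz
  obtain ⟨σ, rfl⟩ := mem_orbitFS.mp (Finset.mem_coe.mp hz)
  exact ⟨σ • x, Finset.mem_coe.mpr (smul_mem_orbitFS σ x), hπ σ x⟩

/-- **Northcott** for tuples normalised by one coordinate equal to `1`. -/
theorem northcott_tuple {ι : Type*} [Finite ι] (d : ℕ) (B : ℝ) (i₀ : ι) :
    {x : ι → Qbar | x i₀ = 1 ∧ (orbitFS x).card ≤ d ∧ ht x ≤ B}.Finite := by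
  have hfin : (Set.pi Set.univ fun _ : ι =>
      {a : Qbar | (orbitFS ![a, 1]).card ≤ d ∧ ht ![a, 1] ≤ B}).Finite :=
    Set.Finite.pi fun _ => northcott d B
  refine hfin.subset ?_
  rintro x ⟨h1, hcard, hht⟩ i -
  have hπ : ∀ (σ : GQ) (y : ι → Qbar),
      (fun y : ι → Qbar => ![y i, y i₀]) (σ • y) = σ • ![y i, y i₀] := by
    intro σ y
    funext j
    fin_cases j <;> rfl
  have hx : ![x i, x i₀] = ![x i, 1] := by rw [h1]
  constructor
  · have := card_orbitFS_map_le (π := fun y : ι → Qbar => ![y i, y i₀]) hπ x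
    rw [hx] at this
    exact this.trans hcard
  · have hcomp : ![x i, x i₀] = x ∘ ![i, i₀] := by
      funext j
      fin_cases j <;> rfl
    have hne : x ∘ ![i, i₀] ≠ 0 := by
      intro h
      have := congrFun h 1
      simp [h1] at this
    have := ht_comp_le ![i, i₀] x hne
    rw [← hcomp, hx] at this
    exact this.trans hht

end Fermat.Agent.MW.HT.North3
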