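/-
PROGRAMME MW (S17), block HT — helper3.  `Factor3`: the ABSTRACT ANALYTIC ASSEMBLY (AL) of the local
two-sided uniform decomposition at one place `v` (helper8's specification).  Pure absolute-value
calculus on top of the Gauss lemma for products of linear forms (`GaussG3`); no curve.
-/
import Mathlib
import Fermat.Agent.MW.HT.GaussG3

set_option autoImplicit false

namespace Fermat.Agent.MW.HT.Factor3

open Fermat.Agent.MW.HT.Place3 Fermat.Agent.MW.HT.Ht3 Fermat.Agent.MW.HT.Lin3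
  Fermat.Agent.MW.HT.Kron3 Fermat.Agent.MW.HT.MvGauss3 Fermat.Agent.MW.HT.GaussG3

open MvPolynomial

/-- The constant of the hard direction of the Gauss lemma (`1` at the finite places). -/
noncomputable def hardC (d N : ℕ) : Place → ℝ
  | none => gelfondC d (d + 1) N
  | some _ => 1

/-- The constant of the easy direction of the Gauss lemma (`1` at the finite places). -/
noncomputable def easyC (d N : ℕ) (v : Place) : ℝ := max 1 (archC (N ^ d) v)

theorem hardC_some (d N : ℕ) (p : Nat.Primes) : hardC d N (some p) = 1 := rfl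

theorem easyC_some (d N : ℕ) (p : Nat.Primes) : easyC d N (some p) = 1 := by
  rw [easyC, archC_some, max_self]

theorem one_le_hardC (d N : ℕ) (v : Place) : 1 ≤ hardC d N v := by
  rcases v with _ | p
  · exact one_le_gelfondC _ _ _
  · exact le_rfl

theorem one_le_easyC (d N : ℕ) (v : Place) : 1 ≤ easyC d N v := le_max_left _ _

/-- The constant of the two-sided factorisation lemma. -/
noncomputable def factorG (d N₁ N₂ : ℕ) (v : Place) : ℝ :=
  hardC d N₁ v * hardC d N₂ v * (easyC d N₁ v * easyC d N₂ v)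

theorem factorG_some (d N₁ N₂ : ℕ) (p : Nat.Primes) : factorG d N₁ N₂ (some p) = 1 := by
  rw [factorG, hardC_some, hardC_some, easyC_some, easyC_some]
  norm_num

theorem one_le_factorG (d N₁ N₂ : ℕ) (v : Place) : 1 ≤ factorG d N₁ N₂ v := by
  have h1 := one_le_hardC d N₁ v
  have h2 := one_le_hardC d N₂ v
  have h3 := one_le_easyC d N₁ v
  have h4 := one_le_easyC d N₂ v
  unfold factorG
  calc (1 : ℝ) = 1 * 1 * (1 * 1) := by norm_num
    _ ≤ _ := by gcongr

theorem support_log_factorG (d N₁ N₂ : ℕ) :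
    (Function.support fun v => Real.log (factorG d N₁ N₂ v)).Finite := by
  refine (Set.finite_singleton (none : Place)).subset ?_
  intro v hv
  rcases v with _ | p
  · rfl
  · exact absurd (by simp [factorG_some]) hv

variable {ι : Type*} [Fintype ι] {d : ℕ}

/-- Hard direction at every place. -/
theorem prod_supN_le_hardC_mul (v : Place) (w : Fin d → ι → Qbar) :
    ∏ j, supN v (w j) ≤ hardC d (Fintype.card ι) v * gaussN v (∏ j, linG (w j)) := by
  rcases v with _ | q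
  · have h := gaussN_prodLinG_none_ge (Finset.univ : Finset (Fin d)) w
    rwa [Finset.card_univ, Fintype.card_fin] at h
  · rw [hardC_some, one_mul, gaussN_prodLinG_some]

/-- Easy direction at every place. -/
theorem gaussN_prodLinG_le_easyC_mul (v : Place) (w : Fin d → ι → Qbar) :
    gaussN v (∏ j, linG (w j)) ≤ easyC d (Fintype.card ι) v * ∏ j, supN v (w j) := by
  have h := gaussN_prodLinG_le v (Finset.univ : Finset (Fin d)) w
  rw [Finset.card_univ, Fintype.card_fin] at h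
  refine h.trans ?_
  exact mul_le_mul_of_nonneg_right (le_max_right _ _)
    (Finset.prod_nonneg fun j _ => supN_nonneg v _)

/-- **(AL)** The abstract two-sided factorisation lemma at one place. -/
theorem factor_two_sided {κ₁ κ₂ Sel I₃ : Type*} [Fintype κ₁] [Fintype κ₂]
    [Fintype Sel] [Nonempty Sel] [Fintype I₃] [Nonempty I₃] {d : ℕ} (v : Place)
    (RA : Sel → MvPolynomial κ₁ Qbar) (DA : Sel → I₃ → MvPolynomial κ₂ Qbar)
    (u : Fin d → κ₁ → Qbar) (w : Fin d → κ₂ → Qbar)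
    (a : Qbar) (eps : Sel → Qbar) (T : I₃ → Qbar)
    (h1 : ∀ s, RA s = C (eps s) * ∏ j, ∑ i, C (u j i) * X i)
    (h2 : ∀ s r, C a * DA s r = C (T r * eps s) * ∏ j, ∑ i, C (w j i) * X i)
    {Rn Dn Tn : ℝ} (hRn : 0 ≤ Rn) (hDn : 0 ≤ Dn) (hTn : 0 ≤ Tn)
    {C₁ C₂ C₃ C₄ C₅ C₆ : ℝ} (hC₁ : 0 ≤ C₁) (hC₂ : 0 ≤ C₂) (hC₃ : 0 ≤ C₃) (hC₄ : 0 ≤ C₄)
    (hC₅ : 0 ≤ C₅) (hC₆ : 0 ≤ C₆)
    (hRup : ∀ s, gaussN v (RA s) ≤ C₁ * Rn) (hRlow : Rn ≤ C₂ * ⨆ s, gaussN v (RA s))
    (hDup : ∀ s r, gaussN v (DA s r) ≤ C₃ * Dn)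
    (hDlow : Dn ≤ C₄ * ⨆ p : Sel × I₃, gaussN v (DA p.1 p.2))
    (hTup : ∀ r, absV v (T r) ≤ C₅ * Tn) (hTlow : Tn ≤ C₆ * ⨆ r, absV v (T r)) :
    absV v a * Dn * ∏ j, supN v (u j)
        ≤ (C₁ * C₄ * C₅ * factorG d (Fintype.card κ₁) (Fintype.card κ₂) v)
          * (Tn * Rn * ∏ j, supN v (w j))
      ∧ Tn * Rn * ∏ j, supN v (w j)
        ≤ (C₂ * C₃ * C₆ * factorG d (Fintype.card κ₁) (Fintype.card κ₂) v)
          * (absV v a * Dn * ∏ j, supN v (u j)) := by
  classical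
  -- notation
  set A : ℝ := absV v a with hA
  set Pu : ℝ := ∏ j, supN v (u j) with hPu
  set Pw : ℝ := ∏ j, supN v (w j) with hPw
  set Gu : ℝ := gaussN v (∏ j, linG (u j)) with hGu
  set Gw : ℝ := gaussN v (∏ j, linG (w j)) with hGw
  set H₁ : ℝ := hardC d (Fintype.card κ₁) v with hH₁
  set H₂ : ℝ := hardC d (Fintype.card κ₂) v with hH₂
  set E₁ : ℝ := easyC d (Fintype.card κ₁) v with hE₁
  set E₂ : ℝ := easyC d (Fintype.card κ₂) v with hE₂
  have hA0 : 0 ≤ A := (absV v).nonneg a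
  have hPu0 : 0 ≤ Pu := Finset.prod_nonneg fun j _ => supN_nonneg v _
  have hPw0 : 0 ≤ Pw := Finset.prod_nonneg fun j _ => supN_nonneg v _
  have hGu0 : 0 ≤ Gu := gaussN_nonneg v _
  have hGw0 : 0 ≤ Gw := gaussN_nonneg v _
  have hH₁ : 1 ≤ H₁ := one_le_hardC _ _ _
  have hH₂ : 1 ≤ H₂ := one_le_hardC _ _ _
  have hE₁ : 1 ≤ E₁ := one_le_easyC _ _ _
  have hE₂ : 1 ≤ E₂ := one_le_easyC _ _ _
  have hPuH : Pu ≤ H₁ * Gu := prod_supN_le_hardC_mul v u
  have hPwH : Pw ≤ H₂ * Gw := prod_supN_le_hardC_mul v w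
  have hGuE : Gu ≤ E₁ * Pu := gaussN_prodLinG_le_easyC_mul v u
  have hGwE : Gw ≤ E₂ * Pw := gaussN_prodLinG_le_easyC_mul v w
  have hG : factorG d (Fintype.card κ₁) (Fintype.card κ₂) v = H₁ * H₂ * (E₁ * E₂) := rfl
  -- the two identities in terms of norms
  have eR : ∀ s, gaussN v (RA s) = absV v (eps s) * Gu := by
    intro s
    rw [h1 s, gaussN_C_mul]
    simp only [← linG_eq]
    rfl
  have eD : ∀ s r, A * gaussN v (DA s r) = absV v (T r) * absV v (eps s) * Gw := by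
    intro s r
    rw [hA, ← gaussN_C_mul, h2 s r, gaussN_C_mul, map_mul]
    simp only [← linG_eq]
    rfl
  constructor
  · -- upper bound for `|a|`
    obtain ⟨⟨s, r⟩, hsr⟩ := exists_eq_ciSup_of_finite
      (f := fun p : Sel × I₃ => gaussN v (DA p.1 p.2))
    rw [← hsr] at hDlow
    have hT0 : 0 ≤ absV v (T r) := (absV v).nonneg _
    have he0 : 0 ≤ absV v (eps s) := (absV v).nonneg _
    have hR := hRup s
    rw [eR s] at hR
    calc A * Dn * Pu ≤ A * (C₄ * gaussN v (DA s r)) * Pu := by gcongr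
      _ = C₄ * (A * gaussN v (DA s r)) * Pu := by ring
      _ = C₄ * (absV v (T r) * absV v (eps s) * Gw) * Pu := by rw [eD s r]
      _ ≤ C₄ * ((C₅ * Tn) * absV v (eps s) * (E₂ * Pw)) * (H₁ * Gu) := by
          gcongr
          exact hTup r
      _ = C₄ * C₅ * E₂ * H₁ * Tn * Pw * (absV v (eps s) * Gu) := by ring
      _ ≤ C₄ * C₅ * E₂ * H₁ * Tn * Pw * (C₁ * Rn) := by gcongr
      _ = (C₁ * C₄ * C₅ * (H₁ * 1 * (1 * E₂))) * (Tn * Rn * Pw) := by ring
      _ ≤ (C₁ * C₄ * C₅ * (H₁ * H₂ * (E₁ * E₂))) * (Tn * Rn * Pw) := by gcongr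
  · -- lower bound for `|a|`
    obtain ⟨r, hr⟩ := exists_eq_ciSup_of_finite (f := fun r : I₃ => absV v (T r))
    obtain ⟨s, hs⟩ := exists_eq_ciSup_of_finite (f := fun s : Sel => gaussN v (RA s))
    rw [← hr] at hTlow
    rw [← hs, eR s] at hRlow
    have hT0 : 0 ≤ absV v (T r) := (absV v).nonneg _
    have he0 : 0 ≤ absV v (eps s) := (absV v).nonneg _
    have hD := hDup s r
    have hR' : Rn ≤ C₂ * (absV v (eps s) * (E₁ * Pu)) := hRlow.trans (by gcongr)
    calc Tn * Rn * Pw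
        ≤ (C₆ * absV v (T r)) * (C₂ * (absV v (eps s) * (E₁ * Pu))) * (H₂ * Gw) := by gcongr
      _ = C₂ * C₆ * E₁ * H₂ * Pu * (absV v (T r) * absV v (eps s) * Gw) := by ring
      _ = C₂ * C₆ * E₁ * H₂ * Pu * (A * gaussN v (DA s r)) := by rw [eD s r]
      _ ≤ C₂ * C₆ * E₁ * H₂ * Pu * (A * (C₃ * Dn)) := by gcongr
      _ = (C₂ * C₃ * C₆ * (1 * H₂ * (E₁ * 1))) * (A * Dn * Pu) := by ring
      _ ≤ (C₂ * C₃ * C₆ * (H₁ * H₂ * (E₁ * E₂))) * (A * Dn * Pu) := by gcongr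

end Fermat.Agent.MW.HT.Factor3
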