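/-
PROGRAMME MW (S17), block HT — helper3.  `CMax3`: bookkeeping of local constants.
`cmax v q = max 1 (⨆ a, coeffC v (q a))` for a finite family `q` of polynomials over `Qbar`
(zero polynomials allowed): it is `≥ 1`, bounds every `coeffC v (q a)`, and equals `1` at almost
all places.  `IsLocConst C` : `1 ≤ C v` for all `v` and `C v = 1` for almost all `v`; closed under
products and `max`.
-/
import Mathlib
import Fermat.Agent.MW.HT.PolyLoc3

set_option autoImplicit false

namespace Fermat.Agent.MW.HT.CMax3

open Fermat.Agent.MW.HT.Place3 Fermat.Agent.MW.HT.Lin3 Fermat.Agent.MW.HT.PolyLoc3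

open MvPolynomial

variable {ι A : Type*}

/-- The local size of a finite family of polynomials, at least `1`. -/
noncomputable def cmax (v : Place) (q : A → MvPolynomial ι Qbar) : ℝ :=
  max 1 (⨆ a, coeffC v (q a))

theorem one_le_cmax (v : Place) (q : A → MvPolynomial ι Qbar) : 1 ≤ cmax v q := le_max_left _ _

theorem cmax_pos (v : Place) (q : A → MvPolynomial ι Qbar) : 0 < cmax v q :=
  lt_of_lt_of_le zero_lt_one (one_le_cmax v q)

theorem iSup_coeffC_le_cmax (v : Place) (q : A → MvPolynomial ι Qbar) :
    (⨆ a, coeffC v (q a)) ≤ cmax v q := le_max_right _ _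

theorem coeffC_le_cmax [Finite A] (v : Place) (q : A → MvPolynomial ι Qbar) (a : A) :
    coeffC v (q a) ≤ cmax v q :=
  (Finite.le_ciSup (fun a => coeffC v (q a)) a).trans (iSup_coeffC_le_cmax v q)

/-- `cmax v q = 1` for almost all `v`. -/
theorem finite_cmax_ne_one [Finite A] (q : A → MvPolynomial ι Qbar) :
    {v : Place | cmax v q ≠ 1}.Finite := by
  classical
  have hbad : (⋃ a ∈ {a : A | q a ≠ 0}, {v : Place | coeffC v (q a) ≠ 1}).Finite :=
    Set.Finite.biUnion (Set.toFinite _) fun a ha => finite_coeffC_ne_one ha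
  refine hbad.subset ?_
  intro v hv
  rcases isEmpty_or_nonempty A with hA | hA
  · exfalso
    apply hv
    rw [cmax, Real.iSup_of_isEmpty]
    exact max_eq_left zero_le_one
  have hgt : 1 < ⨆ a, coeffC v (q a) := by
    by_contra hle
    exact hv (max_eq_left (not_lt.mp hle))
  obtain ⟨a, ha⟩ := exists_eq_ciSup_of_finite (f := fun a => coeffC v (q a))
  rw [← ha] at hgt
  simp only [Set.mem_iUnion]
  refine ⟨a, ?_, ne_of_gt hgt⟩
  intro h0
  rw [h0, coeffC_zero] at hgt
  linarith

/-- A local constant: `≥ 1` everywhere and `= 1` at almost all places. -/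
def IsLocConst (C : Place → ℝ) : Prop := (∀ v, 1 ≤ C v) ∧ {v : Place | C v ≠ 1}.Finite

theorem isLocConst_cmax [Finite A] (q : A → MvPolynomial ι Qbar) :
    IsLocConst fun v => cmax v q :=
  ⟨fun v => one_le_cmax v q, finite_cmax_ne_one q⟩

theorem isLocConst_one : IsLocConst fun _ => (1 : ℝ) :=
  ⟨fun _ => le_rfl, by simp⟩

theorem IsLocConst.mul {C D : Place → ℝ} (hC : IsLocConst C) (hD : IsLocConst D) :
    IsLocConst fun v => C v * D v := by
  refine ⟨fun v => one_le_mul_of_one_le_of_one_le (hC.1 v) (hD.1 v), ?_⟩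
  refine (hC.2.union hD.2).subset ?_
  intro v hv
  by_contra hcon
  rw [Set.mem_union, not_or] at hcon
  apply hv
  have h1 : C v = 1 := by
    by_contra h
    exact hcon.1 h
  have h2 : D v = 1 := by
    by_contra h
    exact hcon.2 h
  show C v * D v = 1
  rw [h1, h2, one_mul]

theorem IsLocConst.max {C D : Place → ℝ} (hC : IsLocConst C) (hD : IsLocConst D) :
    IsLocConst fun v => max (C v) (D v) := by
  refine ⟨fun v => (hC.1 v).trans (le_max_left _ _), ?_⟩
  refine (hC.2.union hD.2).subset ?_
  intro v hv
  by_contra hcon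
  rw [Set.mem_union, not_or] at hcon
  apply hv
  have h1 : C v = 1 := by
    by_contra h
    exact hcon.1 h
  have h2 : D v = 1 := by
    by_contra h
    exact hcon.2 h
  show Max.max (C v) (D v) = 1
  rw [h1, h2, max_self]

/-- A function which is `≥ 1` and `1` at all finite places is a local constant. -/
theorem isLocConst_of_some {C : Place → ℝ} (h1 : ∀ v, 1 ≤ C v) (h2 : ∀ p, C (some p) = 1) :
    IsLocConst C := by
  refine ⟨h1, (Set.finite_singleton (none : Place)).subset ?_⟩
  intro v hv
  rcases v with _ | p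
  · rfl
  · exact absurd (h2 p) hv

theorem isLocConst_archC {m : ℕ} (hm : 0 < m) : IsLocConst (archC m) := by
  refine isLocConst_of_some (fun v => ?_) fun p => rfl
  rcases v with _ | p
  · rw [archC_none]
    exact_mod_cast hm
  · exact le_rfl

theorem isLocConst_max_one_archC (m : ℕ) : IsLocConst fun v => max 1 (archC m v) := by
  refine isLocConst_of_some (fun v => le_max_left _ _) fun p => ?_
  show max 1 (archC m (some p)) = 1
  rw [Fermat.Agent.MW.HT.Lin3.archC_some, max_self]

theorem archC_le_max_one (m : ℕ) (v : Place) : archC m v ≤ max 1 (archC m v) := le_max_right _ _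

end Fermat.Agent.MW.HT.CMax3
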