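/-
PROGRAMME MW (S17), block HT — helper3.  `Orbit3`: Galois orbits of tuples of algebraic numbers are
finite; the Galois average `gavg f x` of a function over the orbit of `x`; and the key invariance
`gavg_comp`: for an equivariant map `π`, averaging `f ∘ π` over the orbit of a big configuration `w`
is averaging `f` over the orbit of `π w` (this replaces "invariance of the height under field
extension").
-/
import Mathlib
import Fermat.Agent.MW.HT.Place3

set_option autoImplicit false

namespace Fermat.Agent.MW.HT.Orbit3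

open Fermat.Agent.MW.HT.Place3

section Abstract

variable {G A B : Type*} [Group G] [MulAction G A] [MulAction G B]

/-- Fibration lemma: an equivariant map between finite orbits has fibres of constant size, hence
sums over the big orbit are proportional to sums over the small one. -/
theorem sum_orbit_comp [DecidableEq A] [DecidableEq B]
    (π : A → B) (hπ : ∀ (g : G) (y : A), π (g • y) = g • π y) (a : A)
    (OA : Finset A) (hOA : ∀ y, y ∈ OA ↔ y ∈ MulAction.orbit G a)
    (OB : Finset B) (hOB : ∀ z, z ∈ OB ↔ z ∈ MulAction.orbit G (π a)) (f : B → ℝ) :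
    (∑ y ∈ OA, f (π y)) * OB.card = OA.card * ∑ z ∈ OB, f z := by
  have hmap : ∀ y ∈ OA, π y ∈ OB := by
    intro y hy
    obtain ⟨g, rfl⟩ := (hOA y).mp hy
    exact (hOB _).mpr ⟨g, (hπ g a).symm⟩
  set k := (OA.filter (fun y => π y = π a)).card with hk
  have hfib : ∀ z ∈ OB, (OA.filter (fun y => π y = z)).card = k := by
    intro z hz
    obtain ⟨g, rfl⟩ := (hOB z).mp hz
    symm
    refine Finset.card_nbij' (fun y => g • y) (fun y => g⁻¹ • y) ?_ ?_ ?_ ?_
    · intro y hy
      simp only [Finset.coe_filter, Set.mem_ofPred_eq] at hy ⊢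
      refine ⟨?_, ?_⟩
      · obtain ⟨g', rfl⟩ := (hOA y).mp hy.1
        exact (hOA _).mpr ⟨g * g', by simp [mul_smul]⟩
      · rw [hπ, hy.2]
    · intro y hy
      simp only [Finset.coe_filter, Set.mem_ofPred_eq] at hy ⊢
      refine ⟨?_, ?_⟩
      · obtain ⟨g', rfl⟩ := (hOA y).mp hy.1
        exact (hOA _).mpr ⟨g⁻¹ * g', by simp [mul_smul]⟩
      · rw [hπ, hy.2, inv_smul_smul]
    · intro y _
      simp
    · intro y _
      simp
  have h1 : ∑ y ∈ OA, f (π y) = k * ∑ z ∈ OB, f z := by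
    rw [← Finset.sum_fiberwise_of_maps_to hmap (fun y => f (π y)), Finset.mul_sum]
    refine Finset.sum_congr rfl fun z hz => ?_
    rw [Finset.sum_congr rfl (g := fun _ => f z)
      (fun y hy => by rw [(Finset.mem_filter.mp hy).2])]
    rw [Finset.sum_const, hfib z hz, nsmul_eq_mul]
  have h2 : OA.card = k * OB.card := by
    rw [Finset.card_eq_sum_card_fiberwise hmap, Finset.sum_congr rfl hfib, Finset.sum_const,
      smul_eq_mul, mul_comm]
  rw [h1, h2]
  push_cast
  ring

end Abstract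

section Qbar

variable {ι κ : Type*}

theorem smul_apply (σ : GQ) (x : ι → Qbar) (i : ι) : (σ • x) i = σ (x i) := rfl

/-- Galois orbits of finite tuples of algebraic numbers are finite. -/
theorem orbit_finite [Finite ι] (x : ι → Qbar) : (MulAction.orbit GQ x).Finite := by
  have := isAlgebraicQbar
  have hfin : (Set.pi Set.univ fun i => (minpoly ℚ (x i)).rootSet Qbar).Finite :=
    Set.Finite.pi fun i => Polynomial.rootSet_finite _ _
  refine hfin.subset ?_
  rintro y ⟨σ, rfl⟩ i -
  have hne : minpoly ℚ (x i) ≠ 0 := minpoly.ne_zero (Algebra.IsIntegral.isIntegral (x i))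
  rw [Polynomial.mem_rootSet_of_ne hne]
  show Polynomial.aeval (σ (x i)) (minpoly ℚ (x i)) = 0
  rw [Polynomial.aeval_algEquiv, AlgHom.comp_apply, minpoly.aeval]
  simp

/-- The Galois orbit of a tuple, as a finset. -/
noncomputable def orbitFS [Finite ι] (x : ι → Qbar) : Finset (ι → Qbar) :=
  (orbit_finite x).toFinset

theorem mem_orbitFS [Finite ι] {x y : ι → Qbar} : y ∈ orbitFS x ↔ ∃ σ : GQ, σ • x = y := by
  rw [orbitFS, Set.Finite.mem_toFinset]
  rfl

theorem mem_orbitFS_iff_mem_orbit [Finite ι] {x y : ι → Qbar} :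
    y ∈ orbitFS x ↔ y ∈ MulAction.orbit GQ x := by
  rw [orbitFS, Set.Finite.mem_toFinset]

theorem self_mem_orbitFS [Finite ι] (x : ι → Qbar) : x ∈ orbitFS x :=
  mem_orbitFS.mpr ⟨1, one_smul _ _⟩

theorem smul_mem_orbitFS [Finite ι] (σ : GQ) (x : ι → Qbar) : σ • x ∈ orbitFS x :=
  mem_orbitFS.mpr ⟨σ, rfl⟩

theorem orbitFS_nonempty [Finite ι] (x : ι → Qbar) : (orbitFS x).Nonempty :=
  ⟨x, self_mem_orbitFS x⟩

theorem orbitFS_card_pos [Finite ι] (x : ι → Qbar) : 0 < (orbitFS x).card :=
  Finset.card_pos.mpr (orbitFS_nonempty x)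

theorem orbitFS_smul [Finite ι] (σ : GQ) (x : ι → Qbar) : orbitFS (σ • x) = orbitFS x := by
  ext y
  rw [mem_orbitFS_iff_mem_orbit, mem_orbitFS_iff_mem_orbit, MulAction.orbit_smul]

theorem orbitFS_eq_of_mem [Finite ι] {x y : ι → Qbar} (h : y ∈ orbitFS x) :
    orbitFS y = orbitFS x := by
  obtain ⟨σ, rfl⟩ := mem_orbitFS.mp h
  exact orbitFS_smul σ x

/-- The Galois average of `f` over the orbit of `x`. -/
noncomputable def gavg [Finite ι] (f : (ι → Qbar) → ℝ) (x : ι → Qbar) : ℝ :=
  (∑ y ∈ orbitFS x, f y) / (orbitFS x).card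

theorem gavg_smul_arg [Finite ι] (f : (ι → Qbar) → ℝ) (σ : GQ) (x : ι → Qbar) :
    gavg f (σ • x) = gavg f x := by
  rw [gavg, gavg, orbitFS_smul]

/-- **Extension invariance**: for an equivariant `π`, the average of `f ∘ π` over the orbit of the
big configuration `w` equals the average of `f` over the orbit of `π w`. -/
theorem gavg_comp [Finite ι] [Finite κ] {π : (ι → Qbar) → (κ → Qbar)}
    (hπ : ∀ (σ : GQ) (y : ι → Qbar), π (σ • y) = σ • π y) (f : (κ → Qbar) → ℝ)
    (w : ι → Qbar) : gavg (fun y => f (π y)) w = gavg f (π w) := by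
  classical
  have h := sum_orbit_comp (G := GQ) π hπ w (orbitFS w)
    (fun y => mem_orbitFS_iff_mem_orbit) (orbitFS (π w)) (fun z => mem_orbitFS_iff_mem_orbit) f
  have hA : (0 : ℝ) < (orbitFS w).card := by exact_mod_cast orbitFS_card_pos w
  have hB : (0 : ℝ) < (orbitFS (π w)).card := by exact_mod_cast orbitFS_card_pos (π w)
  rw [gavg, gavg, div_eq_div_iff hA.ne' hB.ne', h]
  ring

theorem gavg_const [Finite ι] (c : ℝ) (x : ι → Qbar) : gavg (fun _ => c) x = c := by
  have hA : (0 : ℝ) < (orbitFS x).card := by exact_mod_cast orbitFS_card_pos x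
  rw [gavg, Finset.sum_const, nsmul_eq_mul]
  field_simp

theorem gavg_add [Finite ι] (f g : (ι → Qbar) → ℝ) (x : ι → Qbar) :
    gavg (fun y => f y + g y) x = gavg f x + gavg g x := by
  rw [gavg, gavg, gavg, Finset.sum_add_distrib, add_div]

theorem gavg_sub [Finite ι] (f g : (ι → Qbar) → ℝ) (x : ι → Qbar) :
    gavg (fun y => f y - g y) x = gavg f x - gavg g x := by
  rw [gavg, gavg, gavg, Finset.sum_sub_distrib, sub_div]

theorem gavg_neg [Finite ι] (f : (ι → Qbar) → ℝ) (x : ι → Qbar) :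
    gavg (fun y => - f y) x = - gavg f x := by
  rw [gavg, gavg, Finset.sum_neg_distrib, neg_div]

theorem gavg_const_mul [Finite ι] (c : ℝ) (f : (ι → Qbar) → ℝ) (x : ι → Qbar) :
    gavg (fun y => c * f y) x = c * gavg f x := by
  rw [gavg, gavg, ← Finset.mul_sum, mul_div_assoc]

theorem gavg_finset_sum [Finite ι] {α : Type*} (s : Finset α) (f : α → (ι → Qbar) → ℝ)
    (x : ι → Qbar) : gavg (fun y => ∑ a ∈ s, f a y) x = ∑ a ∈ s, gavg (f a) x := by
  simp only [gavg]
  rw [Finset.sum_comm, Finset.sum_div]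

theorem gavg_mono [Finite ι] {f g : (ι → Qbar) → ℝ} {x : ι → Qbar}
    (h : ∀ y ∈ orbitFS x, f y ≤ g y) : gavg f x ≤ gavg g x := by
  rw [gavg, gavg]
  exact div_le_div_of_nonneg_right (Finset.sum_le_sum h) (Nat.cast_nonneg _)

theorem gavg_congr [Finite ι] {f g : (ι → Qbar) → ℝ} {x : ι → Qbar}
    (h : ∀ y ∈ orbitFS x, f y = g y) : gavg f x = gavg g x := by
  rw [gavg, gavg, Finset.sum_congr rfl h]

theorem gavg_eq_zero [Finite ι] {f : (ι → Qbar) → ℝ} {x : ι → Qbar}
    (h : ∀ y ∈ orbitFS x, f y = 0) : gavg f x = 0 := by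
  rw [gavg, Finset.sum_eq_zero h, zero_div]

theorem gavg_nonneg [Finite ι] {f : (ι → Qbar) → ℝ} {x : ι → Qbar}
    (h : ∀ y ∈ orbitFS x, 0 ≤ f y) : 0 ≤ gavg f x := by
  rw [gavg]
  exact div_nonneg (Finset.sum_nonneg h) (Nat.cast_nonneg _)

/-- If the orbit is a single point, the average is the value. -/
theorem gavg_of_fixed [Finite ι] (f : (ι → Qbar) → ℝ) {x : ι → Qbar}
    (hx : ∀ σ : GQ, σ • x = x) : gavg f x = f x := by
  have h : orbitFS x = {x} := by
    ext y
    rw [mem_orbitFS, Finset.mem_singleton]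
    constructor
    · rintro ⟨σ, rfl⟩
      exact hx σ
    · rintro rfl
      exact ⟨1, one_smul _ _⟩
  rw [gavg, h]
  simp

end Qbar

end Fermat.Agent.MW.HT.Orbit3
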