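/-
PROGRAMME MW (S17), block HT — helper3.  `Glob3`: global sums `gsum f x = ∑ᶠ v, gavg (f v) x` of
families of local functions `f : Place → (ι → Qbar) → ℝ`, the finiteness predicate `Adelic f x`
("`f v` vanishes on the Galois orbit of `x` for almost all `v`"), linearity, invariance under
equivariant maps, and the LOCAL ⇒ GLOBAL principle `gsum_le_add_const`.
-/
import Mathlib
import Fermat.Agent.MW.HT.Orbit3

set_option autoImplicit false

namespace Fermat.Agent.MW.HT.Glob3

open Fermat.Agent.MW.HT.Place3 Fermat.Agent.MW.HT.Orbit3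

variable {ι κ : Type*} [Finite ι] [Finite κ]

/-- `f v` vanishes identically on the Galois orbit of `x` for all but finitely many places `v`. -/
def Adelic (f : Place → (ι → Qbar) → ℝ) (x : ι → Qbar) : Prop :=
  {v : Place | ∃ y ∈ orbitFS x, f v y ≠ 0}.Finite

/-- The global sum over all places of the Galois averages of the local functions `f v`. -/
noncomputable def gsum (f : Place → (ι → Qbar) → ℝ) (x : ι → Qbar) : ℝ :=
  ∑ᶠ v : Place, gavg (f v) x

theorem Adelic.eq_zero {f : Place → (ι → Qbar) → ℝ} {x : ι → Qbar} (h : Adelic f x)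
    {v : Place} (hv : v ∉ h.toFinset) {y : ι → Qbar} (hy : y ∈ orbitFS x) : f v y = 0 := by
  by_contra hne
  exact hv (h.mem_toFinset.mpr ⟨y, hy, hne⟩)

/-- The global sum as a finite sum over any finite set of places outside which `f` vanishes on the
orbit. -/
theorem gsum_eq_sum {f : Place → (ι → Qbar) → ℝ} {x : ι → Qbar} (S : Finset Place)
    (hS : ∀ v, v ∉ S → ∀ y ∈ orbitFS x, f v y = 0) : gsum f x = ∑ v ∈ S, gavg (f v) x := by
  rw [gsum]
  refine finsum_eq_sum_of_support_subset _ ?_
  intro v hv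
  by_contra hvS
  exact hv (gavg_eq_zero (hS v hvS))

theorem Adelic.gsum_eq {f : Place → (ι → Qbar) → ℝ} {x : ι → Qbar} (h : Adelic f x)
    (S : Finset Place) (hS : h.toFinset ⊆ S) : gsum f x = ∑ v ∈ S, gavg (f v) x :=
  gsum_eq_sum S fun _ hv _ hy => h.eq_zero (fun hv' => hv (hS hv')) hy

theorem adelic_of_finset {f : Place → (ι → Qbar) → ℝ} {x : ι → Qbar} (S : Finset Place)
    (hS : ∀ v, v ∉ S → ∀ y ∈ orbitFS x, f v y = 0) : Adelic f x := by
  refine S.finite_toSet.subset ?_
  rintro v ⟨y, hy, hne⟩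
  by_contra hvS
  exact hne (hS v hvS y hy)

theorem adelic_zero (x : ι → Qbar) : Adelic (fun _ _ => (0 : ℝ)) x :=
  adelic_of_finset ∅ fun _ _ _ _ => rfl

theorem Adelic.add {f g : Place → (ι → Qbar) → ℝ} {x : ι → Qbar} (hf : Adelic f x)
    (hg : Adelic g x) : Adelic (fun v y => f v y + g v y) x := by
  classical
  refine adelic_of_finset (hf.toFinset ∪ hg.toFinset) fun v hv y hy => ?_
  rw [Finset.mem_union, not_or] at hv
  rw [hf.eq_zero hv.1 hy, hg.eq_zero hv.2 hy, add_zero]

theorem Adelic.neg {f : Place → (ι → Qbar) → ℝ} {x : ι → Qbar} (hf : Adelic f x) :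
    Adelic (fun v y => - f v y) x :=
  adelic_of_finset hf.toFinset fun v hv y hy => by rw [hf.eq_zero hv hy, neg_zero]

theorem Adelic.sub {f g : Place → (ι → Qbar) → ℝ} {x : ι → Qbar} (hf : Adelic f x)
    (hg : Adelic g x) : Adelic (fun v y => f v y - g v y) x := by
  simpa only [sub_eq_add_neg] using hf.add hg.neg

theorem Adelic.const_mul {f : Place → (ι → Qbar) → ℝ} {x : ι → Qbar} (hf : Adelic f x) (c : ℝ) :
    Adelic (fun v y => c * f v y) x :=
  adelic_of_finset hf.toFinset fun v hv y hy => by rw [hf.eq_zero hv hy, mul_zero]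

theorem adelic_finset_sum {α : Type*} (s : Finset α) {f : α → Place → (ι → Qbar) → ℝ}
    {x : ι → Qbar} (hf : ∀ a ∈ s, Adelic (f a) x) : Adelic (fun v y => ∑ a ∈ s, f a v y) x := by
  classical
  induction s using Finset.induction_on with
  | empty => simpa using adelic_zero x
  | insert a s ha ih =>
    have h1 := hf a (Finset.mem_insert_self a s)
    have h2 := ih fun b hb => hf b (Finset.mem_insert_of_mem hb)
    simpa only [Finset.sum_insert ha] using h1.add h2

theorem Adelic.congr {f g : Place → (ι → Qbar) → ℝ} {x : ι → Qbar} (hf : Adelic f x)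
    (h : ∀ v, ∀ y ∈ orbitFS x, f v y = g v y) : Adelic g x :=
  adelic_of_finset hf.toFinset fun v hv y hy => by rw [← h v y hy, hf.eq_zero hv hy]

theorem gsum_congr {f g : Place → (ι → Qbar) → ℝ} {x : ι → Qbar}
    (h : ∀ v, ∀ y ∈ orbitFS x, f v y = g v y) : gsum f x = gsum g x := by
  rw [gsum, gsum]
  exact finsum_congr fun v => gavg_congr (h v)

theorem gsum_zero (x : ι → Qbar) : gsum (fun _ _ => (0 : ℝ)) x = 0 := by
  rw [gsum_eq_sum ∅ fun _ _ _ _ => rfl, Finset.sum_empty]

theorem gsum_add {f g : Place → (ι → Qbar) → ℝ} {x : ι → Qbar} (hf : Adelic f x)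
    (hg : Adelic g x) : gsum (fun v y => f v y + g v y) x = gsum f x + gsum g x := by
  classical
  set S := hf.toFinset ∪ hg.toFinset with hS
  rw [(hf.add hg).gsum_eq S ?_, hf.gsum_eq S Finset.subset_union_left,
    hg.gsum_eq S Finset.subset_union_right, ← Finset.sum_add_distrib]
  · exact Finset.sum_congr rfl fun v _ => gavg_add _ _ _
  · intro v hv
    obtain ⟨y, hy, hne⟩ := (hf.add hg).mem_toFinset.mp hv
    by_contra hvS
    rw [hS, Finset.mem_union, not_or] at hvS
    exact hne (by show f v y + g v y = 0; rw [hf.eq_zero hvS.1 hy, hg.eq_zero hvS.2 hy, add_zero])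

theorem gsum_neg (f : Place → (ι → Qbar) → ℝ) (x : ι → Qbar) :
    gsum (fun v y => - f v y) x = - gsum f x := by
  rw [gsum, gsum, ← finsum_neg_distrib]
  exact finsum_congr fun v => gavg_neg _ _

theorem gsum_sub {f g : Place → (ι → Qbar) → ℝ} {x : ι → Qbar} (hf : Adelic f x)
    (hg : Adelic g x) : gsum (fun v y => f v y - g v y) x = gsum f x - gsum g x := by
  have h := gsum_add hf hg.neg
  rw [gsum_neg] at h
  simpa only [sub_eq_add_neg] using h

theorem gsum_const_mul (c : ℝ) (f : Place → (ι → Qbar) → ℝ) (x : ι → Qbar) :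
    gsum (fun v y => c * f v y) x = c * gsum f x := by
  rw [gsum, gsum, mul_finsum]
  exact finsum_congr fun v => gavg_const_mul _ _ _

theorem gsum_finset_sum {α : Type*} (s : Finset α) {f : α → Place → (ι → Qbar) → ℝ}
    {x : ι → Qbar} (hf : ∀ a ∈ s, Adelic (f a) x) :
    gsum (fun v y => ∑ a ∈ s, f a v y) x = ∑ a ∈ s, gsum (f a) x := by
  classical
  induction s using Finset.induction_on with
  | empty => simpa using gsum_zero x
  | insert a s ha ih =>
    have h1 := hf a (Finset.mem_insert_self a s)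
    have h2 : ∀ b ∈ s, Adelic (f b) x := fun b hb => hf b (Finset.mem_insert_of_mem hb)
    have h3 := gsum_add h1 (adelic_finset_sum s h2)
    rw [Finset.sum_insert ha, ← ih h2, ← h3]
    exact gsum_congr fun v y _ => by rw [Finset.sum_insert ha]

theorem gsum_smul_arg (f : Place → (ι → Qbar) → ℝ) (σ : GQ) (x : ι → Qbar) :
    gsum f (σ • x) = gsum f x := by
  rw [gsum, gsum]
  exact finsum_congr fun v => gavg_smul_arg _ _ _

theorem adelic_smul_arg {f : Place → (ι → Qbar) → ℝ} (σ : GQ) {x : ι → Qbar} (h : Adelic f x) :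
    Adelic f (σ • x) := by
  unfold Adelic at h ⊢
  rwa [orbitFS_smul]

/-- Global sums are compatible with equivariant maps ("extension invariance"). -/
theorem gsum_comp {π : (ι → Qbar) → (κ → Qbar)}
    (hπ : ∀ (σ : GQ) (y : ι → Qbar), π (σ • y) = σ • π y) (f : Place → (κ → Qbar) → ℝ)
    (w : ι → Qbar) : gsum (fun v y => f v (π y)) w = gsum f (π w) := by
  rw [gsum, gsum]
  exact finsum_congr fun v => gavg_comp hπ (f v) w

theorem map_mem_orbitFS {π : (ι → Qbar) → (κ → Qbar)}
    (hπ : ∀ (σ : GQ) (y : ι → Qbar), π (σ • y) = σ • π y) {w y : ι → Qbar}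
    (hy : y ∈ orbitFS w) : π y ∈ orbitFS (π w) := by
  obtain ⟨σ, rfl⟩ := mem_orbitFS.mp hy
  exact mem_orbitFS.mpr ⟨σ, (hπ σ w).symm⟩

theorem Adelic.comp {π : (ι → Qbar) → (κ → Qbar)}
    (hπ : ∀ (σ : GQ) (y : ι → Qbar), π (σ • y) = σ • π y) {f : Place → (κ → Qbar) → ℝ}
    {w : ι → Qbar} (h : Adelic f (π w)) : Adelic (fun v y => f v (π y)) w :=
  adelic_of_finset h.toFinset fun _ hv _ hy => h.eq_zero hv (map_mem_orbitFS hπ hy)

/-- **LOCAL ⇒ GLOBAL**: a local inequality `f v ≤ g v + c v` on the Galois orbit of `x`, with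
constants `c v` vanishing for almost all `v`, sums to a global inequality. -/
theorem gsum_le_add_const {f g : Place → (ι → Qbar) → ℝ} {x : ι → Qbar} {c : Place → ℝ}
    (hc : (Function.support c).Finite) (hf : Adelic f x) (hg : Adelic g x)
    (h : ∀ v, ∀ y ∈ orbitFS x, f v y ≤ g v y + c v) :
    gsum f x ≤ gsum g x + ∑ᶠ v, c v := by
  classical
  set S := hf.toFinset ∪ hg.toFinset ∪ hc.toFinset with hS
  have h1 : gsum f x = ∑ v ∈ S, gavg (f v) x :=
    hf.gsum_eq S (Finset.subset_union_left.trans Finset.subset_union_left)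
  have h2 : gsum g x = ∑ v ∈ S, gavg (g v) x :=
    hg.gsum_eq S (Finset.subset_union_right.trans Finset.subset_union_left)
  have h3 : ∑ᶠ v, c v = ∑ v ∈ S, c v := by
    refine finsum_eq_sum_of_support_subset _ ?_
    intro v hv
    exact Finset.mem_coe.mpr (Finset.mem_union_right _ (hc.mem_toFinset.mpr hv))
  rw [h1, h2, h3, ← Finset.sum_add_distrib]
  refine Finset.sum_le_sum fun v _ => ?_
  calc gavg (f v) x ≤ gavg (fun y => g v y + c v) x := gavg_mono (h v)
    _ = gavg (g v) x + c v := by rw [gavg_add, gavg_const]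

/-- Two-sided version. -/
theorem abs_gsum_sub_le {f g : Place → (ι → Qbar) → ℝ} {x : ι → Qbar} {c : Place → ℝ}
    (hc : (Function.support c).Finite) (hf : Adelic f x) (hg : Adelic g x)
    (h : ∀ v, ∀ y ∈ orbitFS x, |f v y - g v y| ≤ c v) :
    |gsum f x - gsum g x| ≤ ∑ᶠ v, c v := by
  rw [abs_le]
  constructor
  · have := gsum_le_add_const hc hg hf fun v y hy => by
      have := (abs_le.mp (h v y hy)).1
      linarith
    linarith
  · have := gsum_le_add_const hc hf hg fun v y hy => by
      have := (abs_le.mp (h v y hy)).2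
      linarith
    linarith

theorem gsum_nonneg {f : Place → (ι → Qbar) → ℝ} {x : ι → Qbar}
    (h : ∀ v, ∀ y ∈ orbitFS x, 0 ≤ f v y) : 0 ≤ gsum f x :=
  finsum_nonneg fun v => gavg_nonneg (h v)

end Fermat.Agent.MW.HT.Glob3
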