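/-
PROGRAMME MW (S17), block HT — helper3.  `PFRat3`: the product formula of `ℚ` in terms of the fixed
absolute values `absV v` on `Qbar`: for `r ≠ 0` the family `v ↦ log |r|_v` has finite support and
sums to zero.
-/
import Mathlib
import Fermat.Agent.MW.HT.Place3

set_option autoImplicit false

namespace Fermat.Agent.MW.HT.PFRat3

open Fermat.Agent.MW.HT.Place3

/-- `log |r|_v` for a rational number `r`. -/
noncomputable def ratLog (r : ℚ) (v : Place) : ℝ := Real.log (absV v (algebraMap ℚ Qbar r))

theorem ratLog_none (r : ℚ) : ratLog r none = Real.log |(r : ℝ)| := by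
  rw [ratLog, absV_none_rat]

theorem ratLog_some (p : Nat.Primes) (r : ℚ) :
    ratLog r (some p) = Real.log ((padicNorm p r : ℚ) : ℝ) := by
  rw [ratLog, absV_some_rat]

theorem ratLog_mul {r s : ℚ} (hr : r ≠ 0) (hs : s ≠ 0) (v : Place) :
    ratLog (r * s) v = ratLog r v + ratLog s v := by
  rw [ratLog, ratLog, ratLog, map_mul, map_mul, Real.log_mul]
  · exact (absV v).ne_zero ((map_ne_zero _).mpr hr)
  · exact (absV v).ne_zero ((map_ne_zero _).mpr hs)

theorem ratLog_one (v : Place) : ratLog 1 v = 0 := by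
  rw [ratLog, map_one, map_one, Real.log_one]

theorem ratLog_neg (r : ℚ) (v : Place) : ratLog (-r) v = ratLog r v := by
  rw [ratLog, ratLog, map_neg, map_neg_eq_map]

theorem finite_primes_dvd {m : ℕ} (hm : m ≠ 0) : {p : Nat.Primes | (p : ℕ) ∣ m}.Finite := by
  refine Set.Finite.of_injOn (f := fun p : Nat.Primes => (p : ℕ))
    (t := (↑(Nat.divisors m) : Set ℕ)) ?_ ?_ (Nat.divisors m).finite_toSet
  · intro p hp
    exact Finset.mem_coe.mpr (Nat.mem_divisors.mpr ⟨hp, hm⟩)
  · intro p _ q _ h
    exact Subtype.ext h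

theorem ratLog_nat_support {m : ℕ} (hm : m ≠ 0) :
    (Function.support (ratLog (m : ℚ))).Finite := by
  have hfin : (insert (none : Place) (some '' {p : Nat.Primes | (p : ℕ) ∣ m})).Finite :=
    ((finite_primes_dvd hm).image _).insert _
  refine hfin.subset ?_
  intro v hv
  rcases v with _ | p
  · exact Set.mem_insert _ _
  · refine Set.mem_insert_of_mem _ ⟨p, ?_, rfl⟩
    by_contra hnd
    apply hv
    have := primeFact p
    rw [ratLog_some]
    have : padicNorm p (m : ℚ) = 1 := (padicNorm.nat_eq_one_iff (p := (p : ℕ)) m).mpr hnd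
    rw [this]
    simp

theorem ratLog_support {r : ℚ} (hr : r ≠ 0) : (Function.support (ratLog r)).Finite := by
  have hnum : r.num.natAbs ≠ 0 := Int.natAbs_ne_zero.mpr (Rat.num_ne_zero.mpr hr)
  have hden : r.den ≠ 0 := r.den_nz
  refine ((ratLog_nat_support hnum).union (ratLog_nat_support hden)).subset ?_
  intro v hv
  by_contra hnot
  rw [Set.mem_union, not_or, Function.mem_support, Function.mem_support, not_not, not_not] at hnot
  apply hv
  -- r * den = num = ± natAbs
  have hdq : (r.den : ℚ) ≠ 0 := by exact_mod_cast hden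
  have h1 : ratLog (r * (r.den : ℚ)) v = ratLog r v + ratLog (r.den : ℚ) v := ratLog_mul hr hdq v
  have h2 : r * (r.den : ℚ) = (r.num : ℚ) := Rat.mul_den_eq_num r
  have h3 : ratLog ((r.num : ℚ)) v = ratLog ((r.num.natAbs : ℕ) : ℚ) v := by
    rcases Int.natAbs_eq r.num with h | h
    · conv_lhs => rw [h]
      simp
    · conv_lhs => rw [h]
      rw [Int.cast_neg, ratLog_neg]
      simp
  rw [h2, h3, hnot.1, hnot.2, add_zero] at h1
  exact h1.symm

/-- The sum over all places of `log |r|_v`. -/
noncomputable def locsum (r : ℚ) : ℝ := ∑ᶠ v : Place, ratLog r v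

theorem locsum_mul {r s : ℚ} (hr : r ≠ 0) (hs : s ≠ 0) :
    locsum (r * s) = locsum r + locsum s := by
  rw [locsum, locsum, locsum, ← finsum_add_distrib (ratLog_support hr) (ratLog_support hs)]
  exact finsum_congr fun v => ratLog_mul hr hs v

theorem locsum_one : locsum 1 = 0 := by
  rw [locsum]
  simp [ratLog_one]

theorem locsum_neg (r : ℚ) : locsum (-r) = locsum r := by
  rw [locsum, locsum]
  exact finsum_congr fun v => ratLog_neg r v

theorem locsum_prime (q : Nat.Primes) : locsum ((q : ℕ) : ℚ) = 0 := by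
  classical
  have := primeFact q
  have hq0 : ((q : ℕ) : ℝ) ≠ 0 := by exact_mod_cast q.2.ne_zero
  have hsupp : Function.support (ratLog ((q : ℕ) : ℚ)) ⊆ ↑({none, some q} : Finset Place) := by
    intro v hv
    rcases v with _ | p
    · simp
    · by_cases hpq : p = q
      · simp [hpq]
      · exfalso
        apply hv
        have := primeFact p
        rw [ratLog_some]
        have hne : (p : ℕ) ≠ (q : ℕ) := fun h => hpq (Subtype.ext h)
        have : padicNorm p ((q : ℕ) : ℚ) = 1 := padicNorm.padicNorm_of_prime_of_ne hne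
        rw [this]
        simp
  rw [locsum, finsum_eq_sum_of_support_subset _ hsupp, Finset.sum_pair (by simp)]
  rw [ratLog_none, ratLog_some, padicNorm.padicNorm_p_of_prime]
  push_cast
  rw [abs_of_nonneg (Nat.cast_nonneg _), Real.log_inv]
  ring

theorem locsum_nat {m : ℕ} (hm : m ≠ 0) : locsum (m : ℚ) = 0 := by
  induction m using Nat.recOnMul with
  | zero => exact absurd rfl hm
  | one => simpa using locsum_one
  | prime p hp =>
    exact locsum_prime ⟨p, hp⟩
  | mul a b iha ihb =>
    have ha : a ≠ 0 := fun h => hm (by simp [h])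
    have hb : b ≠ 0 := fun h => hm (by simp [h])
    rw [Nat.cast_mul, locsum_mul (by exact_mod_cast ha) (by exact_mod_cast hb), iha ha, ihb hb,
      add_zero]

/-- **Product formula for `ℚ`**. -/
theorem locsum_eq_zero {r : ℚ} (hr : r ≠ 0) : locsum r = 0 := by
  have hnum : r.num.natAbs ≠ 0 := Int.natAbs_ne_zero.mpr (Rat.num_ne_zero.mpr hr)
  have hden : r.den ≠ 0 := r.den_nz
  have hdq : (r.den : ℚ) ≠ 0 := by exact_mod_cast hden
  have h1 : locsum (r * (r.den : ℚ)) = locsum r + locsum (r.den : ℚ) := locsum_mul hr hdq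
  have h2 : r * (r.den : ℚ) = (r.num : ℚ) := Rat.mul_den_eq_num r
  have h3 : locsum ((r.num : ℚ)) = locsum ((r.num.natAbs : ℕ) : ℚ) := by
    rcases Int.natAbs_eq r.num with h | h
    · conv_lhs => rw [h]
      simp
    · conv_lhs => rw [h]
      rw [Int.cast_neg, locsum_neg]
      simp
  rw [h2, h3, locsum_nat hnum, locsum_nat hden, add_zero] at h1
  exact h1.symm

end Fermat.Agent.MW.HT.PFRat3
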