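/-
PROGRAMME MW (S17), block HT — helper3.  `PF3`: for a nonzero algebraic number `a`, all Galois
conjugates of `a` have `|.|_v = 1` for all but finitely many places `v` (`finite_absV_ne_one`);
the PRODUCT FORMULA on `Qbar` in Galois-averaged form (`product_formula`): for an equivariant
scalar function `a` of the configuration `w` with `a w ≠ 0`,
`gsum (fun v y => log |a y|_v) w = 0`.
-/
import Mathlib
import Fermat.Agent.MW.HT.Glob3
import Fermat.Agent.MW.HT.PFRat3

set_option autoImplicit false

namespace Fermat.Agent.MW.HT.PF3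

open Fermat.Agent.MW.HT.Place3 Fermat.Agent.MW.HT.Orbit3 Fermat.Agent.MW.HT.Glob3
  Fermat.Agent.MW.HT.PFRat3

/-- A polynomial with `p`-integral rational coefficients takes `p`-integral values at
`p`-integral algebraic numbers. -/
theorem absV_aeval_le_one (p : Nat.Primes) (q : Polynomial ℚ)
    (hq : ∀ i, padicNorm p (q.coeff i) ≤ 1) {b : Qbar} (hb : absV (some p) b ≤ 1) :
    absV (some p) (Polynomial.aeval b q) ≤ 1 := by
  have hv : IsNonarchimedean (absV (some p)) := absV_nonarch p
  rw [Polynomial.aeval_eq_sum_range]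
  have hne : (Finset.range (q.natDegree + 1)).Nonempty := ⟨0, Finset.mem_range.mpr (Nat.succ_pos _)⟩
  refine (hv.apply_sum_le_sup hne).trans ?_
  refine Finset.sup'_le hne _ fun i _ => ?_
  rw [Algebra.smul_def, map_mul, map_pow, absV_some_rat]
  have h1 : ((padicNorm p (q.coeff i) : ℚ) : ℝ) ≤ 1 := by exact_mod_cast hq i
  have h2 : absV (some p) b ^ i ≤ 1 := pow_le_one₀ ((absV (some p)).nonneg b) hb
  calc ((padicNorm p (q.coeff i) : ℚ) : ℝ) * absV (some p) b ^ i ≤ 1 * 1 :=
        mul_le_mul h1 h2 (pow_nonneg ((absV (some p)).nonneg b) _) zero_le_one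
    _ = 1 := one_mul 1

/-- A root of a monic rational polynomial with `p`-integral coefficients is `p`-integral. -/
theorem absV_root_le_one (p : Nat.Primes) (f : Polynomial ℚ) (hf : f.Monic)
    (hc : ∀ i, padicNorm p (f.coeff i) ≤ 1) {b : Qbar} (hb : Polynomial.aeval b f = 0) :
    absV (some p) b ≤ 1 := by
  by_contra hlt
  rw [not_le] at hlt
  set v := absV (some p) with hvdef
  have hv : IsNonarchimedean v := absV_nonarch p
  set d := f.natDegree with hd
  have h1 : b ^ d = - ∑ i ∈ Finset.range d, (algebraMap ℚ Qbar (f.coeff i)) * b ^ i := by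
    have h := hb
    rw [Polynomial.aeval_eq_sum_range, Finset.sum_range_succ, ← hd, hd, hf.coeff_natDegree,
      one_smul] at h
    simp only [Algebra.smul_def] at h
    linear_combination h
  rcases Nat.eq_zero_or_pos d with h0 | hpos
  · rw [h0] at h1
    simp at h1
  · have hne : (Finset.range d).Nonempty := ⟨0, Finset.mem_range.mpr hpos⟩
    have h2 : v (b ^ d) ≤ v b ^ (d - 1) := by
      rw [h1, map_neg_eq_map]
      refine (hv.apply_sum_le_sup hne).trans ?_
      refine Finset.sup'_le hne _ fun i hi => ?_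
      rw [map_mul, map_pow, hvdef, absV_some_rat]
      have hc' : ((padicNorm p (f.coeff i) : ℚ) : ℝ) ≤ 1 := by exact_mod_cast hc i
      have hi' : i ≤ d - 1 := Nat.le_sub_one_of_lt (Finset.mem_range.mp hi)
      calc ((padicNorm p (f.coeff i) : ℚ) : ℝ) * absV (some p) b ^ i
            ≤ 1 * absV (some p) b ^ (d - 1) := by
            apply mul_le_mul hc' (pow_le_pow_right₀ hlt.le hi')
              (pow_nonneg ((absV (some p)).nonneg b) _) zero_le_one
        _ = absV (some p) b ^ (d - 1) := one_mul _
    rw [map_pow] at h2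
    have h3 : v b ^ (d - 1) < v b ^ d := pow_lt_pow_right₀ hlt (Nat.sub_one_lt hpos.ne')
    exact absurd h2 (not_le.mpr h3)

/-- If moreover the constant coefficient is a `p`-adic unit, every root is a `p`-adic unit. -/
theorem absV_root_eq_one (p : Nat.Primes) (f : Polynomial ℚ) (hf : f.Monic)
    (hc : ∀ i, padicNorm p (f.coeff i) ≤ 1) (h0 : padicNorm p (f.coeff 0) = 1) {b : Qbar}
    (hb : Polynomial.aeval b f = 0) : absV (some p) b = 1 := by
  have hle := absV_root_le_one p f hf hc hb
  refine le_antisymm hle ?_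
  have hdecomp : f = f.divX * Polynomial.X + Polynomial.C (f.coeff 0) :=
    (Polynomial.divX_mul_X_add f).symm
  have h1 : Polynomial.aeval b f.divX * b + algebraMap ℚ Qbar (f.coeff 0) = 0 := by
    have h := hb
    rw [hdecomp] at h
    simpa using h
  have h2 : algebraMap ℚ Qbar (f.coeff 0) = - (Polynomial.aeval b f.divX * b) := by
    linear_combination h1
  have h3 : absV (some p) (algebraMap ℚ Qbar (f.coeff 0)) = 1 := by
    rw [absV_some_rat, h0]
    simp
  have h4 : absV (some p) (Polynomial.aeval b f.divX) ≤ 1 :=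
    absV_aeval_le_one p f.divX (fun i => by rw [Polynomial.coeff_divX]; exact hc _) hle
  rw [h2, map_neg_eq_map, map_mul] at h3
  calc (1 : ℝ) = absV (some p) (Polynomial.aeval b f.divX) * absV (some p) b := h3.symm
    _ ≤ 1 * absV (some p) b :=
        mul_le_mul_of_nonneg_right h4 ((absV (some p)).nonneg b)
    _ = absV (some p) b := one_mul _

theorem padicNorm_eq_one_of_ratLog {p : Nat.Primes} {r : ℚ} (hr : r ≠ 0)
    (h : ratLog r (some p) = 0) : padicNorm p r = 1 := by
  have := primeFact p
  rw [ratLog_some] at h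
  have hpos : (0 : ℝ) < ((padicNorm p r : ℚ) : ℝ) := by
    have : 0 < padicNorm p r :=
      lt_of_le_of_ne (padicNorm.nonneg r) (Ne.symm (padicNorm.nonzero hr))
    exact_mod_cast this
  have := Real.eq_one_of_pos_of_log_eq_zero hpos h
  exact_mod_cast this

/-- All conjugates of a nonzero algebraic number are `v`-adic units for almost all `v`. -/
theorem finite_absV_ne_one {a : Qbar} (ha : a ≠ 0) :
    {v : Place | ∃ σ : GQ, absV v (σ a) ≠ 1}.Finite := by
  classical
  have hint : IsIntegral ℚ a := isAlgebraicQbar.isIntegral.isIntegral a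
  set f := minpoly ℚ a with hf
  have hmonic : f.Monic := minpoly.monic hint
  have hbad : (insert (none : Place)
      (⋃ i ∈ f.support, Function.support (ratLog (f.coeff i)))).Finite := by
    refine Set.Finite.insert _ ?_
    refine Set.Finite.biUnion f.support.finite_toSet fun i hi => ?_
    exact ratLog_support (Polynomial.mem_support_iff.mp hi)
  refine hbad.subset ?_
  rintro v ⟨σ, hσ⟩
  rcases v with _ | p
  · exact Set.mem_insert _ _
  · refine Set.mem_insert_of_mem _ ?_
    by_contra hnot
    apply hσ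
    simp only [Set.mem_iUnion, not_exists] at hnot
    have hcoef : ∀ i, f.coeff i ≠ 0 → padicNorm p (f.coeff i) = 1 := by
      intro i hi
      apply padicNorm_eq_one_of_ratLog hi
      by_contra hne
      exact hnot i (Finset.mem_coe.mpr (Polynomial.mem_support_iff.mpr hi)) hne
    have hc : ∀ i, padicNorm p (f.coeff i) ≤ 1 := by
      intro i
      by_cases hi : f.coeff i = 0
      · rw [hi]
        simp
      · exact (hcoef i hi).le
    have h0 : padicNorm p (f.coeff 0) = 1 := hcoef 0 (minpoly.coeff_zero_ne_zero hint ha)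
    have hroot : Polynomial.aeval (σ a) f = 0 := by
      rw [Polynomial.aeval_algEquiv, AlgHom.comp_apply, hf, minpoly.aeval]
      simp
    exact absV_root_eq_one p f hmonic hc h0 hroot

/-- Product formula for a single nonzero algebraic number, as a one-point configuration. -/
theorem product_formula_one {b : Qbar} (hb : b ≠ 0) :
    gsum (fun v (y : Unit → Qbar) => Real.log (absV v (y ()))) (fun _ => b) = 0 := by
  classical
  have := isGaloisQbar
  set x : Unit → Qbar := fun _ => b with hx
  set c : Qbar := ∏ y ∈ orbitFS x, y () with hc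
  have hfix : ∀ σ : GQ, σ c = c := by
    intro σ
    rw [hc, map_prod]
    refine Finset.prod_nbij' (fun y => σ • y) (fun y => σ⁻¹ • y) ?_ ?_ ?_ ?_ ?_
    · intro y hy
      obtain ⟨τ, rfl⟩ := mem_orbitFS.mp hy
      exact mem_orbitFS.mpr ⟨σ * τ, by rw [mul_smul]⟩
    · intro y hy
      obtain ⟨τ, rfl⟩ := mem_orbitFS.mp hy
      exact mem_orbitFS.mpr ⟨σ⁻¹ * τ, by rw [mul_smul]⟩
    · intro y _
      simp
    · intro y _
      simp
    · intro y _
      rfl
  obtain ⟨r, hr⟩ := (InfiniteGalois.mem_range_algebraMap_iff_fixed (k := ℚ) c).mpr hfix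
  have hy0 : ∀ y ∈ orbitFS x, y () ≠ 0 := by
    intro y hy
    obtain ⟨τ, rfl⟩ := mem_orbitFS.mp hy
    show τ (x ()) ≠ 0
    exact (map_ne_zero _).mpr hb
  have hc0 : c ≠ 0 := Finset.prod_ne_zero_iff.mpr hy0
  have hr0 : r ≠ 0 := by
    rintro rfl
    rw [map_zero] at hr
    exact hc0 hr.symm
  have hloc : ∀ v : Place, gavg (fun y : Unit → Qbar => Real.log (absV v (y ()))) x
      = ratLog r v * ((orbitFS x).card : ℝ)⁻¹ := by
    intro v
    rw [gavg, div_eq_mul_inv, ratLog, hr, hc, map_prod, Real.log_prod]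
    intro y hy
    exact (absV v).ne_zero (hy0 y hy)
  rw [gsum]
  rw [finsum_congr hloc, ← finsum_mul]
  have := locsum_eq_zero hr0
  rw [locsum] at this
  rw [this, zero_mul]

/-- **Product formula** on `Qbar`, Galois-averaged form. -/
theorem product_formula {ι : Type*} [Finite ι] {a : (ι → Qbar) → Qbar}
    (ha : ∀ (σ : GQ) (y : ι → Qbar), a (σ • y) = σ (a y)) {w : ι → Qbar} (h0 : a w ≠ 0) :
    gsum (fun v y => Real.log (absV v (a y))) w = 0 := by
  have hπ : ∀ (σ : GQ) (y : ι → Qbar),
      (fun y => fun _ : Unit => a y) (σ • y) = σ • (fun y => fun _ : Unit => a y) y := by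
    intro σ y
    funext _
    exact ha σ y
  have h := gsum_comp (π := fun y => fun _ : Unit => a y) hπ
    (fun v (z : Unit → Qbar) => Real.log (absV v (z ()))) w
  rw [h]
  exact product_formula_one h0

/-- The family `v ↦ log |a y|_v` is adelic. -/
theorem adelic_log_absV {ι : Type*} [Finite ι] {a : (ι → Qbar) → Qbar}
    (ha : ∀ (σ : GQ) (y : ι → Qbar), a (σ • y) = σ (a y)) {w : ι → Qbar} (h0 : a w ≠ 0) :
    Adelic (fun v y => Real.log (absV v (a y))) w := by
  refine (finite_absV_ne_one h0).subset ?_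
  rintro v ⟨y, hy, hne⟩
  obtain ⟨σ, rfl⟩ := mem_orbitFS.mp hy
  refine ⟨σ, fun h => hne ?_⟩
  show Real.log (absV v (a (σ • w))) = 0
  rw [ha, h, Real.log_one]

end Fermat.Agent.MW.HT.PF3
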